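import Fermat.Agent.RT.Lift59.Square.Cusp
import Fermat.Agent.RT.Lift59.Curve.Level
import Fermat.Agent.RT.Lift59.Mazur.Main
import Fermat.Agent.RT.Two.Seed.EigenHom

/-!
# The end of the descent at `q²`: from an eigen homomorphism to residual modularity

An eigen homomorphism modulo `p` of a system that is not Eisenstein kills the elliptic and parabolic
elements of a level with a prime congruent to `2` modulo `3`, so it comes from an eigen class; the
auxiliary prime then leaves the level by the principle of Mazur.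
-/

set_option autoImplicit false
set_option linter.style.haveILetI false

noncomputable section

open CongruenceSubgroup WeierstrassCurve
open Fermat.Agent.Periods (homT)
open scoped MatrixGroups

namespace Fermat.Agent.RT.Lift59.Square

/-- No elements of trace `± 1` at a level with a prime `2 (mod 3)`. -/
theorem trace_sq_ne_one {L r : ℕ} (hr : r.Prime) (hrL : r ∣ L) (hr3 : r % 3 = 2) (γ : Gamma0 L) :
    ((γ : SL(2, ℤ)) 0 0 + (γ : SL(2, ℤ)) 1 1) * ((γ : SL(2, ℤ)) 0 0 + (γ : SL(2, ℤ)) 1 1) ≠ 1 := by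
  intro ht
  have : Fact r.Prime := ⟨hr⟩
  have hc : (((γ : SL(2, ℤ)) 1 0 : ℤ) : ZMod r) = 0 :=
    (ZMod.intCast_zmod_eq_zero_iff_dvd _ _).mpr ((Int.natCast_dvd_natCast.2 hrL).trans
      ((ZMod.intCast_zmod_eq_zero_iff_dvd _ _).mp (Gamma0_mem.mp γ.2)))
  have hdet := congrArg (Int.cast : ℤ → ZMod r) (Gamma0.det_eq (γ : SL(2, ℤ)))
  have ht' := congrArg (Int.cast : ℤ → ZMod r) ht
  push_cast at hdet ht'
  rw [hc, mul_zero, sub_zero] at hdet
  set a : ZMod r := (((γ : SL(2, ℤ)) 0 0 : ℤ) : ZMod r)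
  set d : ZMod r := (((γ : SL(2, ℤ)) 1 1 : ℤ) : ZMod r)
  set x : ZMod r := -(a + d) * a with hx
  have hq : x * x + x + 1 = 0 := by
    rw [hx]
    linear_combination (a * a) * ht' - hdet
  have h3 : x ^ 3 = 1 := by linear_combination (x - 1) * hq
  have hx1 : x ≠ 1 := fun h => by
    rw [h] at hq
    have : ((3 : ℕ) : ZMod r) = 0 := by push_cast; linear_combination hq
    have := (Nat.prime_dvd_prime_iff_eq hr Nat.prime_three).1
      ((ZMod.natCast_eq_zero_iff _ _).1 this)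
    omega
  have hx0 : x ≠ 0 := fun h => by rw [h] at h3; simp at h3
  have h3' := ZMod.pow_card_sub_one_eq_one hx0
  obtain ⟨k, hk⟩ : ∃ k, r - 1 = 3 * k + 1 := ⟨r / 3, by omega⟩
  rw [hk, pow_add, pow_mul, h3, one_pow, one_mul, pow_one] at h3'
  exact hx1 h3'

variable {W : WeierstrassCurve ℤ} {p : ℕ} [Fact p.Prime]

/-- An eigen homomorphism of a system that is not Eisenstein is parabolic and kills torsion if
it kills the elements of trace `± 1`. -/
theorem mem_ellParHoms_of_not_eis (hp2 : p ≠ 2) (hΔ : W.Δ ≠ 0) (hirr : W.ModRepIsIrreducible p)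
    {L : ℕ} [NeZero L] {φ : Additive (Gamma0 L) →+ ZMod p} (S : Finset ℕ)
    (heig : ∀ l (hl : l.Prime) (hlL : ¬ l ∣ L), l ∉ S → homT hl hlL ℤ φ = W.apOfModel l • φ)
    (h1 : ∀ γ : Gamma0 L, ((γ : SL(2, ℤ)) 0 0 + (γ : SL(2, ℤ)) 1 1) *
      ((γ : SL(2, ℤ)) 0 0 + (γ : SL(2, ℤ)) 1 1) = 1 → φ (Additive.ofMul γ) = 0) :
    φ ∈ Gamma0.ellParHoms (Gamma0 L) (ZMod p) := by
  have h2 : (2 : ZMod p) ≠ 0 := by
    intro h
    have h' : ((2 : ℕ) : ZMod p) = 0 := by exact_mod_cast h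
    exact hp2 ((Nat.prime_dvd_prime_iff_eq Fact.out Nat.prime_two).1
      ((ZMod.natCast_eq_zero_iff _ _).1 h'))
  have hneg : (-1 : SL(2, ℤ)) ∈ Gamma0 L := by simp [Gamma0_mem]
  have hn1 : φ (Additive.ofMul ⟨-1, hneg⟩) = 0 := by
    have e : (⟨-1, hneg⟩ : Gamma0 L) * ⟨-1, hneg⟩ = 1 := Subtype.ext (by simp)
    have h := congrArg (fun z => φ (Additive.ofMul z)) e
    simp only [ofMul_mul, map_add, ofMul_one, map_zero, ← two_mul] at h
    exact (mul_eq_zero.1 h).resolve_left h2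
  have hu : ∀ γ : Gamma0 L, (γ : SL(2, ℤ)) 0 0 + (γ : SL(2, ℤ)) 1 1 = 2 →
      φ (Additive.ofMul γ) = 0 := by
    intro γ htr
    obtain ⟨δ, m, hδ⟩ := Periods.exists_conj_T (γ : SL(2, ℤ)) htr
    rcases eq_or_ne m 0 with rfl | hm0
    · rw [zpow_zero, mul_one, mul_inv_cancel] at hδ
      rw [show γ = 1 from Subtype.ext hδ]
      exact map_zero φ
    obtain ⟨ℓ, hℓ, hℓS, hℓ1, hℓa⟩ := Curve.exists_wAbar_ne_of_dvd (k := ZMod p) hp2 hΔ hirr L
      (NeZero.ne L) (S ∪ m.natAbs.primeFactors ∪ L.primeFactors)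
    simp only [Finset.mem_union, not_or] at hℓS
    have hℓL : ¬ ℓ ∣ L := fun h => hℓS.2 (Nat.mem_primeFactors.2 ⟨hℓ, h, NeZero.ne L⟩)
    have hℓm : IsCoprime (ℓ : ℤ) m :=
      ((Nat.prime_iff_prime_int.1 hℓ).coprime_iff_not_dvd).2 fun h => hℓS.1.2
        (Nat.mem_primeFactors.2 ⟨hℓ, Int.natCast_dvd.1 h, Int.natAbs_ne_zero.2 hm0⟩)
    have : Fact ℓ.Prime := ⟨hℓ⟩
    have hX : δ * ModularGroup.T ^ m * δ⁻¹ ∈ Gamma0 L := hδ ▸ γ.2
    have e := homT_apply_conj_T hℓL hℓ1 φ δ hℓm hX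
    rw [heig ℓ hℓ hℓL hℓS.1.1, show (⟨_, hX⟩ : Gamma0 L) = γ from Subtype.ext hδ.symm] at e
    change W.apOfModel ℓ • φ (Additive.ofMul γ) = _ at e
    rw [zsmul_eq_mul, nsmul_eq_mul] at e
    push_cast at e
    by_contra hne
    refine hℓa ?_
    have h' := mul_right_cancel₀ hne e
    simpa [wAbar] using h'
  intro γ hγ
  rw [Matrix.trace_fin_two] at hγ
  set t := (γ : SL(2, ℤ)) 0 0 + (γ : SL(2, ℤ)) 1 1 with ht
  obtain ⟨ht0, ht0'⟩ : -2 ≤ t ∧ t ≤ 2 := ⟨by nlinarith, by nlinarith⟩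
  interval_cases h : t
  · have hγ' : (⟨-1, hneg⟩ * γ : Gamma0 L) * ⟨-1, hneg⟩ = γ := Subtype.ext (by simp)
    have h0 := hu (⟨-1, hneg⟩ * γ) (by simp; linarith)
    rw [← hγ', ofMul_mul, map_add, h0, hn1, add_zero]
  · exact h1 γ (by rw [← ht]; norm_num)
  · have hd : (γ : SL(2, ℤ)) 1 1 = -(γ : SL(2, ℤ)) 0 0 := by linarith
    have e : γ * γ = ⟨-1, hneg⟩ := by
      have hdet := Gamma0.det_eq (γ : SL(2, ℤ))
      refine Subtype.ext ?_
      ext i j
      fin_cases i <;> fin_cases j <;>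
        simp [Matrix.mul_apply, Fin.sum_univ_two, hd] at hdet ⊢ <;> linarith
    have h' := congrArg (fun z => φ (Additive.ofMul z)) e
    simp only [ofMul_mul, map_add, hn1, ← two_mul] at h'
    exact (mul_eq_zero.1 h').resolve_left h2
  · exact h1 γ (by rw [← ht]; norm_num)
  · exact hu γ h

/-- A parabolic eigen homomorphism gives an eigen class of order `p`. -/
theorem exists_eigenclass_of_ellParHom {L : ℕ} [NeZero L] {φ : Additive (Gamma0 L) →+ ZMod p}
    (hφ : φ ≠ 0) (hmem : φ ∈ Gamma0.ellParHoms (Gamma0 L) (ZMod p)) (S : Finset ℕ)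
    (heig : ∀ l (hl : l.Prime) (hlL : ¬ l ∣ L), l ∉ S → homT hl hlL ℤ φ = W.apOfModel l • φ)
    {G : ℕ → Prop} {a : ℕ → ℕ} (hG : ∀ l, l.Prime → G l → l ∉ S ∧ ¬ l ∣ L)
    (ha : ∀ l, l.Prime → G l → (a l : ZMod p) = (W.apOfModel l : ZMod p)) :
    ∃ x : ModularCurve.JZero L, x ≠ 0 ∧ p • x = 0 ∧
      ∀ l (hl : l.Prime), G l → ModularCurve.heckeOperatorBar L ⟨l, hl⟩ x = a l • x := by
  let e : ZMod p ≃+ ZMod (p ^ 1) := (ZMod.ringEquivCongr (pow_one p).symm).toAddEquiv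
  refine Two.Seed.exists_eigenclass_of_hom (L := L) (p := p) (φ := e.toAddMonoidHom.comp φ)
    (fun γ hγ => by rw [AddMonoidHom.comp_apply, hmem γ hγ, map_zero])
    (fun h => hφ (AddMonoidHom.ext fun z => e.injective (by
      rw [AddMonoidHom.zero_apply, map_zero]; exact DFunLike.congr_fun h z)))
    (fun l hl hlG => ?_)
  obtain ⟨hlS, hlL⟩ := hG l hl hlG
  rw [GaloisReps.homOp, dif_neg hlL]
  refine (Periods.homT_comp hl hlL ℤ ℤ e.toAddMonoidHom φ).trans ?_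
  refine AddMonoidHom.ext fun z => ?_
  show e (homT hl hlL ℤ φ z) = a l • e (φ z)
  rw [heig l hl hlL hlS, ← map_nsmul e]
  congr 1
  show W.apOfModel l • φ z = _
  rw [zsmul_eq_mul, nsmul_eq_mul, ha l hl hlG]

/-- **The end of the descent.** -/
theorem residuallyModular_of_hom (hs : Setting W p) {M q R₀ r : ℕ} (hseed : SeedLevel W p M)
    (_hq : q.Prime) (_hqp : q ≠ p) (hM : M = q * R₀ * q) (_hqR : ¬ q ∣ R₀) (hr : r.Prime)
    (hrM : ¬ r ∣ M) (hrgood : W.IsGoodPrimeFor r) (_hr4 : r % 4 = 3) (hr3 : r % 3 = 2)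
    (hrp : (r : ZMod p) ≠ 1) (hrp' : r ≠ p) [NeZero (q * (R₀ * r))]
    (φ : Additive (Gamma0 (q * (R₀ * r))) →+ ZMod p) (hφ : φ ≠ 0) (S : Finset ℕ)
    (heig : ∀ l (hl : l.Prime) (hlN : ¬ l ∣ q * (R₀ * r)), l ∉ S →
      homT hl hlN ℤ φ = W.apOfModel l • φ) :
    W.IsResiduallyModularOfLevel p (q * R₀) := by
  classical
  have hp : p.Prime := Fact.out
  have hp2 : p ≠ 2 := hs.hp.2
  have hR₀ : R₀ ≠ 0 := fun h => hseed.pos.ne' (by simp [hM, h])
  have hdvd : q * R₀ ∣ M := hM ▸ dvd_mul_right _ _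
  have hrL : r ∣ q * (R₀ * r) := (dvd_mul_left r R₀).mul_left q
  have hmem := mem_ellParHoms_of_not_eis hp2 hs.hΔ hs.hirr S heig fun γ ht =>
    absurd ht (trace_sq_ne_one hr hrL hr3 γ)
  -- the eigen class
  set a : ℕ → ℕ := fun l => (W.apOfModel l : ZMod p).val with ha
  have hacast : ∀ l, (a l : ZMod p) = (W.apOfModel l : ZMod p) := fun l =>
    ZMod.natCast_zmod_val _
  set T : Finset ℕ := S ∪ (q * (R₀ * r)).primeFactors with hT
  obtain ⟨x, hx0, hpx, hxe⟩ := exists_eigenclass_of_ellParHom hφ hmem S heig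
    (G := fun l => l ∉ T) (a := a) (fun l hl hlT => by
      simp only [hT, Finset.mem_union, not_or] at hlT
      exact ⟨hlT.1, fun h => hlT.2 (Nat.mem_primeFactors.2 ⟨hl, h, NeZero.ne _⟩)⟩)
    fun l _ _ => hacast l
  have hres : W.IsResiduallyModularOfLevel p (q * (R₀ * r)) :=
    residuallyModular_of_congr hs.hΔ (S := T) (fun _ h => h) hacast (RT.MazurQ.hasCong_of_eigenclass hx0 hpx hxe)
  -- the auxiliary prime leaves the level
  have hrqR : ¬ r ∣ q * R₀ := fun h => hrM (h.trans hdvd)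
  have hLr : (q * (R₀ * r)) = q * R₀ * r := (mul_assoc q R₀ r).symm
  have hseed' : SeedLevel W p (q * (R₀ * r)) := by
    refine ⟨Nat.pos_of_ne_zero (NeZero.ne (q * (R₀ * r))), hres, fun h => hseed.sq_p ?_,
      fun v hv hvp h => ?_⟩
    · rw [hLr] at h
      exact ((Nat.Coprime.pow_left 2 ((Nat.coprime_primes hp hr).2 hrp'.symm)).dvd_of_dvd_mul_right
        h).trans hdvd
    · rw [hLr] at h
      rcases eq_or_ne v r with rfl | hvr
      · refine hrqR ((dvd_pow_self v two_ne_zero).trans ?_)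
        exact Nat.dvd_of_mul_dvd_mul_right hv.pos (by rwa [← pow_succ])
      · exact hseed.cube v hv hvp (((Nat.Coprime.pow_left 3
          ((Nat.coprime_primes hv hr).2 hvr)).dvd_of_dvd_mul_right h).trans hdvd)
  have h := MazurQ.mazurInput W p (q * (R₀ * r)) r hs hseed' hr hrp' (hLr ▸ dvd_mul_left r _)
    (fun h => hrqR (Nat.dvd_of_mul_dvd_mul_right hr.pos (by rw [← sq, ← hLr]; exact h)))
    (by
      unfold SmallAt
      rw [padicValInt.eq_zero_of_not_dvd hrgood]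
      exact dvd_zero p)
    (fun h => hrp h.1)
  rwa [hLr, Nat.mul_div_cancel _ hr.pos] at h

end Fermat.Agent.RT.Lift59.Square

end
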