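import Fermat.Agent.Periods.HeckeSystem
import Mathlib.RepresentationTheory.Basic
import Mathlib.LinearAlgebra.Quotient.Basic

/-!
# First cohomology with coefficients and double coset operators

For `π : Γ → G` and a representation of `G` the group `H` of cocycles modulo coboundaries carries
the operators of systems of coset representatives equipped with elements of `G`.
-/

set_option autoImplicit false

noncomputable section

namespace Fermat.Agent.RT.Lift59.Square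

open Matrix.SpecialLinearGroup Fermat.Agent.Periods
open scoped MatrixGroups

variable {Γ : Subgroup SL(2, ℤ)} {G : Type*} [Group G] (π : Γ →* G) {k : Type*} [CommRing k]
  {M : Type*} [AddCommGroup M] [Module k M] (ρ : Representation k G M)

/-- The cocycles. -/
def cocycles : Submodule k (Γ → M) where
  carrier := {ξ | ∀ γ δ : Γ, ξ (γ * δ) = ξ γ + ρ (π γ) (ξ δ)}
  zero_mem' γ δ := by simp
  add_mem' {ξ η} hξ hη γ δ := by
    show ξ _ + η _ = (ξ γ + η γ) + ρ (π γ) (ξ δ + η δ)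
    rw [hξ, hη, map_add]
    abel
  smul_mem' c ξ hξ γ δ := by
    show c • ξ _ = c • ξ γ + ρ (π γ) (c • ξ δ)
    rw [hξ, map_smul, smul_add]

variable {π ρ}

theorem cocycles_one {ξ : Γ → M} (hξ : ξ ∈ cocycles π ρ) : ξ 1 = 0 := by
  have h := hξ 1 1
  rw [one_mul, map_one, map_one, Module.End.one_apply] at h
  exact left_eq_add.1 h

theorem cocycles_inv {ξ : Γ → M} (hξ : ξ ∈ cocycles π ρ) (γ : Γ) :
    ρ (π γ) (ξ γ⁻¹) = -ξ γ := by
  have h := hξ γ γ⁻¹
  rw [mul_inv_cancel, cocycles_one hξ] at h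
  exact eq_neg_of_add_eq_zero_right h.symm

theorem cocycles_inv' {ξ : Γ → M} (hξ : ξ ∈ cocycles π ρ) (γ : Γ) :
    ρ (π γ)⁻¹ (ξ γ) = -ξ γ⁻¹ := by
  rw [← neg_eq_iff_eq_neg.mpr (cocycles_inv hξ γ).symm.symm, map_neg, ← Module.End.mul_apply,
    ← map_mul, inv_mul_cancel, map_one, Module.End.one_apply]

variable (π ρ)

/-- The coboundaries. -/
def cobound : M →ₗ[k] cocycles π ρ where
  toFun m := ⟨fun γ => ρ (π γ) m - m, fun γ δ => by
    show ρ (π (γ * δ)) m - m = (ρ (π γ) m - m) + ρ (π γ) (ρ (π δ) m - m)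
    rw [map_mul, map_mul, Module.End.mul_apply, map_sub]
    abel⟩
  map_add' a b := Subtype.ext (funext fun γ => by
    show ρ (π γ) (a + b) - (a + b) = (ρ (π γ) a - a) + (ρ (π γ) b - b)
    rw [map_add]
    abel)
  map_smul' c a := Subtype.ext (funext fun γ => by
    show ρ (π γ) (c • a) - c • a = c • (ρ (π γ) a - a)
    rw [map_smul, smul_sub])

theorem cobound_apply (m : M) (γ : Γ) : (cobound π ρ m : Γ → M) γ = ρ (π γ) m - m := rfl

/-- The first cohomology group. -/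
abbrev H1c : Type _ := cocycles π ρ ⧸ LinearMap.range (cobound π ρ)

/-- The class of a cocycle. -/
def cls : cocycles π ρ →ₗ[k] H1c π ρ := Submodule.mkQ _

theorem cls_surjective : Function.Surjective (cls π ρ) := Submodule.mkQ_surjective _

theorem cls_eq_zero {ξ : cocycles π ρ} :
    cls π ρ ξ = 0 ↔ ∃ m, ∀ γ, (ξ : Γ → M) γ = ρ (π γ) m - m := by
  rw [cls, Submodule.mkQ_apply, Submodule.Quotient.mk_eq_zero, LinearMap.mem_range]
  exact ⟨fun ⟨m, hm⟩ => ⟨m, fun γ => by rw [← hm]; rfl⟩,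
    fun ⟨m, hm⟩ => ⟨m, Subtype.ext (funext fun γ => (hm γ).symm)⟩⟩

theorem cls_eq_cls {ξ η : cocycles π ρ} :
    cls π ρ ξ = cls π ρ η ↔ ∃ m, ∀ γ, (ξ : Γ → M) γ = (η : Γ → M) γ + (ρ (π γ) m - m) := by
  rw [← sub_eq_zero, ← map_sub, cls_eq_zero]
  simp only [Submodule.coe_sub, Pi.sub_apply, sub_eq_iff_eq_add']

/-! ### Change of coefficients -/

section Map

variable {π ρ} {N : Type*} [AddCommGroup N] [Module k N] {σ : Representation k G N}

/-- The map on cocycles. -/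
def cocMap (f : M →ₗ[k] N) (hf : ∀ g m, f (ρ g m) = σ g (f m)) :
    cocycles π ρ →ₗ[k] cocycles π σ where
  toFun ξ := ⟨fun γ => f ((ξ : Γ → M) γ), fun γ δ => by
    show f _ = f _ + σ (π γ) (f _)
    rw [ξ.2, map_add, hf]⟩
  map_add' a b := Subtype.ext (funext fun γ => map_add f _ _)
  map_smul' c a := Subtype.ext (funext fun γ => map_smul f c _)

/-- The map on cohomology. -/
def hMap (f : M →ₗ[k] N) (hf : ∀ g m, f (ρ g m) = σ g (f m)) : H1c π ρ →ₗ[k] H1c π σ :=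
  Submodule.mapQ _ _ (cocMap f hf) fun ξ hξ => by
    obtain ⟨m, rfl⟩ := hξ
    exact ⟨f m, Subtype.ext (funext fun γ => by
      show σ (π γ) (f m) - f m = f (ρ (π γ) m - m)
      rw [map_sub, hf])⟩

theorem hMap_cls (f : M →ₗ[k] N) (hf : ∀ g m, f (ρ g m) = σ g (f m)) (ξ : cocycles π ρ) :
    hMap f hf (cls π ρ ξ) = cls π σ (cocMap f hf ξ) := rfl

end Map

/-! ### Operators -/

/-- A system of representatives with elements of `G`. -/
structure CSys (π : Γ →* G) (ι : Type) extends HeckeSystem Γ Γ ι where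
  /-- The elements of `G`. -/
  mat : ι → G
  mat_spec : ∀ (γ : Γ) i, mat i * π γ = π (cocycle γ i) * mat (perm γ i)

namespace CSys

variable {π} {ι κ : Type} [Fintype ι] [Fintype κ] (S : CSys π ι)

omit [Fintype ι] in
theorem mat_inv_mul (γ : Γ) (i : ι) :
    (S.mat i)⁻¹ * π (S.cocycle γ i) = π γ * (S.mat (S.perm γ i))⁻¹ := by
  rw [inv_mul_eq_iff_eq_mul, ← mul_assoc, S.mat_spec, mul_inv_cancel_right]

/-- The operator on functions. -/
def tFun (ξ : Γ → M) (γ : Γ) : M := ∑ i, ρ (S.mat i)⁻¹ (ξ (S.cocycle γ i))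

theorem tFun_mem {ξ : Γ → M} (hξ : ξ ∈ cocycles π ρ) : S.tFun ρ ξ ∈ cocycles π ρ := by
  intro γ δ
  simp only [tFun, (S.perm_cocycle_mul _ _ _).2, hξ _ _, map_add, Finset.sum_add_distrib,
    map_sum]
  congr 1
  simp only [← Module.End.mul_apply, ← map_mul, S.mat_inv_mul]
  exact (S.perm_bijective γ).sum_comp fun i => ρ (π γ * (S.mat i)⁻¹) (ξ (S.cocycle δ i))

/-- The operator on cocycles. -/
def cocOp : cocycles π ρ →ₗ[k] cocycles π ρ where
  toFun ξ := ⟨S.tFun ρ ξ, S.tFun_mem ρ ξ.2⟩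
  map_add' a b := Subtype.ext (funext fun γ => by
    simp [tFun, Finset.sum_add_distrib])
  map_smul' c a := Subtype.ext (funext fun γ => by
    simp [tFun, Finset.smul_sum])

theorem cocOp_apply (ξ : cocycles π ρ) (γ : Γ) :
    (S.cocOp ρ ξ : Γ → M) γ = ∑ i, ρ (S.mat i)⁻¹ ((ξ : Γ → M) (S.cocycle γ i)) := rfl

theorem cocOp_cobound (m : M) :
    S.cocOp ρ (cobound π ρ m) = cobound π ρ (∑ i, ρ (S.mat i)⁻¹ m) := by
  refine Subtype.ext (funext fun γ => ?_)
  rw [cocOp_apply, cobound_apply, map_sum (ρ (π γ))]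
  simp only [cobound_apply, map_sub, Finset.sum_sub_distrib]
  congr 1
  simp only [← Module.End.mul_apply, ← map_mul, S.mat_inv_mul]
  exact (S.perm_bijective γ).sum_comp fun i => ρ (π γ * (S.mat i)⁻¹) m

/-- The operator on cohomology. -/
def hOp : H1c π ρ →ₗ[k] H1c π ρ :=
  Submodule.mapQ _ _ (S.cocOp ρ) fun ξ hξ => by
    obtain ⟨m, rfl⟩ := hξ
    exact ⟨_, (S.cocOp_cobound ρ m).symm⟩

theorem hOp_cls (ξ : cocycles π ρ) : S.hOp ρ (cls π ρ ξ) = cls π ρ (S.cocOp ρ ξ) := rfl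

variable {ρ} in
theorem hMap_hOp {N : Type*} [AddCommGroup N] [Module k N] {σ : Representation k G N}
    (f : M →ₗ[k] N) (hf : ∀ g m, f (ρ g m) = σ g (f m)) (x : H1c π ρ) :
    hMap f hf (S.hOp ρ x) = S.hOp σ (hMap f hf x) := by
  obtain ⟨ξ, rfl⟩ := cls_surjective π ρ x
  refine congrArg (cls π σ) (Subtype.ext (funext fun γ => ?_))
  show f (∑ i, ρ (S.mat i)⁻¹ _) = ∑ i, σ (S.mat i)⁻¹ (f _)
  rw [map_sum]
  exact Finset.sum_congr rfl fun i _ => hf _ _

/-- Equivalent systems give the same operator on cohomology. -/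
theorem hOp_congr (S' : CSys π κ) (e : ι ≃ κ) (δ : ι → Γ)
    (hrep : ∀ i, S'.rep (e i) = mapGL ℝ (δ i : SL(2, ℤ)) * S.rep i)
    (hmat : ∀ i, S'.mat (e i) = π (δ i) * S.mat i) :
    S'.hOp ρ = S.hOp ρ := by
  refine LinearMap.ext fun x => ?_
  obtain ⟨⟨ξ, hξ⟩, rfl⟩ := cls_surjective π ρ x
  rw [hOp_cls, hOp_cls, cls_eq_cls]
  refine ⟨∑ i, ρ (S.mat i)⁻¹ (ξ (δ i)⁻¹), fun γ => ?_⟩
  have hco : ∀ i, S'.cocycle γ (e i) = δ i * S.cocycle γ i * (δ (S.perm γ i))⁻¹ := by
    intro i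
    refine (S'.eq_of_spec (j := e (S.perm γ i)) ?_).2
    rw [hrep, hrep, Subgroup.coe_mul, Subgroup.coe_mul, InvMemClass.coe_inv, map_mul, map_mul,
      map_inv, mul_assoc, S.spec]
    group
  simp only [cocOp_apply]
  rw [← e.sum_comp]
  have hterm : ∀ i, ρ (S'.mat (e i))⁻¹ (ξ (S'.cocycle γ (e i))) =
      ρ (S.mat i)⁻¹ (ξ (S.cocycle γ i)) + (ρ (π γ * (S.mat (S.perm γ i))⁻¹)
        (ξ (δ (S.perm γ i))⁻¹) - ρ (S.mat i)⁻¹ (ξ (δ i)⁻¹)) := by
    intro i
    rw [hco, hξ, hξ, hmat, _root_.mul_inv_rev, map_add, map_add, map_mul ρ, Module.End.mul_apply,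
      Module.End.mul_apply, Module.End.mul_apply, cocycles_inv' hξ, map_neg, ← S.mat_inv_mul,
      map_mul ρ, Module.End.mul_apply, map_mul π, map_mul ρ, Module.End.mul_apply,
      ← Module.End.mul_apply (ρ (π (δ i))⁻¹), ← map_mul ρ, inv_mul_cancel, map_one,
      Module.End.one_apply, ← Module.End.mul_apply (ρ (π (δ i))⁻¹), ← map_mul ρ, inv_mul_cancel,
      map_one, Module.End.one_apply]
    abel
  simp only [hterm, Finset.sum_add_distrib, Finset.sum_sub_distrib, map_sum]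
  congr 2
  rw [(S.perm_bijective γ).sum_comp fun i => ρ (π γ * (S.mat i)⁻¹) (ξ (δ i)⁻¹)]
  exact Finset.sum_congr rfl fun i _ => by rw [map_mul, Module.End.mul_apply]

/-- The composition of two systems. -/
def comp (S' : CSys π κ)
    (hu : ∀ (x y : ι × κ) (γ : Γ), S'.rep x.2 * S.rep x.1 =
      mapGL ℝ (γ : SL(2, ℤ)) * (S'.rep y.2 * S.rep y.1) → x = y) : CSys π (ι × κ) where
  rep x := S'.rep x.2 * S.rep x.1
  det_pos x := by rw [map_mul, Units.val_mul]; exact mul_pos (S'.det_pos _) (S.det_pos _)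
  perm γ x := (S.perm γ x.1, S'.perm (S.cocycle γ x.1) x.2)
  cocycle γ x := S'.cocycle (S.cocycle γ x.1) x.2
  spec γ x := by rw [mul_assoc, S.spec, ← mul_assoc, S'.spec, mul_assoc]
  unique := hu
  mat x := S'.mat x.2 * S.mat x.1
  mat_spec γ x := by rw [mul_assoc, S.mat_spec, ← mul_assoc, S'.mat_spec, mul_assoc]

theorem hOp_comp (S' : CSys π κ) (hu) (x : H1c π ρ) :
    (S.comp S' hu).hOp ρ x = S.hOp ρ (S'.hOp ρ x) := by
  obtain ⟨ξ, rfl⟩ := cls_surjective π ρ x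
  refine congrArg (cls π ρ) (Subtype.ext (funext fun γ => ?_))
  simp only [cocOp_apply, Fintype.sum_prod_type, map_sum]
  refine Finset.sum_congr rfl fun i _ => Finset.sum_congr rfl fun j _ => ?_
  show ρ (S'.mat j * S.mat i)⁻¹ _ = _
  rw [_root_.mul_inv_rev, map_mul, Module.End.mul_apply]
  rfl

/-- A system trivial modulo a subgroup on which the class vanishes multiplies by the number of
representatives. -/
theorem hOp_eq_card (ξ : cocycles π ρ) (hmat : ∀ i, S.mat i = 1)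
    (hξ : ∀ γ i, (ξ : Γ → M) (S.cocycle γ i) = (ξ : Γ → M) γ) :
    S.hOp ρ (cls π ρ ξ) = (Fintype.card ι : k) • cls π ρ ξ := by
  rw [hOp_cls, ← map_smul]
  refine congrArg (cls π ρ) (Subtype.ext (funext fun γ => ?_))
  simp only [cocOp_apply, hmat, inv_one, map_one, Module.End.one_apply, hξ, Finset.sum_const,
    Finset.card_univ, SetLike.val_smul, Pi.smul_apply]
  rw [Nat.cast_smul_eq_nsmul]

end CSys

end Fermat.Agent.RT.Lift59.Square

end
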