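import Fermat.Agent.RT.Lift59.Square.QuotKill

/-!
# Long products of kernel elements kill the monodromy of inertia fixed classes

`g = (sOf g⁻¹)ᵀ · diag(1, det g)` and `diag(1, d)` fixes the unit class of a class fixed by
inertia, so the monodromy of the translate by `g` is the translate by `sOf g`.
-/

set_option autoImplicit false
set_option linter.unusedSectionVars false

noncomputable section

open scoped Classical MatrixGroups

namespace Fermat.Agent.RT.Lift59.Square

open ModularCurve AlgebraicCurve Matrix Fermat.Agent.Arith Fermat.Agent.Carayol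
open Fermat.Agent.Carayol.Omega
open Fermat.Agent.RT.InertiaTW

attribute [local instance 2000] serAlg

variable {q : ℕ}

/-- The transposed determinant one part of an element. -/
def detOnePart (g : GL (Fin 2) (ZMod q)) : SL(2, ZMod q) :=
  ⟨((g * diagElt 1 (Matrix.GeneralLinearGroup.det g)⁻¹ : GL (Fin 2) (ZMod q)) :
      Matrix (Fin 2) (Fin 2) (ZMod q))ᵀ, by
    rw [Matrix.det_transpose, Units.val_mul, Matrix.det_mul]
    rw [show ((diagElt 1 (Matrix.GeneralLinearGroup.det g)⁻¹ : GL (Fin 2) (ZMod q)) :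
        Matrix (Fin 2) (Fin 2) (ZMod q)).det = ((Matrix.GeneralLinearGroup.det g)⁻¹ : (ZMod q)ˣ) by
      simp [diagElt, Matrix.det_fin_two_of]]
    exact Units.mul_inv (Matrix.GeneralLinearGroup.det g)⟩

/-- The determinant one part of an element, read in the group acting on homomorphisms. -/
def sOf (g : GL (Fin 2) (ZMod q)) : SL(2, ZMod q) := (detOnePart g)⁻¹

theorem tInv_sOf (g : GL (Fin 2) (ZMod q)) :
    tInv (sOf g) = g * diagElt 1 (Matrix.GeneralLinearGroup.det g)⁻¹ := by
  refine Units.ext ?_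
  show (((sOf g)⁻¹ : SL(2, ZMod q)) : Matrix (Fin 2) (Fin 2) (ZMod q))ᵀ = _
  rw [sOf, inv_inv, detOnePart]
  exact Matrix.transpose_transpose _

theorem eq_tInv_sOf_mul (g : GL (Fin 2) (ZMod q)) :
    g = tInv (sOf g) * diagElt 1 (Matrix.GeneralLinearGroup.det g) := by
  rw [tInv_sOf, mul_assoc, diagElt_mul, one_mul, inv_mul_cancel,
    show (diagElt 1 1 : GL (Fin 2) (ZMod q)) = 1 from Units.ext (by simp [diagElt, Matrix.one_fin_two]),
    mul_one]

variable {n p R N : ℕ} [NeZero (q * n)] [Fact q.Prime] [NeZero n] [NeZero q] [NeZero N]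
  [Fact p.Prime] [NeZero p] [Fact (q.Coprime n)] (D : QData q n)

set_option maxHeartbeats 1600000 in
/-- **Long products of kernel elements kill the monodromy of classes fixed by inertia.** -/
theorem exists_length_kill_classChar (hpq : p ≠ q) (hR : R ∣ n) (hN : N ∣ q * R * q) :
    ∃ K : ℕ, ∀ l : List (MonoidAlgebra ℤ (GL (Fin 2) (ZMod q))), l.length = K →
      (∀ x ∈ l, LineKills p x) → ∀ P : Pic0.torsion QBar (modularFunctionFieldBar N) p,
        (∀ σ ∈ D.A.inertiaSubgroupIn ℚ, σ • (P : JZero N) = P) →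
          ∑ g, l.prod.coeff g •
            (sOf g • QData.classChar (q := q) (n := n) hR hN P) = 0 := by
  obtain ⟨K, hK⟩ := exists_length_kill (p := p) D hpq
  refine ⟨K, fun l hl hmem P hP => ?_⟩
  let P' : D.fixedTors N p := ⟨P, fun σ hσ => hP σ hσ.1⟩
  set f := D.classRep p P' with hfdef
  have hf : IsClassFun (inertiaOne D.A q) P f := D.classRep_spec p P'
  set y : D.Omˣ := D.classUnit p hR hN f hf.fix with hy
  have hky : KumChar D.E D.base p (y : D.Om) (QData.classChar hR hN P) :=
    D.kumChar_classUnit hR hN hf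
  have hpl : Places D.base p y := D.places_classUnit hR hN hf
  have hX : D.uMk p y = D.ofClass p hR hN P' := (D.ofClass_eq p hR hN hf).symm
  have hdiag : ∀ d : (ZMod q)ˣ, D.uAct p (diagElt 1 d) (D.uMk p y) = D.uMk p y := fun d => by
    obtain ⟨σ, hσ, hσd⟩ := exists_inertia_unit D.hA d
    rw [hX]
    exact D.uAct_ofClass_galois p hR hN hσ hσd (P := P') (P' := P') (hP σ hσ).symm
  set z : D.Omˣ := ∏ g, D.actUnit (tInv (sOf g)) y ^ (l.prod.coeff g : ZMod p).val with hz
  have hkz : KumChar D.E D.base p (z : D.Om)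
      (∑ g, (l.prod.coeff g : ZMod p).val • (sOf g • QData.classChar (q := q) (n := n) hR hN P)) := by
    rw [hz, Units.coe_prod]
    refine KumChar.prod Finset.univ fun g _ => ?_
    rw [Units.val_pow_eq_pow_val]
    exact (D.kumChar_act (sOf g) hky).pow _
  have hsmul : ∀ {M : Type} [AddCommGroup M] (x : M), p • x = 0 → ∀ c : ℤ,
      c • x = (c : ZMod p).val • x := by
    intro M _ x hx c
    have h : (p : ℤ) ∣ c - ((c : ZMod p).val : ℤ) := by
      rw [← ZMod.intCast_zmod_eq_zero_iff_dvd, Int.cast_sub, Int.cast_natCast,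
        ZMod.natCast_zmod_val, sub_self]
    obtain ⟨k, hk⟩ := h
    rw [← natCast_zsmul x (c : ZMod p).val, ← sub_eq_zero, ← sub_smul, hk, mul_comm, mul_smul,
      natCast_zsmul, hx, smul_zero]
  have hzero : D.uMk p z = 0 := by
    rw [← hK l hl hmem y hpl, hz, QData.uMk_prod]
    refine Finset.sum_congr rfl fun g _ => ?_
    rw [show D.uAct p g (D.uMk p y) = D.uMk p (D.actUnit (tInv (sOf g)) y) by
      conv_lhs => rw [eq_tInv_sOf_mul g, D.uAct_mul, hdiag, QData.uAct_mk]]
    exact (hsmul (D.uMk p (D.actUnit (tInv (sOf g)) y)) (D.nsmul_eq_zero p _)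
      (l.prod.coeff g)).symm
  obtain ⟨w, hw⟩ := D.uMk_eq_zero p hzero
  have h0 : KumChar D.E D.base p (z : D.Om) 0 := by
    rw [hw, Units.val_pow_eq_pow_val]
    exact kumChar_pow_self w.ne_zero
  rw [← hkz.unique h0]
  refine Finset.sum_congr rfl fun g _ => hsmul _ ?_ _
  refine AddMonoidHom.ext fun γ => ?_
  rw [AddMonoidHom.smul_apply, nsmul_eq_mul, ZMod.natCast_self, zero_mul, AddMonoidHom.zero_apply]

end Fermat.Agent.RT.Lift59.Square

end
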