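import Fermat.Agent.RT.Lift59.Square.Devissage
import Fermat.Agent.RT.Lift59.Square.MonodromyKill

/-!
# The coset spaces at `q` and the translation of kernel elements

`GL₂(ℤ/qn)` acts through `GL₂(𝔽_q)` on the cosets of the torus, of the Borel group and of the
Borel group with upper left entry `±1`. A combination killing the functions on the last space acts
on the functions on the cosets of the torus as a combination killing the functions on lines.
-/

set_option autoImplicit false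
set_option linter.unusedSectionVars false

noncomputable section

open scoped Classical MatrixGroups

namespace Fermat.Agent.RT.Lift59.Square

open CongruenceSubgroup Matrix Fermat.Agent.RT.InertiaTW
open Fermat.Agent.Carayol (diagElt)

/-- A finite multiplicatively closed predicate is a subgroup. -/
def finSubgroup {G : Type*} [Group G] [Finite G] (P : G → Prop) (h1 : P 1)
    (hmul : ∀ a b, P a → P b → P (a * b)) : Subgroup G where
  carrier := {g | P g}
  one_mem' := h1
  mul_mem' := hmul _ _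
  inv_mem' {g} hg := by
    have hpow : ∀ m : ℕ, P (g ^ m) := fun m => by
      induction m with
      | zero => rw [pow_zero]; exact h1
      | succ m ih => rw [pow_succ]; exact hmul _ _ ih hg
    have h0 := orderOf_pos g
    show P g⁻¹
    rw [show g⁻¹ = g ^ (orderOf g - 1) from inv_eq_of_mul_eq_one_right (by
      rw [← pow_succ', Nat.sub_add_cancel h0, pow_orderOf_eq_one])]
    exact hpow _

variable (q : ℕ) [NeZero q]

/-- The upper triangular matrices. -/
def borelQ : Subgroup (GL (Fin 2) (ZMod q)) :=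
  finSubgroup (fun g => (g : Matrix (Fin 2) (Fin 2) (ZMod q)) 1 0 = 0) (by simp)
    fun a b ha hb => by simp [Matrix.mul_apply, Fin.sum_univ_two, ha, hb]

/-- The upper triangular matrices with upper left entry of square one. -/
def pmBorel : Subgroup (GL (Fin 2) (ZMod q)) :=
  finSubgroup (fun g => (g : Matrix (Fin 2) (Fin 2) (ZMod q)) 1 0 = 0 ∧
    (g : Matrix (Fin 2) (Fin 2) (ZMod q)) 0 0 * (g : Matrix (Fin 2) (Fin 2) (ZMod q)) 0 0 = 1)
    (by simp)
    fun a b ha hb => ⟨by simp [Matrix.mul_apply, Fin.sum_univ_two, ha.1, hb.1], by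
      simp [Matrix.mul_apply, Fin.sum_univ_two, hb.1]
      linear_combination ((b : Matrix (Fin 2) (Fin 2) (ZMod q)) 0 0 *
        (b : Matrix (Fin 2) (Fin 2) (ZMod q)) 0 0) * ha.2 + hb.2⟩

/-- The diagonal matrices. -/
def torusQ : Subgroup (GL (Fin 2) (ZMod q)) :=
  finSubgroup (fun g => (g : Matrix (Fin 2) (Fin 2) (ZMod q)) 1 0 = 0 ∧
    (g : Matrix (Fin 2) (Fin 2) (ZMod q)) 0 1 = 0) (by simp)
    fun a b ha hb => by simp [Matrix.mul_apply, Fin.sum_univ_two, ha.1, hb.1, ha.2, hb.2]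

variable {q}

theorem mem_borelQ {g : GL (Fin 2) (ZMod q)} :
    g ∈ borelQ q ↔ (g : Matrix (Fin 2) (Fin 2) (ZMod q)) 1 0 = 0 := Iff.rfl

theorem mem_pmBorel {g : GL (Fin 2) (ZMod q)} : g ∈ pmBorel q ↔
    (g : Matrix (Fin 2) (Fin 2) (ZMod q)) 1 0 = 0 ∧
      (g : Matrix (Fin 2) (Fin 2) (ZMod q)) 0 0 * (g : Matrix (Fin 2) (Fin 2) (ZMod q)) 0 0 = 1 :=
  Iff.rfl

theorem mem_torusQ {g : GL (Fin 2) (ZMod q)} : g ∈ torusQ q ↔
    (g : Matrix (Fin 2) (Fin 2) (ZMod q)) 1 0 = 0 ∧
      (g : Matrix (Fin 2) (Fin 2) (ZMod q)) 0 1 = 0 := Iff.rfl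

theorem pmBorel_le : pmBorel q ≤ borelQ q := fun _ h => h.1

theorem diag_mem_torusQ (d : (ZMod q)ˣ) : diagElt 1 d ∈ torusQ q := by
  simp [mem_torusQ, diagElt]

theorem diag_mem_pmBorel (d : (ZMod q)ˣ) : diagElt 1 d ∈ pmBorel q := by
  simp [mem_pmBorel, diagElt]

theorem neg_one_mem_torusQ : (-1 : GL (Fin 2) (ZMod q)) ∈ torusQ q := by
  simp [mem_torusQ]

theorem neg_one_mem_pmBorel : (-1 : GL (Fin 2) (ZMod q)) ∈ pmBorel q := by
  simp [mem_pmBorel]

variable (q) (n : ℕ)

/-- Reduction modulo `q`. -/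
def redGL : GLQ (q * n) →* GL (Fin 2) (ZMod q) :=
  Matrix.GeneralLinearGroup.map (ZMod.castHom (dvd_mul_right q n) (ZMod q))

theorem redGL_redQ (γ : SL(2, ℤ)) : redGL q n (redQ (q * n) γ) =
    Matrix.SpecialLinearGroup.toGL (Matrix.SpecialLinearGroup.map (Int.castRingHom (ZMod q)) γ) := by
  refine Units.ext (Matrix.ext fun i j => ?_)
  show (ZMod.castHom (dvd_mul_right q n) (ZMod q)) (((γ i j : ℤ) : ZMod (q * n))) = _
  rw [map_intCast]
  rfl

/-- A coset space with the action through the reduction. -/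
def CosetQ (H : Subgroup (GL (Fin 2) (ZMod q))) : Type :=
  have : ℕ := n
  GL (Fin 2) (ZMod q) ⧸ H

variable {q n} {H : Subgroup (GL (Fin 2) (ZMod q))}

/-- A coset. -/
def CosetQ.mk (g : GL (Fin 2) (ZMod q)) : CosetQ q n H := (QuotientGroup.mk g : GL (Fin 2) (ZMod q) ⧸ H)

instance : Finite (CosetQ q n H) := inferInstanceAs (Finite (GL (Fin 2) (ZMod q) ⧸ H))

instance : MulAction (GLQ (q * n)) (CosetQ q n H) :=
  MulAction.compHom (GL (Fin 2) (ZMod q) ⧸ H) (redGL q n)

theorem CosetQ.smul_mk (c : GLQ (q * n)) (g : GL (Fin 2) (ZMod q)) :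
    c • (CosetQ.mk g : CosetQ q n H) = CosetQ.mk (redGL q n c * g) := rfl

theorem CosetQ.mk_surjective : Function.Surjective (CosetQ.mk : _ → CosetQ q n H) :=
  fun x => QuotientGroup.mk_surjective (s := H) x

theorem CosetQ.mk_eq_mk {g h : GL (Fin 2) (ZMod q)} :
    (CosetQ.mk g : CosetQ q n H) = CosetQ.mk h ↔ g⁻¹ * h ∈ H := QuotientGroup.eq

theorem smul_mk_one {c : GLQ (q * n)} :
    c • (CosetQ.mk 1 : CosetQ q n H) = CosetQ.mk 1 ↔ redGL q n c ∈ H := by
  rw [CosetQ.smul_mk, mul_one, CosetQ.mk_eq_mk, mul_one, inv_mem_iff]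

theorem neg_one_smul (hH : (-1 : GL (Fin 2) (ZMod q)) ∈ H) (y : CosetQ q n H) :
    redQ (q * n) (-1) • y = y := by
  obtain ⟨g, rfl⟩ := CosetQ.mk_surjective y
  have e : redGL q n (redQ (q * n) (-1)) = -1 := by
    rw [redGL_redQ]
    refine Units.ext (Matrix.ext fun i j => ?_)
    fin_cases i <;> fin_cases j <;> simp
  rw [CosetQ.smul_mk, e, CosetQ.mk_eq_mk]
  simpa using hH

theorem exists_smul_mk_one [Fact q.Prime] [NeZero n] [NeZero (q * n)] [Fact (q.Coprime n)] {R : ℕ}
    (hR : R ∣ n) (hH : ∀ d, diagElt 1 d ∈ H) (g : GL (Fin 2) (ZMod q)) (d : (ZMod q)ˣ)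
    (hd : d = (Matrix.GeneralLinearGroup.det g)⁻¹) :
    ∃ (s : SL(2, ZMod q)) (γ : Gamma0 R), (γ : SL(2, ℤ)) = liftSL (n := n) s ∧
      (s : Matrix (Fin 2) (Fin 2) (ZMod q)) = (g * diagElt 1 d : GL (Fin 2) (ZMod q)) ∧
      redR R (q * n) γ • (CosetQ.mk 1 : CosetQ q n H) = CosetQ.mk g := by
  have hdet : ((g * diagElt 1 d : GL (Fin 2) (ZMod q)) : Matrix (Fin 2) (Fin 2) (ZMod q)).det = 1 := by
    rw [Units.val_mul, Matrix.det_mul, hd]
    rw [show ((diagElt 1 (Matrix.GeneralLinearGroup.det g)⁻¹ : GL (Fin 2) (ZMod q)) :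
        Matrix (Fin 2) (Fin 2) (ZMod q)).det = ((Matrix.GeneralLinearGroup.det g)⁻¹ : (ZMod q)ˣ) by
      simp [diagElt, Matrix.det_fin_two_of]]
    exact Units.mul_inv (Matrix.GeneralLinearGroup.det g)
  let s : SL(2, ZMod q) := ⟨_, hdet⟩
  have hmem : liftSL (n := n) s ∈ Gamma0 R := by
    rw [Gamma0_mem, ZMod.intCast_zmod_eq_zero_iff_dvd]
    exact (Int.natCast_dvd_natCast.mpr hR).trans (entry_mem_Gamma (liftSL_mem (n := n) s)).2.2.1
  refine ⟨s, ⟨_, hmem⟩, rfl, rfl, ?_⟩
  have e : redGL q n (redR R (q * n) ⟨_, hmem⟩) = g * diagElt 1 d := by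
    show redGL q n (redQ (q * n) (liftSL (n := n) s)) = _
    rw [redGL_redQ, map_liftSL]
    exact Units.ext rfl
  rw [CosetQ.smul_mk, mul_one, e, CosetQ.mk_eq_mk]
  simpa using inv_mem (hH d)

/-- The transpose. -/
def trGL (g : GL (Fin 2) (ZMod q)) : GL (Fin 2) (ZMod q) :=
  ⟨(g : Matrix (Fin 2) (Fin 2) (ZMod q))ᵀ, ((g⁻¹ : GL (Fin 2) (ZMod q)) : Matrix _ _ (ZMod q))ᵀ,
    by rw [← Matrix.transpose_mul, Units.inv_mul, Matrix.transpose_one],
    by rw [← Matrix.transpose_mul, Units.mul_inv, Matrix.transpose_one]⟩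

theorem trGL_trGL (g : GL (Fin 2) (ZMod q)) : trGL (trGL g) = g :=
  Units.ext (Matrix.transpose_transpose _)

theorem trGL_mul (g h : GL (Fin 2) (ZMod q)) : trGL (g * h) = trGL h * trGL g :=
  Units.ext (Matrix.transpose_mul _ _)

theorem trGL_neg (g : GL (Fin 2) (ZMod q)) : trGL (-g) = -trGL g :=
  Units.ext (Matrix.transpose_neg _)

variable (p : ℕ) [Fact p.Prime]

variable (q) in
/-- Translation of combinations by transposes, read on the opposite algebra. -/
def transAlg : MonoidAlgebra ℤ (GL (Fin 2) (ZMod q)) →ₐ[ℤ]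
    (Module.End (ZMod p) (GL (Fin 2) (ZMod q) ⧸ torusQ q → ZMod p))ᵐᵒᵖ :=
  MonoidAlgebra.lift ℤ _ (GL (Fin 2) (ZMod q))
    { toFun := fun g => MulOpposite.op (funRep (ZMod p) _ (GL (Fin 2) (ZMod q) ⧸ torusQ q) (trGL g))
      map_one' := by
        rw [show trGL (1 : GL (Fin 2) (ZMod q)) = 1 from Units.ext Matrix.transpose_one, map_one]
        rfl
      map_mul' := fun g h => by rw [trGL_mul, map_mul, MulOpposite.op_mul] }

variable {p}

/-- The value of a translated combination at a coset. -/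
theorem transAlg_apply (a : MonoidAlgebra ℤ (GL (Fin 2) (ZMod q)))
    (F : GL (Fin 2) (ZMod q) ⧸ torusQ q → ZMod p) (x : GL (Fin 2) (ZMod q) ⧸ torusQ q) :
    (transAlg q p a).unop F x = ∑ g, (a.coeff g : ZMod p) * F ((trGL g)⁻¹ • x) := by
  rw [transAlg, MonoidAlgebra.lift_apply, Finsupp.sum_fintype]
  swap
  · intro g; exact zero_smul ℤ _
  rw [Finset.unop_sum, LinearMap.sum_apply, Finset.sum_apply]
  refine Finset.sum_congr rfl fun g _ => ?_
  rw [MulOpposite.unop_smul, LinearMap.smul_apply, Pi.smul_apply, zsmul_eq_mul]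
  rfl

theorem neg_smul_torus (h : GL (Fin 2) (ZMod q)) (x : GL (Fin 2) (ZMod q) ⧸ torusQ q) :
    (-h) • x = h • x := by
  obtain ⟨g, rfl⟩ := QuotientGroup.mk_surjective x
  rw [MulAction.Quotient.smul_mk, MulAction.Quotient.smul_mk, QuotientGroup.eq, smul_eq_mul,
    smul_eq_mul]
  simpa [neg_mul, inv_neg] using neg_one_mem_torusQ (q := q)

/-- The first column. -/
abbrev col0 (g : GL (Fin 2) (ZMod q)) : Fin 2 → ZMod q :=
  fun i => (g : Matrix (Fin 2) (Fin 2) (ZMod q)) i 0

variable [Fact q.Prime]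

theorem exists_col0 {l : Fin 2 → ZMod q} (hl : l ≠ 0) : ∃ g : GL (Fin 2) (ZMod q), col0 g = l := by
  by_cases h0 : l 0 = 0
  · have h1 : l 1 ≠ 0 := fun h1 => hl (funext fun i => by fin_cases i <;> simp [h0, h1])
    refine ⟨Matrix.GeneralLinearGroup.mk'' !![l 0, 1; l 1, 0] ?_, ?_⟩
    · simpa [Matrix.det_fin_two_of] using h1
    · funext i
      fin_cases i <;> simp [col0, Matrix.GeneralLinearGroup.mk'', Matrix.nonsingInvUnit]
  · refine ⟨Matrix.GeneralLinearGroup.mk'' !![l 0, 0; l 1, 1] ?_, ?_⟩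
    · simpa [Matrix.det_fin_two_of] using h0
    · funext i
      fin_cases i <;> simp [col0, Matrix.GeneralLinearGroup.mk'', Matrix.nonsingInvUnit]

theorem col0_mul_of_mem {g b : GL (Fin 2) (ZMod q)} (hb : b ∈ pmBorel q) :
    col0 (g * b) = col0 g ∨ col0 (g * b) = -col0 g := by
  obtain ⟨h10, h00⟩ := hb
  rcases mul_self_eq_one_iff.1 h00 with h | h
  · left
    funext i
    simp [col0, Matrix.mul_apply, Fin.sum_univ_two, h10, h]
  · right
    funext i
    simp [col0, Matrix.mul_apply, Fin.sum_univ_two, h10, h]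

theorem col0_mul (g h : GL (Fin 2) (ZMod q)) :
    col0 (g * h) = (g : Matrix (Fin 2) (Fin 2) (ZMod q)) *ᵥ col0 h := by
  funext i
  simp [col0, Matrix.mul_apply, Matrix.mulVec, dotProduct]

variable [NeZero n] [NeZero (q * n)]

/-- **A kernel combination at level `q n` is a kernel combination on lines.** -/
theorem exists_lineKills (hp2 : p ≠ 2) {b : MonoidAlgebra (ZMod p) (GLQ (q * n))}
    (hb : b ∈ killY (q * n) (ZMod p) (CosetQ q n (pmBorel q))) :
    ∃ β : MonoidAlgebra ℤ (GL (Fin 2) (ZMod q)), LineKills p β ∧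
      ((transAlg q p β).unop : Module.End (ZMod p) _) =
        (funRep (ZMod p) (GLQ (q * n)) (CosetQ q n (torusQ q))).asAlgebraHom b := by
  have h2 : (2 : ZMod p) ≠ 0 := fun h => hp2 ((Nat.prime_dvd_prime_iff_eq Fact.out
    Nat.prime_two).1 ((ZMod.natCast_eq_zero_iff 2 p).1 (by exact_mod_cast h)))
  set c : GLQ (q * n) → ℤ := fun g => ((b.coeff g * 2⁻¹ : ZMod p).val : ℤ) with hc
  have hcast : ∀ g, (c g : ZMod p) = b.coeff g * 2⁻¹ := fun g => by
    simp [hc]
  have hsum : ∀ {k' : Type} [CommRing k'] {W : Type} [AddCommGroup W] [Module k' W]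
      (ρ : Representation k' (GLQ (q * n)) W) (v : MonoidAlgebra k' (GLQ (q * n))),
      ρ.asAlgebraHom v = ∑ g, v.coeff g • ρ g := fun ρ v => by
    rw [Representation.asAlgebraHom_def, MonoidAlgebra.lift_apply,
      Finsupp.sum_fintype _ _ fun g => zero_smul _ (ρ g)]
  refine ⟨∑ g : GLQ (q * n), (MonoidAlgebra.single (trGL (redGL q n g)) (c g) +
    MonoidAlgebra.single (-trGL (redGL q n g)) (c g)), fun l w => ?_, ?_⟩
  · -- the fibre sums
    have hsingle : ∀ (u : GL (Fin 2) (ZMod q)) (e : ℤ),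
        lineRep q (MonoidAlgebra.single u e) l w = e * if formPerm u l = w then 1 else 0 := by
      intro u e
      rw [lineRep, MonoidAlgebra.lift_single, Matrix.smul_apply, smul_eq_mul]
      rfl
    rw [← ZMod.intCast_zmod_eq_zero_iff_dvd, map_sum, Matrix.sum_apply, Int.cast_sum]
    simp only [map_add, Matrix.add_apply, hsingle, Int.cast_add, Int.cast_mul, Int.cast_ite,
      Int.cast_one, Int.cast_zero, hcast]
    have hperm : ∀ (h : GL (Fin 2) (ZMod q)),
        (formPerm (trGL h) l = w ↔ (h : Matrix _ _ (ZMod q)) *ᵥ l.1 = w.1) ∧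
        (formPerm (-trGL h) l = w ↔ (h : Matrix _ _ (ZMod q)) *ᵥ l.1 = -w.1) := fun h => by
      refine ⟨?_, ?_⟩
      · rw [Subtype.ext_iff]
        show l.1 ᵥ* (h : Matrix _ _ (ZMod q))ᵀ = w.1 ↔ _
        rw [Matrix.vecMul_transpose]
      · rw [Subtype.ext_iff]
        show l.1 ᵥ* (-(h : Matrix _ _ (ZMod q))ᵀ) = w.1 ↔ _
        rw [Matrix.vecMul_neg, Matrix.vecMul_transpose, neg_eq_iff_eq_neg]
    simp only [fun h => (hperm h).1, fun h => (hperm h).2]
    -- the indicator of `± l`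
    obtain ⟨gw, hgw⟩ := exists_col0 w.2
    let P : GL (Fin 2) (ZMod q) → Prop := fun h => col0 h = l.1 ∨ col0 h = -l.1
    let F : CosetQ q n (pmBorel q) → ZMod p := fun y =>
      if P (Quotient.out (s := QuotientGroup.leftRel (pmBorel q)) y) then 1 else 0
    have hF : ∀ h : GL (Fin 2) (ZMod q), F (CosetQ.mk h) = if P h then 1 else 0 := fun h => by
      obtain ⟨b', hb'⟩ := QuotientGroup.mk_out_eq_mul (pmBorel q) h
      show (if P (Quotient.out (QuotientGroup.mk h : GL (Fin 2) (ZMod q) ⧸ pmBorel q)) then (1 : ZMod p)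
        else 0) = _
      rw [hb']
      rcases col0_mul_of_mem (g := h) b'.2 with e | e
      · simp only [P, e]
      · simp only [P, e, neg_eq_iff_eq_neg, neg_neg, or_comm]
    have hb' : (funRep (ZMod p) (GLQ (q * n)) (CosetQ q n (pmBorel q))).asAlgebraHom b = 0 := hb
    have h0 := congrFun (LinearMap.congr_fun hb' F) (CosetQ.mk gw)
    rw [hsum, LinearMap.sum_apply, Finset.sum_apply] at h0
    simp only [LinearMap.smul_apply, Pi.smul_apply, funRep_apply, CosetQ.smul_mk, hF,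
      LinearMap.zero_apply, Pi.zero_apply, smul_eq_mul] at h0
    have hP : ∀ g : GLQ (q * n), P (redGL q n g⁻¹ * gw) ↔
        ((redGL q n g : Matrix _ _ (ZMod q)) *ᵥ l.1 = w.1 ∨
          (redGL q n g : Matrix _ _ (ZMod q)) *ᵥ l.1 = -w.1) := fun g => by
      have e : ∀ v : Fin 2 → ZMod q, col0 (redGL q n g⁻¹ * gw) = v ↔
          (redGL q n g : Matrix _ _ (ZMod q)) *ᵥ v = w.1 := fun v => by
        rw [col0_mul, hgw, map_inv]
        constructor
        · rintro rfl
          rw [Matrix.mulVec_mulVec, Units.mul_inv, Matrix.one_mulVec]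
        · intro hv
          rw [← hv, Matrix.mulVec_mulVec, Units.inv_mul, Matrix.one_mulVec]
      simp only [P, e, Matrix.mulVec_neg, neg_eq_iff_eq_neg]
    simp only [hP] at h0
    by_cases hww : w.1 = -w.1
    · simp only [← hww, or_self, ← two_mul] at h0 ⊢
      refine (Finset.sum_congr rfl fun g _ => ?_).trans h0
      field_simp
    · calc _ = (2 : ZMod p)⁻¹ * ∑ g, b.coeff g *
          (if (redGL q n g : Matrix _ _ (ZMod q)) *ᵥ l.1 = w.1 ∨
            (redGL q n g : Matrix _ _ (ZMod q)) *ᵥ l.1 = -w.1 then (1 : ZMod p) else 0) := by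
            rw [Finset.mul_sum]
            refine Finset.sum_congr rfl fun g _ => ?_
            by_cases h1 : (redGL q n g : Matrix _ _ (ZMod q)) *ᵥ l.1 = w.1
            · rw [if_pos h1, if_neg (fun h' => hww (h1.symm.trans h')), if_pos (Or.inl h1)]
              ring
            · by_cases h2 : (redGL q n g : Matrix _ _ (ZMod q)) *ᵥ l.1 = -w.1
              · rw [if_neg h1, if_pos h2, if_pos (Or.inr h2)]
                ring
              · rw [if_neg h1, if_neg h2, if_neg (not_or.2 ⟨h1, h2⟩)]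
                ring
        _ = 0 := by rw [h0, mul_zero]
  · -- the action
    rw [hsum, map_sum, Finset.unop_sum]
    refine Finset.sum_congr rfl fun g _ => LinearMap.ext fun F => funext fun x => ?_
    have hu : ∀ (u : GL (Fin 2) (ZMod q)) (e : ℤ) (y : GL (Fin 2) (ZMod q) ⧸ torusQ q),
        (transAlg q p (MonoidAlgebra.single u e)).unop F y = (e : ZMod p) * F ((trGL u)⁻¹ • y) := by
      intro u e y
      rw [transAlg_apply, Finset.sum_eq_single u]
      · simp
      · intro v _ hv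
        simp [Ne.symm hv]
      · simp
    have e : ∀ y : CosetQ q n (torusQ q), g⁻¹ • y =
        ((redGL q n g)⁻¹ • (show GL (Fin 2) (ZMod q) ⧸ torusQ q from y) :
          GL (Fin 2) (ZMod q) ⧸ torusQ q) := fun y =>
      congrArg (· • (show GL (Fin 2) (ZMod q) ⧸ torusQ q from y)) (map_inv (redGL q n) g)
    rw [map_add, MulOpposite.unop_add, LinearMap.add_apply, Pi.add_apply, hu, hu, trGL_neg,
      trGL_trGL, inv_neg, neg_smul_torus, hcast, ← add_mul, ← two_mul, mul_comm (b.coeff g),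
      ← mul_assoc, mul_inv_cancel₀ h2, one_mul]
    exact congrArg (fun y => b.coeff g * F y) (e x).symm

end Fermat.Agent.RT.Lift59.Square

end
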