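import Fermat.Agent.RT.GammaH.Boundary
import Fermat.Agent.RT.Lift.Ihara

/-!
# Hecke operators at parabolic elements for primes one modulo the level

For a prime `ℓ ≡ 1 (mod L)` not dividing `m`, the value of `T_ℓ φ` at `g T^m g⁻¹ ∈ Γ₀(L)` is
`1 + ℓ` times that of `φ`, for every level and every group of values.
-/

set_option autoImplicit false

noncomputable section

namespace Fermat.Agent.RT.Lift59.Square

open CongruenceSubgroup Matrix.SpecialLinearGroup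
open Fermat.Agent.RT.GammaH
open scoped MatrixGroups

variable {L ℓ : ℕ} [hℓ : Fact ℓ.Prime]

omit hℓ in
theorem lowerLeft_conj_upper (g : SL(2, ℤ)) (A B D : ℤ) :
    ((g : Matrix (Fin 2) (Fin 2) ℤ) * !![A, B; 0, D] *
      !![g 1 1, -g 0 1; -g 1 0, g 0 0]) 1 0 =
      g 1 0 * g 1 1 * (A - D) - g 1 0 * g 1 0 * B := by
  simp [Matrix.mul_apply, Fin.sum_univ_two]
  ring

theorem conj_upper_mem_heckeSet (hℓL : ¬ ℓ ∣ L) (g : SL(2, ℤ)) {A B D : ℤ} (hAD0 : A * D ≠ 0)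
    (hAD : A * D = (ℓ : ℤ)) (h : (L : ℤ) ∣ g 1 0 * g 1 1 * (A - D) - g 1 0 * g 1 0 * B) :
    mapGL ℝ g * upperGL A B D hAD0 * (mapGL ℝ g)⁻¹ ∈
      heckeSet L (⊤ : Subgroup (ZMod L)ˣ) ℓ := by
  set M := (g : Matrix (Fin 2) (Fin 2) ℤ) * !![A, B; 0, D] *
    !![g 1 1, -g 0 1; -g 1 0, g 0 0] with hM
  have hdet : M.det = (ℓ : ℤ) := by
    rw [hM, Matrix.det_mul, Matrix.det_mul, Matrix.SpecialLinearGroup.det_coe,
      Matrix.det_fin_two_of, Matrix.det_fin_two_of]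
    linear_combination (A * D) * Gamma0.det_eq g + hAD
  have h10 : ((M 1 0 : ℤ) : ZMod L) = 0 := by
    rw [ZMod.intCast_zmod_eq_zero_iff_dvd, hM, lowerLeft_conj_upper]
    exact h
  have hu : IsUnit ((M 0 0 : ℤ) : ZMod L) := by
    have hz := congrArg (fun z : ℤ => (z : ZMod L)) hdet
    rw [Matrix.det_fin_two] at hz
    push_cast at hz
    rw [h10, mul_zero, sub_zero] at hz
    exact isUnit_of_mul_isUnit_left (x := ((M 0 0 : ℤ) : ZMod L)) (y := ((M 1 1 : ℤ) : ZMod L))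
      (hz ▸ (ZMod.unitOfCoprime ℓ ((Nat.Prime.coprime_iff_not_dvd hℓ.out).2 hℓL)).isUnit)
  refine ⟨M, ((isIntMat_mapGL g).mul (isIntMat_upperGL A B D hAD0)).mul (isIntMat_inv_mapGL g),
    hdet, h10, hu.unit, trivial, hu.unit_spec.symm⟩

theorem onImg_conj_zpow {A : Type} [AddCommGroup A]
    (φ : Additive (gammaH L (⊤ : Subgroup (ZMod L)ˣ)) →+ A) {g : SL(2, ℤ)} {m : ℤ}
    (hX : g * ModularGroup.T ^ m * g⁻¹ ∈ gammaH L (⊤ : Subgroup (ZMod L)ˣ)) (ε : ℤ) :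
    onImg φ (mapGL ℝ (g * ModularGroup.T ^ (m * ε) * g⁻¹)) = ε • φ (Additive.ofMul ⟨_, hX⟩) := by
  rw [← map_zsmul φ, ← ofMul_zpow]
  have hc : g * ModularGroup.T ^ (m * ε) * g⁻¹ = (g * ModularGroup.T ^ m * g⁻¹) ^ ε := by
    rw [conj_zpow, ← zpow_mul]
  rw [hc, ← onImg_mapGL φ, Subgroup.coe_zpow]

/-- The value of `T_ℓ φ` at a parabolic element, `ℓ ≡ 1 (mod L)`. -/
theorem hecke_apply_conj_T (hℓL : ¬ ℓ ∣ L) (hℓ1 : (L : ℤ) ∣ (ℓ : ℤ) - 1) {A : Type}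
    [AddCommGroup A] (φ : Additive (gammaH L (⊤ : Subgroup (ZMod L)ˣ)) →+ A) (g : SL(2, ℤ))
    {m : ℤ} (hm : IsCoprime (ℓ : ℤ) m)
    (hX : g * ModularGroup.T ^ m * g⁻¹ ∈ gammaH L (⊤ : Subgroup (ZMod L)ˣ)) :
    hecke L ⊤ ℓ ℤ φ (Additive.ofMul ⟨_, hX⟩) = (1 + ℓ) • φ (Additive.ofMul ⟨_, hX⟩) := by
  have hℓ0 : (ℓ : ℤ) ≠ 0 := Int.natCast_ne_zero.2 hℓ.out.ne_zero
  have hcm : (L : ℤ) ∣ g 1 0 * g 1 0 * m := by
    have h := (ZMod.intCast_zmod_eq_zero_iff_dvd _ _).1 hX.1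
    have e : ((g * ModularGroup.T ^ m * g⁻¹ : SL(2, ℤ)) : Matrix (Fin 2) (Fin 2) ℤ) 1 0 =
        -(g 1 0 * g 1 0 * m) := by
      rw [Matrix.SpecialLinearGroup.coe_mul, Matrix.SpecialLinearGroup.coe_mul,
        ModularGroup.coe_T_zpow, Matrix.SpecialLinearGroup.coe_inv, Matrix.adjugate_fin_two]
      simp [Matrix.mul_apply, Fin.sum_univ_two]
      ring
    rwa [e, dvd_neg] at h
  set rep : Option (Fin ℓ) → GLR := fun i =>
    mapGL ℝ g * cuspBeta m 0 0 hℓ0 i * (mapGL ℝ g)⁻¹ with hrep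
  have hmem : ∀ i, rep i ∈ heckeSet L (⊤ : Subgroup (ZMod L)ˣ) ℓ := by
    intro i
    rcases i with _ | j
    · refine conj_upper_mem_heckeSet hℓL g (by simpa using hℓ0) (mul_one _) ?_
      rw [mul_zero, sub_zero]
      exact hℓ1.mul_left _
    · refine conj_upper_mem_heckeSet hℓL g (by simpa using hℓ0) (one_mul _) ?_
      refine dvd_sub (Dvd.dvd.mul_left ?_ _) ?_
      · rw [← dvd_neg, neg_sub]
        exact hℓ1
      · rw [zero_add, ← mul_assoc, mul_right_comm]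
        exact hcm.mul_right _
  have hinj : ∀ i i', rep i * (rep i')⁻¹ ∈ img (gammaH L (⊤ : Subgroup (ZMod L)ˣ)) → i = i' := by
    intro i i' hmm
    obtain ⟨γ, -, hγ⟩ := hmm
    refine cuspBeta_injective (B₀ := 0) (B₁ := 0) (hℓ0 := hℓ0) hm (H := g⁻¹ * γ * g) ?_
    rw [map_mul, map_mul, map_inv, hγ, hrep]
    group
  have hreps : IsReps (gammaH L (⊤ : Subgroup (ZMod L)ˣ))
      (heckeSet L (⊤ : Subgroup (ZMod L)ˣ) ℓ) rep :=
    isReps_hRep.of_card hmem hinj (by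
      rw [Nat.card_eq_fintype_card, card_hIdx hℓL, Nat.card_eq_fintype_card, Fintype.card_option,
        Fintype.card_fin])
  have hadm : Admissible (gammaH L (⊤ : Subgroup (ZMod L)ˣ))
      (gammaH L (⊤ : Subgroup (ZMod L)ˣ)) rep :=
    hreps.admissible fun _ hz γ => heckeSet_mul_gammaH hz γ
  have hval : ∀ i, rep i * mapGL ℝ (g * ModularGroup.T ^ m * g⁻¹) *
      (rep (i.map (finRotate ℓ)))⁻¹ =
        mapGL ℝ (g * ModularGroup.T ^ (m * cuspEps ℓ i) * g⁻¹) := fun i => by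
    simp only [hrep, map_mul, map_inv, mul_assoc, inv_mul_cancel_left, mul_inv_rev, inv_inv]
    rw [← mul_assoc (cuspBeta m 0 0 hℓ0 i), cuspBeta_mul_T]
    simp [mul_assoc]
  have hperm : IsPerm (gammaH L (⊤ : Subgroup (ZMod L)ˣ)) rep
      (mapGL ℝ (g * ModularGroup.T ^ m * g⁻¹)) (fun i => i.map (finRotate ℓ)) := by
    refine ⟨Finite.injective_iff_bijective.1 (Option.map_injective (finRotate ℓ).injective),
      fun i => ?_⟩
    rw [hval]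
    refine mapGL_mem_img.2 ?_
    rw [zpow_mul, ← conj_zpow]
    exact Subgroup.zpow_mem _ hX _
  refine (DFunLike.congr_fun (LinearMap.congr_fun (hecke_eq_opOf ℤ hadm hreps) φ) _).trans ?_
  refine (opOf_apply_of_isPerm hadm φ ⟨_, hX⟩ hperm).trans ?_
  refine (Finset.sum_congr rfl fun i _ => (congrArg (onImg φ) (hval i)).trans
    (onImg_conj_zpow φ hX (cuspEps ℓ i))).trans ?_
  rw [Fintype.sum_option, add_comm 1 ℓ, add_smul, one_smul]
  refine congrArg₂ (· + ·) (natCast_zsmul _ _) ?_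
  have hlast : ℓ - 1 < ℓ := Nat.sub_lt hℓ.out.pos one_pos
  rw [Finset.sum_eq_single ⟨ℓ - 1, hlast⟩]
  · simp [cuspEps, show ℓ - 1 + 1 = ℓ by have := hℓ.out.pos; omega]
  · intro j _ hj
    have : (j : ℕ) + 1 ≠ ℓ := fun h => hj (Fin.ext (by simp; omega))
    simp [cuspEps, this]
  · simp

/-- The value of `T_ℓ φ` at a parabolic element of `Γ₀(L)`, `ℓ ≡ 1 (mod L)`. -/
theorem homT_apply_conj_T [NeZero L] (hℓL : ¬ ℓ ∣ L) (hℓ1 : (L : ℤ) ∣ (ℓ : ℤ) - 1) {A : Type}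
    [AddCommGroup A] (φ : Additive (Gamma0 L) →+ A) (g : SL(2, ℤ)) {m : ℤ}
    (hm : IsCoprime (ℓ : ℤ) m) (hX : g * ModularGroup.T ^ m * g⁻¹ ∈ Gamma0 L) :
    Periods.homT hℓ.out hℓL ℤ φ (Additive.ofMul ⟨_, hX⟩) =
      (1 + ℓ) • φ (Additive.ofMul ⟨_, hX⟩) := by
  have hX' : g * ModularGroup.T ^ m * g⁻¹ ∈ gammaH L (⊤ : Subgroup (ZMod L)ˣ) := by
    rw [gammaH_top]; exact hX
  have h := hecke_apply_conj_T hℓL hℓ1 (Lift.toTop ℤ L φ) g hm hX'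
  rw [Lift.hecke_toTop ℤ hℓ.out hℓL] at h
  exact h

end Fermat.Agent.RT.Lift59.Square

end
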