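import Fermat.Agent.RT.Lift59.Square.Cosets
import Fermat.Agent.Periods.Hecke

/-!
# Descent to level `q R`

A system with trivial central character occurring with coefficients in the functions on the cosets
of the Borel group with upper left entry `± 1` occurs with coefficients in the functions on the
cosets of the Borel group, hence in the homomorphisms on `Γ₀(q R)`.
-/

set_option autoImplicit false
set_option linter.unusedSectionVars false

noncomputable section

open scoped Classical MatrixGroups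

namespace Fermat.Agent.RT.Lift59.Square

open CongruenceSubgroup Matrix Fermat.Agent.RT.InertiaTW
open Fermat.Agent.Carayol (diagElt)
open Fermat.Agent.Periods (systemT homT HeckeSystem)

variable {q n : ℕ} [NeZero q] [NeZero n] [NeZero (q * n)]

/-- The projection from the cosets of a smaller group. -/
def projZ : CosetQ q n (pmBorel q) → CosetQ q n (borelQ q) :=
  Subgroup.quotientMapOfLE (pmBorel_le (q := q))

theorem projZ_mk (g : GL (Fin 2) (ZMod q)) :
    projZ (CosetQ.mk g : CosetQ q n (pmBorel q)) = CosetQ.mk g := rfl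

theorem projZ_smul (c : GLQ (q * n)) (y : CosetQ q n (pmBorel q)) :
    projZ (c • y) = c • projZ y := by
  obtain ⟨g, rfl⟩ := CosetQ.mk_surjective y
  rfl

theorem projZ_surjective : Function.Surjective (projZ (q := q) (n := n)) := fun z => by
  obtain ⟨g, rfl⟩ := CosetQ.mk_surjective z
  exact ⟨CosetQ.mk g, projZ_mk g⟩

/-- The centre is transitive on the fibres of the projection. -/
theorem exists_centre_smul [Fact q.Prime] {y y' : CosetQ q n (pmBorel q)}
    (h : projZ y = projZ y') : ∃ c : Subgroup.center (GLQ (q * n)), (c : GLQ (q * n)) • y = y' := by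
  obtain ⟨g, rfl⟩ := CosetQ.mk_surjective y
  obtain ⟨g', rfl⟩ := CosetQ.mk_surjective y'
  rw [projZ_mk, projZ_mk, CosetQ.mk_eq_mk, mem_borelQ] at h
  set b : GL (Fin 2) (ZMod q) := g⁻¹ * g' with hb
  have hb0 : (b : Matrix (Fin 2) (Fin 2) (ZMod q)) 0 0 ≠ 0 := fun h0 => by
    have hdet := ((Matrix.isUnit_iff_isUnit_det _).1 b.isUnit).ne_zero
    rw [Matrix.det_fin_two, h, h0, zero_mul, mul_zero, sub_zero] at hdet
    exact hdet rfl
  obtain ⟨w, hw⟩ := ZMod.unitsMap_surjective (dvd_mul_right q n)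
    (Units.mk0 _ hb0)
  set c : GLQ (q * n) := Units.map (Matrix.scalar (Fin 2)).toMonoidHom w with hc
  have hcc : c ∈ Subgroup.center (GLQ (q * n)) := Subgroup.mem_center_iff.2 fun x =>
    Units.ext ((Matrix.scalar_commute (w : ZMod (q * n)) (fun r => Commute.all _ r)
      (x : Matrix (Fin 2) (Fin 2) (ZMod (q * n)))).symm.eq)
  have hred : ((redGL q n c : GL (Fin 2) (ZMod q)) : Matrix (Fin 2) (Fin 2) (ZMod q)) =
      Matrix.scalar (Fin 2) ((b : Matrix (Fin 2) (Fin 2) (ZMod q)) 0 0) := by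
    have e : (ZMod.castHom (dvd_mul_right q n) (ZMod q)) (w : ZMod (q * n)) =
        (b : Matrix (Fin 2) (Fin 2) (ZMod q)) 0 0 := congrArg Units.val hw
    rw [← e]
    refine Matrix.ext fun i j => ?_
    show (ZMod.castHom (dvd_mul_right q n) (ZMod q)) (Matrix.scalar (Fin 2) (w : ZMod (q * n)) i j) = _
    fin_cases i <;> fin_cases j <;> simp
  refine ⟨⟨c, hcc⟩, ?_⟩
  show c • (CosetQ.mk g : CosetQ q n (pmBorel q)) = CosetQ.mk g'
  rw [CosetQ.smul_mk, CosetQ.mk_eq_mk]
  set s : GL (Fin 2) (ZMod q) := redGL q n c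
  have hs : ∀ x : GL (Fin 2) (ZMod q), s * x = x * s := fun x => Units.ext (by
    rw [Units.val_mul, Units.val_mul, hred]
    exact (Matrix.scalar_commute _ (fun r => Commute.all _ r) _).eq)
  set d := (s * g)⁻¹ * g' with hd
  have hsd : s * d = b := by
    rw [hd, _root_.mul_inv_rev, ← mul_assoc, ← mul_assoc, hs g⁻¹, mul_assoc (g⁻¹) s, mul_inv_cancel,
      mul_one]
  have hval := congrArg (fun x : GL (Fin 2) (ZMod q) => (x : Matrix (Fin 2) (Fin 2) (ZMod q))) hsd
  simp only [Units.val_mul, hred] at hval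
  have h00 := congrFun (congrFun hval 0) 0
  have h10 := congrFun (congrFun hval 1) 0
  simp [Matrix.scalar_apply, Matrix.diagonal_mul] at h00 h10
  rw [h, mul_eq_zero] at h10
  rw [mem_pmBorel]
  refine ⟨h10.resolve_left hb0, ?_⟩
  have h1 : ((d : GL (Fin 2) (ZMod q)) : Matrix (Fin 2) (Fin 2) (ZMod q)) 0 0 = 1 :=
    mul_left_cancel₀ hb0 (by rw [h00, mul_one])
  rw [h1, one_mul]

variable {p R : ℕ} [Fact p.Prime] [Fact q.Prime] [NeZero R] [Fact (q.Coprime n)]

/-- The stabiliser of the first coset in `Γ₀(R)` is `Γ₀(q R)`. -/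
theorem redR_smul_iff (hqR : ¬ q ∣ R) (γ : Gamma0 R) :
    redR R (q * n) γ • (CosetQ.mk 1 : CosetQ q n (borelQ q)) = CosetQ.mk 1 ↔
      (γ : SL(2, ℤ)) ∈ Gamma0 (q * R) := by
  rw [smul_mk_one, mem_borelQ]
  show (redGL q n (redQ (q * n) (γ : SL(2, ℤ))) : Matrix (Fin 2) (Fin 2) (ZMod q)) 1 0 = 0 ↔ _
  rw [redGL_redQ, Gamma0_mem]
  show (((γ : SL(2, ℤ)) 1 0 : ℤ) : ZMod q) = 0 ↔ _
  rw [ZMod.intCast_zmod_eq_zero_iff_dvd, ZMod.intCast_zmod_eq_zero_iff_dvd]
  refine ⟨fun h => ?_, fun h => (Int.natCast_dvd_natCast.2 (dvd_mul_right q R)).trans h⟩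
  rw [Nat.cast_mul]
  exact (Nat.isCoprime_iff_coprime.2
    ((Fact.out : q.Prime).coprime_iff_not_dvd.2 hqR)).mul_dvd h
    ((ZMod.intCast_zmod_eq_zero_iff_dvd _ _).1 (Gamma0_mem.1 γ.2))

set_option maxHeartbeats 800000 in
/-- **Descent.** A system with coefficients in the functions on the cosets of the smaller Borel
group gives an eigen homomorphism on `Γ₀(q R)`. -/
theorem exists_hom_of_occurs (hR : R ∣ n) (hqR : ¬ q ∣ R) {S : Finset ℕ} {a : ℕ → ZMod p}
    (hne : NotEis R (q * n) S a)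
    (h : Occurs R S (funRep (ZMod p) (GLQ (q * n)) (CosetQ q n (pmBorel q))) a) :
    ∃ φ : Additive (Gamma0 (q * R)) →+ ZMod p, φ ≠ 0 ∧
      ∀ l (hl : l.Prime) (hlN : ¬ l ∣ q * R), ¬ l ∣ q * n → l ∉ S →
        homT hl hlN ℤ φ = a l • φ := by
  have : NeZero (q * R) := ⟨mul_ne_zero (NeZero.ne q) (NeZero.ne R)⟩
  set G := GLQ (q * n)
  set ρY := funRep (ZMod p) G (CosetQ q n (pmBorel q)) with hρY
  set ρZ := funRep (ZMod p) G (CosetQ q n (borelQ q)) with hρZ
  -- the displacement by the centre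
  let C := Subgroup.center G
  let Dl : (CosetQ q n (pmBorel q) → ZMod p) →ₗ[ZMod p]
      (C → CosetQ q n (pmBorel q) → ZMod p) :=
    LinearMap.pi fun c => ρY (c : G) - 1
  have hDl : ∀ (F : CosetQ q n (pmBorel q) → ZMod p) (c : C), Dl F c = ρY (c : G) F - F :=
    fun F c => rfl
  have hDg : ∀ g F, Dl (ρY g F) = piRep C ρY g (Dl F) := fun g F => funext fun c => by
    rw [piRep_apply, hDl, hDl, map_sub, ← Module.End.mul_apply, ← Module.End.mul_apply, ← map_mul,
      ← map_mul, Subgroup.mem_center_iff.1 c.2 g]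
  let V := LinearMap.range Dl
  have hV : ∀ g, ∀ v ∈ V, piRep C ρY g v ∈ V := by
    rintro g _ ⟨F, rfl⟩
    exact ⟨ρY g F, hDg g F⟩
  have hD' : ∀ g F, Dl.rangeRestrict (ρY g F) = subRep (piRep C ρY) V hV g (Dl.rangeRestrict F) :=
    fun g F => Subtype.ext (hDg g F)
  obtain ⟨v, hv0, hv⟩ := h
  have hu0 : hMap (π := redR R (q * n)) Dl.rangeRestrict hD' v = 0 := by
    have hinc : hMap (π := redR R (q * n)) (ρ := subRep (piRep C ρY) V hV) (σ := piRep C ρY) V.subtype
        (fun _ _ => rfl) (hMap (π := redR R (q * n)) Dl.rangeRestrict hD' v) = 0 := by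
      refine eq_zero_of_forall_proj fun c => ?_
      obtain ⟨ξ, rfl⟩ := cls_surjective _ _ v
      have hc : hMap (ρY (c : G)) (fun g m => by
          rw [← Module.End.mul_apply, ← map_mul, ← Subgroup.mem_center_iff.1 c.2 g, map_mul,
            Module.End.mul_apply]) (cls (redR R (q * n)) ρY ξ) = cls _ ρY ξ :=
        (hv (Sum.inr c)).trans (one_smul _ _)
      rw [hMap_cls, cls_eq_cls] at hc
      obtain ⟨m, hm⟩ := hc
      let η₁ := cocMap (π := redR R (q * n)) (ρ := subRep (piRep C ρY) V hV) (σ := piRep C ρY)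
        V.subtype (fun _ _ => rfl) (cocMap Dl.rangeRestrict hD' ξ)
      exact (cls_eq_zero (redR R (q * n)) ρY (ξ := cocMap (ρ := piRep C ρY) (σ := ρY)
        (LinearMap.proj c : (C → CosetQ q n (pmBorel q) → ZMod p) →ₗ[ZMod p] _)
        (fun _ _ => rfl) η₁)).2 ⟨m, fun γ => sub_eq_iff_eq_add'.2 (hm γ)⟩
    obtain ⟨η, hη, hη0⟩ := exists_rep_of_hMap_eq_zero _ V.injective_subtype hinc
    exact eq_zero_of_vanish hne (fun i => by rw [← hMap_sqOp, hv, map_smul]) hη hη0
  -- the pullback from the cosets of the Borel group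
  let i : (CosetQ q n (borelQ q) → ZMod p) →ₗ[ZMod p] (CosetQ q n (pmBorel q) → ZMod p) :=
    LinearMap.funLeft (ZMod p) (ZMod p) projZ
  have hi : ∀ g F, i (ρZ g F) = ρY g (i F) := fun g F => funext fun y => by
    show ρZ g F (projZ y) = F (projZ (g⁻¹ • y))
    rw [projZ_smul, hρZ, funRep_apply]
  have hinj : Function.Injective i := fun F F' e => funext fun z => by
    obtain ⟨y, rfl⟩ := projZ_surjective z
    exact congrFun e y
  obtain ⟨y, hy⟩ := exists_hMap_eq (i := i) hi hD' hinj Dl.surjective_rangeRestrict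
    (fun F hF => by
      have hF' : ∀ (c : C) (y : CosetQ q n (pmBorel q)), F ((c : G)⁻¹ • y) = F y := fun c y => by
        have h0 := congrFun (congrFun (congrArg Subtype.val hF) c) y
        exact sub_eq_zero.1 h0
      refine ⟨fun z => F (projZ_surjective z).choose, funext fun y => ?_⟩
      show F (projZ_surjective (projZ y)).choose = F y
      obtain ⟨c, hc⟩ := exists_centre_smul (projZ_surjective (projZ y)).choose_spec
      have h1 := hF' c y
      rwa [show (c : G)⁻¹ • y = (projZ_surjective (projZ y)).choose by rw [inv_smul_eq_iff, hc]]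
        at h1) hu0
  obtain ⟨v', hv'0, hv'⟩ := occurs_of_map (S := S) (a := a) i hi (u := y) (by rw [hy]; exact hv0)
    (fun j => by rw [hy]; exact hv j)
  obtain ⟨ξ, hξ⟩ := cls_surjective _ _ v'
  set x₀ : CosetQ q n (borelQ q) := CosetQ.mk 1 with hx₀
  have hle : Gamma0 (q * R) ≤ Gamma0 R := fun γ hγ => by
    rw [Gamma0_mem, ZMod.intCast_zmod_eq_zero_iff_dvd] at hγ ⊢
    exact (Int.natCast_dvd_natCast.2 (dvd_mul_left R q)).trans hγ
  let inc : Gamma0 (q * R) →* Gamma0 R := Subgroup.inclusion hle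
  have hfix : ∀ γ : Gamma0 (q * R), redR R (q * n) (inc γ) • x₀ = x₀ := fun γ =>
    (redR_smul_iff hqR (inc γ)).2 γ.2
  let φ : Additive (Gamma0 (q * R)) →+ ZMod p := AddMonoidHom.mk'
    (fun γ => (ξ : Gamma0 R → CosetQ q n (borelQ q) → ZMod p) (inc (Additive.toMul γ)) x₀)
    fun γ δ => by
      show (ξ : Gamma0 R → CosetQ q n (borelQ q) → ZMod p)
        (inc (Additive.toMul γ * Additive.toMul δ)) x₀ = _
      rw [map_mul]
      exact eval_mul ξ (hfix _)
  have hφ : ∀ γ : Gamma0 (q * R), φ (Additive.ofMul γ) =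
      (ξ : Gamma0 R → CosetQ q n (borelQ q) → ZMod p) (inc γ) x₀ := fun _ => rfl
  refine ⟨φ, fun h0 => hv'0 ?_, fun l hl hlN hlQ hlS => ?_⟩
  · rw [← hξ]
    refine eq_zero_of_eval (x₀ := x₀) (fun x => ?_) fun γ hγ => ?_
    · obtain ⟨g, rfl⟩ := CosetQ.mk_surjective x
      obtain ⟨-, γ, -, -, e⟩ := exists_smul_mk_one hR
        (fun d => pmBorel_le (diag_mem_pmBorel d)) g _ rfl
      exact ⟨γ, e⟩
    · exact (hφ ⟨γ, (redR_smul_iff hqR γ).1 hγ⟩).symm.trans (DFunLike.congr_fun h0 _)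
  have : Fact l.Prime := ⟨hl⟩
  have : NeZero l := ⟨hl.ne_zero⟩
  have hlR : ¬ l ∣ R := fun h' => hlN (h'.mul_left q)
  have hl1 : ¬ l ∣ 1 := hl.not_dvd_one
  have hlc : l.Coprime (q * n) := hl.coprime_iff_not_dvd.2 hlQ
  have heig : tOp R ρZ l hlc v' = a l • v' := hv' (Sum.inl ⟨l, hl, hlR, hlQ, hlS⟩)
  set T := sysShift R (q * n) 1 l hlc hlR hl1 with hT
  have hmat : ∀ o, T.mat o • x₀ = x₀ := fun o => by
    rw [hx₀, smul_mk_one, mem_borelQ]
    show (ZMod.castHom (dvd_mul_right q n) (ZMod q))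
      (((T.mat o : GLQ (q * n)) : Matrix (Fin 2) (Fin 2) (ZMod (q * n))) 1 0) = 0
    rw [hT, coe_sysShift_mat]
    rcases o with _ | j <;> simp
  rw [← hξ, tOp_eq ρZ hlc (isIntSys_sysShift 1 l hlc hlR hl1), CSys.hOp_cls, ← map_smul,
    cls_eq_cls] at heig
  obtain ⟨m, hm⟩ := heig
  refine AddMonoidHom.ext fun γ => ?_
  obtain ⟨γ, rfl⟩ := Additive.ofMul.surjective γ
  have hm' := congrFun (hm (inc γ)) x₀
  rw [eval_cocOp T hmat, Pi.add_apply, Pi.sub_apply,
    show ρZ (redR R (q * n) (inc γ)) m x₀ = m x₀ from congrArg m (inv_smul_eq_iff.2 (hfix γ).symm),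
    sub_self, add_zero] at hm'
  show (systemT hl hlN).op ℤ φ (Additive.ofMul γ) = a l * φ (Additive.ofMul γ)
  rw [HeckeSystem.op_apply, HeckeSystem.apply_apply]
  refine Eq.trans ?_ hm'
  refine Finset.sum_congr rfl fun o _ => ?_
  have hc : (T.cocycle (inc γ) o : SL(2, ℤ)) ∈ Gamma0 (q * R) :=
    (redR_smul_iff hqR _).1 (stab_cocycle T hmat (hfix γ) o)
  have hrep : ∀ o, T.rep o = (systemT hl hlN).rep o := by
    rintro (_ | j)
    · rfl
    · show ModularForm.heckeMatrix l (1 * j.val) = ModularForm.heckeMatrix l j.val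
      rw [one_mul]
  have e := ((systemT hl hlN).eq_of_spec (γ := γ) (i := o) (j := T.perm (inc γ) o)
    (c := ⟨_, hc⟩) (by
      rw [← hrep, ← hrep]
      exact T.spec (inc γ) o)).2
  rw [e, hφ]
  rfl

end Fermat.Agent.RT.Lift59.Square

end
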