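import Fermat.Agent.RT.Lift59.Square.Exact
import Fermat.Agent.Gamma0.Cocycle
import Mathlib.SetTheory.Cardinal.Order

/-!
# Surjectivity in the coefficients without elliptic elements

If `S` and `Gamma0.ST` fix no coset of `Γ ∋ -1`, a cocycle with values in a quotient lifts: by Shapiro's
lemma it is given by values on the free orbits of `S` and `Gamma0.ST`.
-/

set_option autoImplicit false

noncomputable section

namespace Fermat.Agent.RT.Lift59.Square

open Fermat.Agent.Gamma0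
open scoped MatrixGroups
open ModularGroup

variable {Γ : Subgroup SL(2, ℤ)} {G : Type*} [Group G] (Φ : SL(2, ℤ) →* G) {k : Type*}
  [CommRing k] {V W : Type*} [AddCommGroup V] [Module k V] [AddCommGroup W] [Module k W]
  {σ : Representation k G V} {τ : Representation k G W}

/-- A cocycle on the cosets with values in a representation. -/
def IsTwisted (σ : Representation k G V) (c : SL(2, ℤ) → SL(2, ℤ) ⧸ Γ → V) : Prop :=
  ∀ g h x, c (g * h) x = c g (h • x) + σ (Φ g) (c h x)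

variable {Φ}

theorem IsTwisted.map_one {c : SL(2, ℤ) → SL(2, ℤ) ⧸ Γ → V} (hc : IsTwisted Φ σ c)
    (x : SL(2, ℤ) ⧸ Γ) : c 1 x = 0 := by
  have h := hc 1 1 x
  rw [mul_one, one_smul, _root_.map_one, _root_.map_one, Module.End.one_apply] at h
  exact left_eq_add.1 h

theorem IsTwisted.map_inv {c : SL(2, ℤ) → SL(2, ℤ) ⧸ Γ → V} (hc : IsTwisted Φ σ c) (g : SL(2, ℤ))
    (x : SL(2, ℤ) ⧸ Γ) : c g⁻¹ x = -σ (Φ g)⁻¹ (c g (g⁻¹ • x)) := by
  have h := hc g g⁻¹ x
  rw [mul_inv_cancel, hc.map_one] at h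
  have h' : σ (Φ g) (c g⁻¹ x) = -c g (g⁻¹ • x) := eq_neg_of_add_eq_zero_right h.symm
  rw [← _root_.map_neg (σ (Φ g)⁻¹), ← h', ← Module.End.mul_apply, ← _root_.map_mul,
    inv_mul_cancel, _root_.map_one, Module.End.one_apply]

theorem IsTwisted.ext_of_eq {c c' : SL(2, ℤ) → SL(2, ℤ) ⧸ Γ → V} (hc : IsTwisted Φ σ c)
    (hc' : IsTwisted Φ σ c') (hS : c S = c' S) (hR : c Gamma0.ST = c' Gamma0.ST) : c = c' := by
  let H : Subgroup SL(2, ℤ) :=
    { carrier := {g | c g = c' g}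
      one_mem' := funext fun x => (hc.map_one x).trans (hc'.map_one x).symm
      mul_mem' := fun {g h} hg hh => funext fun x => by rw [hc, hc', hg, hh]
      inv_mem' := fun {g} hg => funext fun x => by rw [hc.map_inv, hc'.map_inv, hg] }
  have hle : Subgroup.closure {S, Gamma0.ST} ≤ H := by
    rw [Subgroup.closure_le]
    rintro g (rfl | rfl) <;> assumption
  funext g
  exact hle (closure_S_ST ▸ Subgroup.mem_top g)

theorem smul_R_three (hneg : -1 ∈ Γ) (x : SL(2, ℤ) ⧸ Γ) : Gamma0.ST • Gamma0.ST • Gamma0.ST • x = x := by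
  rw [← mul_smul, ← mul_smul, ← pow_two, ← pow_succ, ST_pow_three, neg_one_smul_coset hneg]

theorem smul_S_two (hneg : -1 ∈ Γ) (x : SL(2, ℤ) ⧸ Γ) : S • S • x = x := by
  rw [← mul_smul, S_mul_S, neg_one_smul_coset hneg]

/-- A twisted cocycle with prescribed values at `S` and `Gamma0.ST`. -/
theorem exists_twisted (hneg : -1 ∈ Γ) (hσ : σ (Φ (-1)) = 1) {u v : SL(2, ℤ) ⧸ Γ → V}
    (hu : ∀ x, u (S • x) + σ (Φ S) (u x) = 0)
    (hv : ∀ x, v (Gamma0.ST • Gamma0.ST • x) + σ (Φ Gamma0.ST) (v (Gamma0.ST • x)) + σ (Φ (Gamma0.ST * Gamma0.ST)) (v x) = 0) :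
    ∃ c, IsTwisted Φ σ c ∧ c S = u ∧ c Gamma0.ST = v :=
  exists_twisted_cocycle hneg
    { toFun := fun g => (σ (Φ g)).toAddMonoidHom
      map_one' := by rw [_root_.map_one, _root_.map_one]; rfl
      map_mul' := fun g g' => by rw [_root_.map_mul, _root_.map_mul]; rfl }
    (by show (σ (Φ (-1))).toAddMonoidHom = _; rw [hσ]; rfl) hu hv

/-- The restriction of a twisted cocycle to `Γ`. -/
theorem IsTwisted.mem_cocycles {c : SL(2, ℤ) → SL(2, ℤ) ⧸ Γ → V} (hc : IsTwisted Φ σ c) :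
    (fun γ : Γ => c (γ : SL(2, ℤ)) (QuotientGroup.mk 1)) ∈ cocycles (Φ.comp Γ.subtype) σ := by
  intro γ δ
  show c ((γ : SL(2, ℤ)) * (δ : SL(2, ℤ))) _ = _
  rw [hc]
  congr 2
  rw [MulAction.Quotient.smul_coe, smul_eq_mul, mul_one, QuotientGroup.eq]
  simp

variable (Φ) in
/-- **Surjectivity.** -/
theorem hMap_surjective (hneg : -1 ∈ Γ) (hfree : ∀ x : SL(2, ℤ) ⧸ Γ, S • x ≠ x ∧ Gamma0.ST • x ≠ x)
    (h2 : IsUnit (2 : k)) (hσ : σ (Φ (-1)) = 1) {f : V →ₗ[k] W}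
    (hf : ∀ g m, f (σ g m) = τ g (f m)) (hsurj : Function.Surjective f) :
    Function.Surjective (hMap (π := Φ.comp Γ.subtype) f hf) := by
  classical
  intro y
  obtain ⟨ξ, rfl⟩ := cls_surjective _ τ y
  have hτ : τ (Φ (-1)) = 1 := LinearMap.ext fun w => by
    obtain ⟨v, rfl⟩ := hsurj w
    rw [← hf, hσ]
    rfl
  have hmem : ∀ (g : SL(2, ℤ)) (x : SL(2, ℤ) ⧸ Γ), (g • x).out⁻¹ * g * x.out ∈ Γ := by
    intro g x
    rw [mul_assoc, ← QuotientGroup.eq, QuotientGroup.out_eq', ← smul_eq_mul,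
      ← MulAction.Quotient.smul_coe, QuotientGroup.out_eq']
  let c : SL(2, ℤ) → SL(2, ℤ) ⧸ Γ → W := fun g x =>
    τ (Φ (g • x).out) ((ξ : Γ → W) ⟨_, hmem g x⟩)
  have hc : IsTwisted Φ τ c := by
    intro g h x
    have e : (⟨_, hmem (g * h) x⟩ : Γ) = ⟨_, hmem g (h • x)⟩ * ⟨_, hmem h x⟩ :=
      Subtype.ext (by simp [mul_smul, mul_assoc])
    show τ (Φ ((g * h) • x).out) _ = _
    rw [e, ξ.2, map_add]
    refine congrArg₂ (· + ·) (by rw [mul_smul]) ?_
    show _ = τ (Φ g) (τ (Φ (h • x).out) _)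
    rw [← Module.End.mul_apply, ← Module.End.mul_apply, ← map_mul, ← map_mul]
    refine congrArg (fun z => τ z _) ?_
    show Φ ((g * h) • x).out * Φ ((g • h • x).out⁻¹ * g * (h • x).out) = _
    rw [← map_mul, ← map_mul, mul_smul, ← mul_assoc, ← mul_assoc, mul_inv_cancel, one_mul]
  have hm1 : ∀ x, c (-1) x = 0 := by
    intro x
    let z : Γ := ⟨-1, hneg⟩
    have e : (⟨_, hmem (-1) x⟩ : Γ) = z := Subtype.ext (by
      show ((-1 : SL(2, ℤ)) • x).out⁻¹ * -1 * x.out = -1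
      rw [neg_one_smul_coset hneg, mul_neg_one, neg_mul, inv_mul_cancel])
    have hz : (ξ : Γ → W) (z * z) = (ξ : Γ → W) z + τ ((Φ.comp Γ.subtype) z) ((ξ : Γ → W) z) :=
      ξ.2 z z
    rw [show z * z = 1 from Subtype.ext (neg_mul_neg (1 : SL(2, ℤ)) 1 |>.trans (one_mul 1)),
      cocycles_one ξ.2, MonoidHom.comp_apply,
      show τ (Φ (Γ.subtype z)) = 1 from hτ, Module.End.one_apply, ← two_smul k] at hz
    show τ _ ((ξ : Γ → W) ⟨_, hmem (-1) x⟩) = 0
    rw [e, (h2.smul_eq_zero).mp hz.symm, map_zero]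
  have hu : ∀ x, c S (S • x) + τ (Φ S) (c S x) = 0 := fun x => by rw [← hc, S_mul_S, hm1]
  have hv : ∀ x, c Gamma0.ST (Gamma0.ST • Gamma0.ST • x) + τ (Φ Gamma0.ST) (c Gamma0.ST (Gamma0.ST • x)) + τ (Φ (Gamma0.ST * Gamma0.ST)) (c Gamma0.ST x) = 0 := by
    intro x
    rw [add_assoc, map_mul Φ, map_mul τ, Module.End.mul_apply, ← map_add, ← hc, ← mul_smul, ← hc,
      ← mul_assoc, ← pow_two, ← pow_succ, ST_pow_three, hm1]
  let : LinearOrder (SL(2, ℤ) ⧸ Γ) := linearOrderOfSTO WellOrderingRel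
  choose l hl using hsurj
  have hS2 : ∀ a, σ (Φ S) (σ (Φ S) a) = a := fun a => by
    rw [← Module.End.mul_apply, ← map_mul, ← map_mul, S_mul_S, hσ, Module.End.one_apply]
  let u' : SL(2, ℤ) ⧸ Γ → V := fun x =>
    if x < S • x then l (c S x) else -σ (Φ S) (l (c S (S • x)))
  have hu' : ∀ x, u' (S • x) + σ (Φ S) (u' x) = 0 := by
    intro x
    simp only [u', smul_S_two hneg]
    rcases lt_trichotomy x (S • x) with h | h | h
    · rw [if_neg h.not_gt, if_pos h, neg_add_cancel]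
    · exact absurd h.symm (hfree x).1
    · rw [if_pos h, if_neg h.not_gt, map_neg, hS2, add_neg_cancel]
  have hfu : ∀ x, f (u' x) = c S x := by
    intro x
    simp only [u']
    split_ifs
    · exact hl _
    · rw [map_neg, hf, hl, neg_eq_iff_add_eq_zero, add_comm]
      have := hu (S • x)
      rwa [smul_S_two hneg] at this
  let sp : SL(2, ℤ) ⧸ Γ → Prop := fun x => Gamma0.ST • x < x ∧ Gamma0.ST • x < Gamma0.ST • Gamma0.ST • x
  let v' : SL(2, ℤ) ⧸ Γ → V := fun x =>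
    if sp x then -σ (Φ Gamma0.ST) (l (c Gamma0.ST (Gamma0.ST • Gamma0.ST • x))) - σ (Φ (Gamma0.ST * Gamma0.ST)) (l (c Gamma0.ST (Gamma0.ST • x)))
    else l (c Gamma0.ST x)
  have hR3 : ∀ a, σ (Φ Gamma0.ST) (σ (Φ Gamma0.ST) (σ (Φ Gamma0.ST) a)) = a := fun a => by
    rw [← Module.End.mul_apply, ← map_mul, ← map_mul, ← Module.End.mul_apply, ← map_mul,
      ← map_mul, ← pow_two, ← pow_succ, ST_pow_three, hσ, Module.End.one_apply]
  have hone : ∀ x, (sp x ∧ ¬ sp (Gamma0.ST • x) ∧ ¬ sp (Gamma0.ST • Gamma0.ST • x)) ∨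
      (¬ sp x ∧ sp (Gamma0.ST • x) ∧ ¬ sp (Gamma0.ST • Gamma0.ST • x)) ∨
      (¬ sp x ∧ ¬ sp (Gamma0.ST • x) ∧ sp (Gamma0.ST • Gamma0.ST • x)) := by
    intro x
    have h1 : Gamma0.ST • x ≠ x := (hfree x).2
    have h2' : Gamma0.ST • Gamma0.ST • x ≠ Gamma0.ST • x := (hfree _).2
    have h3 : x ≠ Gamma0.ST • Gamma0.ST • x := fun h => (hfree (Gamma0.ST • Gamma0.ST • x)).2 (by
      rw [smul_R_three hneg]; exact h)
    simp only [sp, smul_R_three hneg]
    generalize Gamma0.ST • Gamma0.ST • x = z at *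
    generalize Gamma0.ST • x = y at *
    rcases h1.lt_or_gt with a | a <;> rcases h2'.lt_or_gt with b | b <;>
      rcases h3.lt_or_gt with d | d
    all_goals first
      | exact absurd ((a.trans d).trans b) (lt_irrefl _)
      | exact absurd ((b.trans a).trans d) (lt_irrefl _)
      | exact absurd ((a.trans b).trans d) (lt_irrefl _)
      | simp [a, b, d, a.not_gt, b.not_gt, d.not_gt]
  have hv' : ∀ x, v' (Gamma0.ST • Gamma0.ST • x) + σ (Φ Gamma0.ST) (v' (Gamma0.ST • x)) + σ (Φ (Gamma0.ST * Gamma0.ST)) (v' x) = 0 := by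
    intro x
    rcases hone x with ⟨a, b, d⟩ | ⟨a, b, d⟩ | ⟨a, b, d⟩ <;>
      simp only [v', if_pos, if_neg, a, b, d, not_false_eq_true, smul_R_three hneg, map_sub,
        map_neg, map_mul, Module.End.mul_apply, hR3] <;> abel
  have hfv : ∀ x, f (v' x) = c Gamma0.ST x := by
    intro x
    simp only [v']
    split_ifs
    · rw [map_sub, map_neg, hf, hf, hl, hl]
      have := hv (Gamma0.ST • x)
      rw [smul_R_three hneg] at this
      linear_combination (norm := abel) -this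
    · exact hl _
  obtain ⟨d, hd, hdS, hdR⟩ := exists_twisted (Φ := Φ) hneg hσ hu' hv'
  have hfd : (fun g x => f (d g x)) = c := IsTwisted.ext_of_eq (Φ := Φ) (σ := τ)
    (fun g h x => by simp only [hd g h x, map_add, hf]) hc
    (funext fun x => by rw [hdS, hfu]) (funext fun x => by rw [hdR, hfv])
  refine ⟨cls _ σ ⟨_, hd.mem_cocycles⟩, ?_⟩
  rw [hMap_cls, cls_eq_cls]
  have ho : ((QuotientGroup.mk 1 : SL(2, ℤ) ⧸ Γ)).out ∈ Γ := by
    have := QuotientGroup.out_eq' (QuotientGroup.mk 1 : SL(2, ℤ) ⧸ Γ)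
    rw [eq_comm, QuotientGroup.eq, inv_one, one_mul] at this
    exact this
  refine ⟨(ξ : Γ → W) ⟨_, ho⟩, fun γ => ?_⟩
  show f (d (γ : SL(2, ℤ)) _) = _
  refine (congrFun (congrFun hfd _) _).trans ?_
  have hfix : (γ : SL(2, ℤ)) • (QuotientGroup.mk 1 : SL(2, ℤ) ⧸ Γ) = QuotientGroup.mk 1 := by
    rw [MulAction.Quotient.smul_coe, smul_eq_mul, mul_one, QuotientGroup.eq]
    simp
  set o : Γ := ⟨_, ho⟩
  have e : (⟨_, hmem γ (QuotientGroup.mk 1)⟩ : Γ) = o⁻¹ * γ * o :=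
    Subtype.ext (by simp [hfix, o])
  show τ (Φ ((γ : SL(2, ℤ)) • (QuotientGroup.mk 1 : SL(2, ℤ) ⧸ Γ)).out) _ = _
  rw [e, hfix, mul_assoc, ξ.2, ξ.2, map_add, map_add,
    show Φ (QuotientGroup.mk 1 : SL(2, ℤ) ⧸ Γ).out = (Φ.comp Γ.subtype) o from rfl,
    cocycles_inv ξ.2 o]
  simp only [map_inv, map_add]
  simp only [← Module.End.mul_apply, ← map_mul, mul_inv_cancel, mul_inv_cancel_left,
    map_one, Module.End.one_apply]
  abel

end Fermat.Agent.RT.Lift59.Square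

end
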