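import Fermat.Agent.RT.Lift59.Square.Ops
import Fermat.Agent.RT.Lift59.Square.Lift

/-!
# Devissage to a permutation representation

A system occurring with coefficients in a submodule killed by products of `K` combinations
vanishing on the functions on `Y` occurs with coefficients in the functions on `Y`: the layers are
quotients of modules embedded in families of functions on `Y`, and cohomology is right exact
without elliptic elements.
-/

set_option autoImplicit false
set_option linter.unusedSectionVars false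

noncomputable section

namespace Fermat.Agent.RT.Lift59.Square

open CongruenceSubgroup
open scoped MatrixGroups

variable {R Q : ℕ} {S : Finset ℕ} {k : Type*} [Field k] {Y : Type*} [MulAction (GLQ Q) Y]
  {M : Type*} [AddCommGroup M] [Module k M] {ρ : Representation k (GLQ Q) M} {a : ℕ → k}

variable (k Y Q) in
/-- The combinations killing the functions on `Y`. -/
abbrev killY : Set (MonoidAlgebra k (GLQ Q)) :=
  {b | (funRep k (GLQ Q) Y).asAlgebraHom b = 0}

theorem mul_mem_killY {b : MonoidAlgebra k (GLQ Q)} (hb : b ∈ killY Q k Y)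
    (c : MonoidAlgebra k (GLQ Q)) : b * c ∈ killY Q k Y := by
  simp only [killY, Set.mem_ofPred_eq] at *
  rw [map_mul, hb, zero_mul]

variable (Y ρ) in
/-- What products of `j` killing combinations kill. -/
def killed : ℕ → Submodule k M
  | 0 => ⊥
  | j + 1 => ⨅ b ∈ killY Q k Y, (killed j).comap (ρ.asAlgebraHom b)

theorem mem_killed_succ {j : ℕ} {m : M} :
    m ∈ killed Y ρ (j + 1) ↔ ∀ b ∈ killY Q k Y, ρ.asAlgebraHom b m ∈ killed Y ρ j := by
  simp only [killed, Submodule.mem_iInf, Submodule.mem_comap]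

theorem killed_stable : ∀ (j : ℕ) (g : GLQ Q), ∀ m ∈ killed Y ρ j, ρ g m ∈ killed Y ρ j
  | 0, g, m, hm => by
    rw [killed, Submodule.mem_bot] at hm ⊢
    rw [hm, map_zero]
  | j + 1, g, m, hm => by
    rw [mem_killed_succ] at hm ⊢
    intro b hb
    have := hm _ (mul_mem_killY hb (MonoidAlgebra.of k _ g))
    rwa [map_mul, Module.End.mul_apply, Representation.asAlgebraHom_of] at this

theorem mem_killed_of_prod : ∀ (K : ℕ) (m : M),
    (∀ L : List (MonoidAlgebra k (GLQ Q)), L.length = K → (∀ b ∈ L, b ∈ killY Q k Y) →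
      ρ.asAlgebraHom L.prod m = 0) → m ∈ killed Y ρ K
  | 0, m, h => by simpa [killed] using h [] rfl (by simp)
  | K + 1, m, h => mem_killed_succ.2 fun b hb => mem_killed_of_prod K _ fun L hL hmem => by
    have := h (L ++ [b]) (by simp [hL]) (by simpa [or_imp, forall_and] using ⟨hmem, hb⟩)
    rwa [List.prod_append, List.prod_singleton, map_mul, Module.End.mul_apply] at this

variable [NeZero R] [Finite k] [Finite Y]

/-- **A module killed by the combinations.** -/
theorem occurs_funY (hfree : ∀ x : SL(2, ℤ) ⧸ Gamma0 R,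
      ModularGroup.S • x ≠ x ∧ Fermat.Agent.Gamma0.ST • x ≠ x) (h2 : IsUnit (2 : k))
    (hne : NotEis R Q S a) (hY : ∀ y : Y, redQ Q (-1) • y = y) [Finite M]
    (hkill : ∀ b ∈ killY Q k Y, ρ.asAlgebraHom b = 0) (h : Occurs R S ρ a) :
    Occurs R S (funRep k (GLQ Q) Y) a := by
  classical
  cases nonempty_fintype M
  cases nonempty_fintype Y
  set φ := funRep k (GLQ Q) Y with hφ
  let E : (M → MonoidAlgebra k (GLQ Q)) →ₗ[k] (M × Y → Y → k) :=
    { toFun := fun f uy => φ.asAlgebraHom (f uy.1) (Pi.single uy.2 1)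
      map_add' := fun f g => funext fun uy => by simp
      map_smul' := fun c f => funext fun uy => by simp }
  let F : (M → MonoidAlgebra k (GLQ Q)) →ₗ[k] M :=
    { toFun := fun f => ∑ u, ρ.asAlgebraHom (f u) u
      map_add' := fun f g => by simp [Finset.sum_add_distrib]
      map_smul' := fun c f => by simp [Finset.smul_sum] }
  have hker : LinearMap.ker E ≤ LinearMap.ker F := fun f hf => by
    refine LinearMap.mem_ker.2 (Finset.sum_eq_zero fun u _ => ?_)
    rw [hkill (f u) ?_, LinearMap.zero_apply]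
    refine (Pi.basisFun k Y).ext fun y => ?_
    rw [LinearMap.zero_apply, Pi.basisFun_apply]
    exact congrFun (LinearMap.mem_ker.1 hf) (u, y)
  let V := LinearMap.range E
  have hV : ∀ g, ∀ v ∈ V, piRep (M × Y) φ g v ∈ V := by
    rintro g _ ⟨f, rfl⟩
    refine ⟨fun u => MonoidAlgebra.of k _ g * f u, funext fun uy => ?_⟩
    show φ.asAlgebraHom _ _ = φ g (φ.asAlgebraHom _ _)
    rw [map_mul, Module.End.mul_apply, Representation.asAlgebraHom_of]
  let σ := subRep (piRep (M × Y) φ) V hV
  let F' : V →ₗ[k] M :=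
    (LinearMap.ker E).liftQ F hker ∘ₗ (LinearMap.quotKerEquivRange E).symm.toLinearMap
  have hF' : ∀ f, F' ⟨E f, f, rfl⟩ = F f := fun f => by
    show (LinearMap.ker E).liftQ F hker _ = _
    rw [LinearEquiv.coe_coe, show (⟨E f, f, rfl⟩ : V) = LinearMap.quotKerEquivRange E
      (Submodule.Quotient.mk f) from Subtype.ext rfl, LinearEquiv.symm_apply_apply,
      Submodule.liftQ_apply]
  have heq : ∀ g (v : V), F' (σ g v) = ρ g (F' v) := by
    rintro g ⟨_, f, rfl⟩
    have e : σ g ⟨E f, f, rfl⟩ = ⟨E (fun u => MonoidAlgebra.of k _ g * f u), _, rfl⟩ :=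
      Subtype.ext (funext fun uy => by
        show φ g (φ.asAlgebraHom _ _) = φ.asAlgebraHom _ _
        rw [map_mul, Module.End.mul_apply, Representation.asAlgebraHom_of])
    rw [e, hF', hF']
    show ∑ u, _ = ρ g (∑ u, _)
    rw [map_sum]
    exact Finset.sum_congr rfl fun u _ => by
      rw [map_mul, Module.End.mul_apply, Representation.asAlgebraHom_of]
  have hsurj : Function.Surjective F' := fun u => by
    refine ⟨⟨E (Pi.single u 1), _, rfl⟩, ?_⟩
    rw [hF']
    show ∑ w, _ = u
    rw [Finset.sum_eq_single u (fun w _ hw => by rw [Pi.single_eq_of_ne hw]; simp) (by simp)]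
    simp
  have hσ : σ (redQ Q (-1)) = 1 := LinearMap.ext fun v => Subtype.ext (funext fun uy =>
    funext fun y => by
      show φ (redQ Q (-1)) ((v : M × Y → Y → k) uy) y = (v : M × Y → Y → k) uy y
      rw [hφ, funRep_apply, inv_smul_eq_iff.2 (hY y).symm])
  obtain ⟨x, hx0, hx⟩ := h
  have hneg : -1 ∈ Gamma0 R := by simp [Gamma0_mem]
  obtain ⟨z, hz⟩ := hMap_surjective (redQ Q) hneg hfree h2 hσ heq hsurj x
  obtain ⟨z', hz'0, hz'⟩ := occurs_of_map (S := S) (a := a) F' heq (u := z)
    (by rw [hz]; exact hx0) (fun i => by rw [hz]; exact hx i)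
  let inc : V →ₗ[k] (M × Y → Y → k) := V.subtype
  have hinc : ∀ g v, inc (σ g v) = piRep (M × Y) φ g (inc v) := fun _ _ => rfl
  refine occurs_pi (ι := M × Y) (x := hMap (π := redR R Q) inc hinc z')
    (fun i => by rw [← hMap_sqOp inc hinc, hz', map_smul]) fun h0 => hz'0 ?_
  obtain ⟨η, hη, hη0⟩ := exists_rep_of_hMap_eq_zero hinc V.injective_subtype h0
  exact eq_zero_of_vanish hne hz' hη hη0

/-- **Devissage.** -/
theorem occurs_funY_of_killed (hfree : ∀ x : SL(2, ℤ) ⧸ Gamma0 R,
      ModularGroup.S • x ≠ x ∧ Fermat.Agent.Gamma0.ST • x ≠ x) (h2 : IsUnit (2 : k))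
    (hne : NotEis R Q S a) (hY : ∀ y : Y, redQ Q (-1) • y = y) [Finite M] : ∀ K : ℕ,
    Occurs R S (subRep ρ (killed Y ρ K) (killed_stable K)) a →
      Occurs R S (funRep k (GLQ Q) Y) a
  | 0, h => by
    obtain ⟨x, hx0, -⟩ := h
    refine absurd ?_ hx0
    obtain ⟨ξ, rfl⟩ := cls_surjective _ _ x
    rw [show ξ = 0 from Subtype.ext (funext fun γ => Subtype.ext
      ((Submodule.mem_bot k).1 ((ξ : Gamma0 R → killed Y ρ 0) γ).2)), map_zero]
  | j + 1, h => by
    set U := killed Y ρ (j + 1)
    set τ := subRep ρ U (killed_stable (j + 1))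
    obtain ⟨x, hx0, hx⟩ : Occurs R S τ a := h
    let U' : Submodule k U := (killed Y ρ j).comap U.subtype
    have hU' : ∀ g, ∀ u ∈ U', τ g u ∈ U' := fun g u hu => killed_stable j g _ hu
    by_cases hq : hMap (π := redR R Q) U'.mkQ (fun g u => (quotRep_mk U' hU' g u).symm) x = 0
    · obtain ⟨y, hy⟩ := exists_hMap_eq (ρ := subRep τ U' hU') (i := U'.subtype) (fun _ _ => rfl)
        _ U'.injective_subtype U'.mkQ_surjective
        (fun v hv => ⟨⟨v, (Submodule.Quotient.mk_eq_zero _).1 hv⟩, rfl⟩) hq
      obtain ⟨y', hy'0, hy'⟩ := occurs_of_map (S := S) (a := a) U'.subtype (fun _ _ => rfl)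
        (u := y) (by rw [hy]; exact hx0) (fun i => by rw [hy]; exact hx i)
      let f : U' →ₗ[k] killed Y ρ j :=
        LinearMap.codRestrict _ (U.subtype ∘ₗ U'.subtype) fun u => u.2
      have hf : ∀ g u, f (subRep τ U' hU' g u) =
          subRep ρ (killed Y ρ j) (killed_stable j) g (f u) := fun _ _ => rfl
      refine occurs_funY_of_killed hfree h2 hne hY j (occurs_map f hf hy' fun h0 => hy'0 ?_)
      have hfi : Function.Injective f := fun u v e => Subtype.ext (Subtype.ext
        (congrArg Subtype.val e :))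
      obtain ⟨η, hη, hη0⟩ := exists_rep_of_hMap_eq_zero hf hfi h0
      exact eq_zero_of_vanish hne hy' hη hη0
    · have : Finite (U ⧸ U') := Finite.of_surjective _ U'.mkQ_surjective
      refine occurs_funY hfree h2 hne hY (ρ := quotRep τ U' hU') (fun b hb => ?_)
        (occurs_map _ _ hx hq)
      refine LinearMap.ext fun v => ?_
      obtain ⟨u, rfl⟩ := Submodule.Quotient.mk_surjective _ v
      rw [← Submodule.mkQ_apply, ← map_algebraHom (ρ := τ) (σ := quotRep τ U' hU') U'.mkQ
        (fun g u => (quotRep_mk U' hU' g u).symm), LinearMap.zero_apply, Submodule.mkQ_apply,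
        Submodule.Quotient.mk_eq_zero]
      show ((τ.asAlgebraHom b u : U) : M) ∈ killed Y ρ j
      rw [show ((τ.asAlgebraHom b u : U) : M) = ρ.asAlgebraHom b (u : M) from
        map_algebraHom (ρ := τ) U.subtype (fun _ _ => rfl) b u]
      exact mem_killed_succ.1 u.2 b hb

end Fermat.Agent.RT.Lift59.Square

end
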