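import Mathlib.LinearAlgebra.Quotient.Basic
import Mathlib.Data.Finite.Prod
import Mathlib.Tactic

/-!
# Systems of eigenvalues pass to preimages

For commuting operators on a finite module, a system occurring in the image of an equivariant map
occurs in the source.
-/

set_option autoImplicit false

noncomputable section

namespace Fermat.Agent.RT.Lift59.Square

variable {k : Type*} [CommRing k] {ι : Type*} {M N : Type*} [AddCommGroup M] [Module k M]
  [AddCommGroup N] [Module k N]

/-- The system `a` occurs. -/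
def HasSystem (T : ι → Module.End k M) (a : ι → k) : Prop :=
  ∃ v : M, v ≠ 0 ∧ ∀ i, T i v = a i • v

theorem iterate_shift {f : M →ₗ[k] N} {A : Module.End k M} {B : Module.End k N}
    (h : ∀ v, f (A v) = B (f v)) (n : ℕ) (v : M) : f ((A ^ n) v) = (B ^ n) (f v) := by
  induction n with
  | zero => rfl
  | succ n ih => rw [pow_succ', pow_succ', Module.End.mul_apply, Module.End.mul_apply, h, ih]

/-- **Systems in the image occur in the source.** -/
theorem hasSystem_of_map [Finite M] {T : ι → Module.End k M} {T' : ι → Module.End k N}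
    {a : ι → k} (hcomm : ∀ i j, T i * T j = T j * T i) (f : M →ₗ[k] N)
    (hf : ∀ i v, f (T i v) = T' i (f v)) {u : M} (hu : f u ≠ 0)
    (heig : ∀ i, T' i (f u) = a i • f u) : HasSystem T a := by
  classical
  set A : ι → Module.End k M := fun i => T i - a i • 1 with hA
  have hAcomm : ∀ i j, A i * A j = A j * A i := fun i j => by
    simp only [hA, mul_sub, sub_mul, smul_mul_assoc, mul_smul_comm, one_mul, mul_one, hcomm i j,
      smul_sub, smul_smul, mul_comm (a j) (a i)]
    abel
  set B : ι → Module.End k N := fun i => T' i - a i • 1 with hB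
  have hfA : ∀ i v, f (A i v) = B i (f v) := fun i v => by simp [hA, hB, hf]
  have hBu : ∀ i, B i (f u) = 0 := fun i => by simp [hB, heig]
  have : Finite (Submodule k M) := Finite.of_injective _ SetLike.coe_injective
  let Stab : Submodule k M → Prop := fun W => ∀ i, ∀ v ∈ W, A i v ∈ W
  obtain ⟨W, hW⟩ := Set.Finite.exists_minimal
    (s := {W : Submodule k M | Stab W ∧ ∃ v ∈ W, f v = f u}) (Set.toFinite _)
    ⟨⊤, fun _ _ _ => trivial, u, trivial, rfl⟩
  obtain ⟨hWs, v₀, hv₀, hfv₀⟩ := hW.prop
  have hpow : ∀ i n v, v ∈ W → (A i ^ n) v ∈ W := fun i n v hv => by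
    induction n with
    | zero => exact hv
    | succ n ih => rw [pow_succ', Module.End.mul_apply]; exact hWs i _ ih
  -- every shifted operator is nilpotent on the minimal module
  have hnil : ∀ i, ∃ n, ∀ v ∈ W, (A i ^ n) v = 0 := by
    intro i
    let AW : Module.End k W := (A i).restrict (hWs i)
    have hAW : ∀ n (v : W), (((AW ^ n) v : W) : M) = (A i ^ n) v := fun n v => by
      induction n with
      | zero => rfl
      | succ n ih =>
        rw [pow_succ', pow_succ', Module.End.mul_apply, Module.End.mul_apply, ← ih]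
        rfl
    have : Finite W := Subtype.finite
    have : Finite (Module.End k W) := Finite.of_injective (fun g => ⇑g) DFunLike.coe_injective
    obtain ⟨m, n, hmn, he⟩ := Finite.exists_ne_map_eq_of_infinite (fun n : ℕ => AW ^ n)
    wlog hlt : m < n generalizing m n
    · exact this n m hmn.symm he.symm (by omega)
    obtain ⟨d, rfl⟩ := Nat.exists_eq_add_of_lt hlt
    change AW ^ m = AW ^ (m + d + 1) at he
    let W' : Submodule k M := W ⊓ LinearMap.ker (A i ^ m)
    have hW' : Stab W' := fun j v hv => ⟨hWs j v hv.1, by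
      have hc : Commute (A i ^ m) (A j) := Commute.pow_left (hAcomm i j) m
      rw [SetLike.mem_coe, LinearMap.mem_ker, ← Module.End.mul_apply, hc.eq, Module.End.mul_apply,
        show (A i ^ m) v = 0 from hv.2, map_zero]⟩
    set r : M := (A i ^ (d + 1)) v₀ with hr
    have hfr : f r = 0 := by
      rw [hr, iterate_shift (hfA i), hfv₀, pow_succ, Module.End.mul_apply, hBu, map_zero]
    have hmem : v₀ - r ∈ W' := by
      refine ⟨W.sub_mem hv₀ (hpow i _ _ hv₀), ?_⟩
      rw [SetLike.mem_coe, LinearMap.mem_ker, map_sub, hr, ← Module.End.mul_apply, ← pow_add,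
        ← hAW m ⟨v₀, hv₀⟩, ← hAW _ ⟨v₀, hv₀⟩, he, sub_eq_zero]
      rfl
    have hle : W ≤ W' := hW.le_of_le ⟨hW', _, hmem, by rw [map_sub, hfr, sub_zero, hfv₀]⟩
      inf_le_left
    exact ⟨m, fun v hv => (hle hv).2⟩
  have hv₀0 : v₀ ≠ 0 := fun h => hu (by rw [← hfv₀, h, map_zero])
  obtain ⟨U, hU⟩ := Set.Finite.exists_minimal
    (s := {U : Submodule k M | Stab U ∧ U ≤ W ∧ U ≠ ⊥}) (Set.toFinite _)
    ⟨W, hWs, le_rfl, fun h => hv₀0 ((Submodule.mem_bot k).mp (h ▸ hv₀))⟩
  obtain ⟨hUs, hUW, hU0⟩ := hU.prop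
  obtain ⟨v, hv, hv0⟩ := Submodule.exists_mem_ne_zero_of_ne_bot hU0
  refine ⟨v, hv0, fun i => ?_⟩
  have hkill : ∀ w ∈ U, A i w = 0 := by
    obtain ⟨n, hn⟩ := hnil i
    have hker : (U ⊓ LinearMap.ker (A i)) ≠ ⊥ := by
      have hex : ∃ n, (A i ^ n) v = 0 := ⟨n, hn v (hUW hv)⟩
      have hpos : Nat.find hex ≠ 0 := fun h => hv0 (by simpa [h] using Nat.find_spec hex)
      obtain ⟨l, hl⟩ := Nat.exists_eq_succ_of_ne_zero hpos
      have hne : (A i ^ l) v ≠ 0 := Nat.find_min hex (by omega)
      have hmemU : ∀ n, (A i ^ n) v ∈ U := fun n => by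
        induction n with
        | zero => exact hv
        | succ n ih => rw [pow_succ', Module.End.mul_apply]; exact hUs i _ ih
      refine fun h => hne ((Submodule.mem_bot k).mp (h ▸ ⟨hmemU l, ?_⟩))
      have h1 := Nat.find_spec hex
      rw [hl, pow_succ', Module.End.mul_apply] at h1
      exact h1
    have hs : Stab (U ⊓ LinearMap.ker (A i)) := fun j w hw => ⟨hUs j w hw.1, by
      rw [SetLike.mem_coe, LinearMap.mem_ker, ← Module.End.mul_apply, hAcomm,
        Module.End.mul_apply, show A i w = 0 from hw.2, map_zero]⟩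
    exact fun w hw => (hU.le_of_le ⟨hs, inf_le_left.trans hUW, hker⟩ inf_le_left hw).2
  simpa [hA, sub_eq_zero] using hkill v hv

end Fermat.Agent.RT.Lift59.Square

end
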