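import Fermat.Agent.RT.Lift59.Square.Coeff

/-!
# Exactness of the cohomology in the coefficients

An exact sequence of coefficients gives exactness in the middle, and a class killed by an
injective change of coefficients has a representative vanishing on the kernel of `π`.
-/

set_option autoImplicit false

noncomputable section

namespace Fermat.Agent.RT.Lift59.Square

open scoped MatrixGroups

variable {Γ : Subgroup SL(2, ℤ)} {G : Type*} [Group G] {π : Γ →* G} {k : Type*} [CommRing k]
  {U V W : Type*} [AddCommGroup U] [Module k U] [AddCommGroup V] [Module k V] [AddCommGroup W]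
  [Module k W] {ρ : Representation k G U} {σ : Representation k G V} {τ : Representation k G W}

/-- Exactness in the middle. -/
theorem exists_hMap_eq {i : U →ₗ[k] V} {f : V →ₗ[k] W}
    (hi : ∀ g u, i (ρ g u) = σ g (i u)) (hf : ∀ g v, f (σ g v) = τ g (f v))
    (hinj : Function.Injective i) (hsurj : Function.Surjective f)
    (hex : ∀ v, f v = 0 → ∃ u, i u = v) {x : H1c π σ} (hx : hMap f hf x = 0) :
    ∃ y : H1c π ρ, hMap i hi y = x := by
  obtain ⟨ξ, rfl⟩ := cls_surjective π σ x
  rw [hMap_cls, cls_eq_zero] at hx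
  obtain ⟨w, hw⟩ := hx
  obtain ⟨v, rfl⟩ := hsurj w
  have h0 : ∀ γ, f ((ξ : Γ → V) γ - (σ (π γ) v - v)) = 0 := fun γ => by
    rw [map_sub, map_sub, hf, sub_eq_zero]
    exact hw γ
  choose η hη using fun γ => hex _ (h0 γ)
  have hηc : η ∈ cocycles π ρ := fun γ δ => hinj (by
    rw [map_add, hi, hη, hη, hη, ξ.2 γ δ, map_mul, map_mul, Module.End.mul_apply, map_sub,
      map_sub]
    abel)
  refine ⟨cls π ρ ⟨η, hηc⟩, ?_⟩
  rw [hMap_cls, cls_eq_cls]
  exact ⟨-v, fun γ => by
    show i (η γ) = _
    rw [hη, map_neg]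
    abel⟩

/-- The kernel of an injective change of coefficients. -/
theorem exists_rep_of_hMap_eq_zero {i : U →ₗ[k] V} (hi : ∀ g u, i (ρ g u) = σ g (i u))
    (hinj : Function.Injective i) {y : H1c π ρ} (hy : hMap i hi y = 0) :
    ∃ η : cocycles π ρ, cls π ρ η = y ∧ ∀ γ, π γ = 1 → (η : Γ → U) γ = 0 := by
  obtain ⟨η, rfl⟩ := cls_surjective π ρ y
  rw [hMap_cls, cls_eq_zero] at hy
  obtain ⟨v, hv⟩ := hy
  refine ⟨η, rfl, fun γ hγ => hinj ?_⟩
  rw [map_zero]
  refine (hv γ).trans ?_
  rw [hγ, map_one, Module.End.one_apply, sub_self]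

/-! ### Representations on functions -/

/-- Functions on a finite set with a `G`-action. -/
def funRep (k : Type*) [CommRing k] (G : Type*) [Group G] (X : Type*) [MulAction G X] :
    Representation k G (X → k) where
  toFun g := LinearMap.funLeft k k (g⁻¹ • ·)
  map_one' := LinearMap.ext fun f => funext fun x => by simp [LinearMap.funLeft]
  map_mul' g h := LinearMap.ext fun f => funext fun x => by
    simp [LinearMap.funLeft, mul_smul]

theorem funRep_apply {X : Type*} [MulAction G X] (g : G) (f : X → k) (x : X) :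
    funRep k G X g f x = f (g⁻¹ • x) := rfl

/-- Families of vectors. -/
def piRep (ι : Type*) (ρ : Representation k G U) : Representation k G (ι → U) where
  toFun g := (ρ g).compLeft ι
  map_one' := LinearMap.ext fun f => funext fun x => by simp
  map_mul' g h := LinearMap.ext fun f => funext fun x => by simp

theorem piRep_apply {ι : Type*} (g : G) (f : ι → U) (j : ι) : piRep ι ρ g f j = ρ g (f j) := rfl

/-- A class in families with all components zero is zero. -/
theorem eq_zero_of_forall_proj {ι : Type*} {x : H1c π (piRep ι ρ)}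
    (hx : ∀ j, hMap (ρ := piRep ι ρ) (σ := ρ) (LinearMap.proj j : (ι → U) →ₗ[k] U)
      (fun _ _ => rfl) x = 0) : x = 0 := by
  obtain ⟨ξ, rfl⟩ := cls_surjective π (piRep ι ρ) x
  simp only [hMap_cls, cls_eq_zero] at hx
  choose m hm using hx
  exact (cls_eq_zero π _).2 ⟨m, fun γ => funext fun j => hm j γ⟩

end Fermat.Agent.RT.Lift59.Square

end
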