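import Fermat.Agent.RT.Lift59.Square.Coeff
import Fermat.Agent.RT.GammaH.Hecke

/-!
# Hecke operators on the cohomology of `Γ₀(R)` with coefficients

For a complete system of integral matrices of determinant `m` prime to `Q` the reduction modulo
`Q` makes a system with elements of `GL₂(ℤ/Q)`. All complete systems give the same operator, so
operators of different primes commute.
-/

set_option autoImplicit false
set_option linter.unusedSectionVars false

noncomputable section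

namespace Fermat.Agent.RT.Lift59.Square

open CongruenceSubgroup Matrix.SpecialLinearGroup
open Fermat.Agent.Periods Fermat.Agent.RT.GammaH
open scoped MatrixGroups

/-- The general linear group modulo `Q`. -/
abbrev GLQ (Q : ℕ) : Type := GL (Fin 2) (ZMod Q)

/-- Reduction modulo `Q`. -/
def redQ (Q : ℕ) : SL(2, ℤ) →* GLQ Q :=
  toGL.comp (Matrix.SpecialLinearGroup.map (Int.castRingHom (ZMod Q)))

/-- Reduction modulo `Q` on `Γ₀(R)`. -/
abbrev redR (R Q : ℕ) : Gamma0 R →* GLQ Q := (redQ Q).comp (Gamma0 R).subtype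

variable {R Q : ℕ}

/-- A system of representatives of the matrices of determinant `m` with their reductions. -/
structure IsIntSys {ι : Type} (S : CSys (redR R Q) ι) (m : ℕ) : Prop where
  reps : IsReps (gammaH R ⊤) (heckeSet R ⊤ m) S.rep
  mat_eq : ∀ i (A : Matrix (Fin 2) (Fin 2) ℤ), IsIntMat (S.rep i) A →
    ((S.mat i : GLQ Q) : Matrix (Fin 2) (Fin 2) (ZMod Q)) = A.map (Int.castRingHom (ZMod Q))

section OfReps

variable {m : ℕ} {ι : Type} {rep : ι → GLR} (h : IsReps (gammaH R ⊤) (heckeSet R ⊤ m) rep)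

include h in
theorem exists_cocycle (γ : Gamma0 R) (i : ι) :
    ∃ (c : Gamma0 R) (j : ι), rep i * mapGL ℝ (γ : SL(2, ℤ)) = mapGL ℝ (c : SL(2, ℤ)) * rep j := by
  have hγ : (γ : SL(2, ℤ)) ∈ gammaH R (⊤ : Subgroup (ZMod R)ˣ) := by rw [gammaH_top]; exact γ.2
  obtain ⟨j, hj⟩ := h.surj _ (heckeSet_mul_gammaH (h.mem i) ⟨γ, hγ⟩)
  obtain ⟨c, hc, hce⟩ := hj
  refine ⟨⟨c, by rw [← gammaH_top]; exact hc⟩, j, ?_⟩
  rw [hce, inv_mul_cancel_right]

theorem exists_mat (hm : m.Coprime Q) {g : GLR} (hg : g ∈ heckeSet R (⊤ : Subgroup (ZMod R)ˣ) m) :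
    ∃ u : GLQ Q, ∀ A, IsIntMat g A →
      (u : Matrix (Fin 2) (Fin 2) (ZMod Q)) = A.map (Int.castRingHom (ZMod Q)) := by
  obtain ⟨A, hA, hd, -⟩ := hg
  refine ⟨Matrix.GeneralLinearGroup.mk'' (A.map (Int.castRingHom (ZMod Q))) ?_, fun B hB => ?_⟩
  · rw [← RingHom.mapMatrix_apply, ← RingHom.map_det, hd, map_natCast]
    exact (ZMod.isUnit_iff_coprime m Q).2 hm
  · obtain rfl := hA.unique hB
    rfl

/-- The system of a complete set of representatives. -/
def ofReps (hm0 : 0 < m) (hm : m.Coprime Q) : CSys (redR R Q) ι where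
  rep := rep
  det_pos i := by
    obtain ⟨A, hA, hd, -⟩ := h.mem i
    have e : ((rep i : GLR) : Matrix (Fin 2) (Fin 2) ℝ).det = (m : ℝ) := by
      rw [show ((rep i : GLR) : Matrix (Fin 2) (Fin 2) ℝ) = A.map (Int.castRingHom ℝ) from hA,
        ← RingHom.mapMatrix_apply, ← RingHom.map_det, hd, map_natCast]
    rw [Matrix.GeneralLinearGroup.val_det_apply, e]
    exact_mod_cast hm0
  perm γ i := (exists_cocycle h γ i).choose_spec.choose
  cocycle γ i := (exists_cocycle h γ i).choose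
  spec γ i := (exists_cocycle h γ i).choose_spec.choose_spec
  unique i j γ e := h.inj i j (by
    rw [e, mul_inv_cancel_right]
    exact mapGL_mem_img.2 (by rw [gammaH_top]; exact γ.2))
  mat i := (exists_mat (Q := Q) hm (h.mem i)).choose
  mat_spec γ i := by
    set c : Gamma0 R := (exists_cocycle h γ i).choose
    set j : ι := (exists_cocycle h γ i).choose_spec.choose
    obtain ⟨A, hA, -⟩ := h.mem i
    obtain ⟨B, hB, -⟩ := h.mem j
    have e : A * ((γ : SL(2, ℤ)) : Matrix (Fin 2) (Fin 2) ℤ) =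
        ((c : SL(2, ℤ)) : Matrix (Fin 2) (Fin 2) ℤ) * B := by
      have e1 := hA.mul (isIntMat_mapGL (γ : SL(2, ℤ)))
      rw [(exists_cocycle h γ i).choose_spec.choose_spec] at e1
      exact e1.unique ((isIntMat_mapGL _).mul hB)
    refine Units.ext ?_
    rw [Units.val_mul, Units.val_mul, (exists_mat (Q := Q) hm (h.mem i)).choose_spec A hA,
      (exists_mat (Q := Q) hm (h.mem j)).choose_spec B hB]
    show A.map _ * ((γ : SL(2, ℤ)) : Matrix (Fin 2) (Fin 2) ℤ).map _ =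
      ((c : SL(2, ℤ)) : Matrix (Fin 2) (Fin 2) ℤ).map _ * B.map _
    rw [← Matrix.map_mul, ← Matrix.map_mul, e]

theorem isIntSys_ofReps (hm0 : 0 < m) (hm : m.Coprime Q) : IsIntSys (ofReps h hm0 hm) m :=
  ⟨h, fun i A hA => (exists_mat (Q := Q) hm (h.mem i)).choose_spec A hA⟩

end OfReps

variable {k : Type*} [CommRing k] {M : Type*} [AddCommGroup M] [Module k M]
  (ρ : Representation k (GLQ Q) M) {m : ℕ} {ι κ : Type} [Fintype ι] [Fintype κ]

/-- **All complete systems give the same operator.** -/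
theorem IsIntSys.hOp_eq {S : CSys (redR R Q) ι} {S' : CSys (redR R Q) κ} (hS : IsIntSys S m)
    (hS' : IsIntSys S' m) : S'.hOp ρ = S.hOp ρ := by
  choose f hf using fun i => hS'.reps.surj _ (hS.reps.mem i)
  choose g hg using fun j => hS.reps.surj _ (hS'.reps.mem j)
  have hfg : ∀ j, f (g j) = j := fun j => (hS'.reps.inj _ _ (by
    have := inv_mem (mul_mem (hg j) (hf (g j)))
    simpa [mul_assoc] using this))
  have hgf : ∀ i, g (f i) = i := fun i => (hS.reps.inj _ _ (by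
    have := inv_mem (mul_mem (hf i) (hg (f i)))
    simpa [mul_assoc] using this))
  choose d hd hde using fun i => inv_mem (hf i)
  refine CSys.hOp_congr ρ S S' ⟨f, g, hgf, hfg⟩ (fun i => ⟨d i, by rw [← gammaH_top]; exact hd i⟩)
    (fun i => ?_) fun i => ?_
  · show S'.rep (f i) = mapGL ℝ (d i) * S.rep i
    rw [hde, mul_inv_rev, inv_inv, inv_mul_cancel_right]
  · obtain ⟨A, hA, -⟩ := hS.reps.mem i
    have e : S'.rep (f i) = mapGL ℝ (d i) * S.rep i := by
      rw [hde, mul_inv_rev, inv_inv, inv_mul_cancel_right]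
    have hB : IsIntMat (S'.rep (f i)) ((d i : Matrix (Fin 2) (Fin 2) ℤ) * A) :=
      e ▸ (isIntMat_mapGL (d i)).mul hA
    refine Units.ext ?_
    show ((S'.mat (f i) : GLQ Q) : Matrix (Fin 2) (Fin 2) (ZMod Q)) = _
    rw [hS'.mat_eq _ _ hB, Matrix.map_mul, Units.val_mul, hS.mat_eq i A hA]
    rfl

/-! ### The operators at primes not dividing `R Q` -/

variable (R Q) in
/-- The system of `T_l`. -/
def sysT (l : ℕ) [Fact l.Prime] (hl : l.Coprime Q) : CSys (redR R Q) (HIdx R l) :=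
  ofReps isReps_hRep (Fact.out : l.Prime).pos hl

theorem isIntSys_sysT (l : ℕ) [Fact l.Prime] (hl : l.Coprime Q) :
    IsIntSys (sysT R Q l hl) l := isIntSys_ofReps _ _ _

variable (R) in
/-- `T_l`. -/
def tOp (l : ℕ) [Fact l.Prime] (hl : l.Coprime Q) : Module.End k (H1c (redR R Q) ρ) :=
  (sysT R Q l hl).hOp ρ

theorem tOp_eq {l : ℕ} [Fact l.Prime] (hl : l.Coprime Q) {S : CSys (redR R Q) ι}
    (hS : IsIntSys S l) : tOp R ρ l hl = S.hOp ρ :=
  hS.hOp_eq ρ (isIntSys_sysT l hl)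

theorem tOp_comm {a b : ℕ} [Fact a.Prime] [Fact b.Prime] (ha : a.Coprime Q) (hb : b.Coprime Q) :
    tOp R ρ a ha * tOp R ρ b hb = tOp R ρ b hb * tOp R ρ a ha := by
  rcases eq_or_ne a b with rfl | hab
  · rfl
  have key : ∀ {u v : ℕ} [Fact u.Prime] [Fact v.Prime] (hu : u.Coprime Q) (hv : v.Coprime Q),
      v ≠ u → ∃ (hc : _) , IsIntSys ((sysT R Q u hu).comp (sysT R Q v hv) hc) (v * u) := by
    intro u v _ _ hu hv huv
    have hr := isReps_hRep_mul (M := R) (K := (⊤ : Subgroup (ZMod R)ˣ)) (n := u) (m := v) huv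
    refine ⟨fun x y γ e => ?_, ⟨⟨fun x => ?_, fun x y e => ?_, fun g hg => ?_⟩, fun x A hA => ?_⟩⟩
    · have h1 := hr.inj (x.2, x.1) (y.2, y.1) (by
        show hRep R v x.2 * hRep R u x.1 * (hRep R v y.2 * hRep R u y.1)⁻¹ ∈ _
        replace e : hRep R v x.2 * hRep R u x.1 =
          mapGL ℝ (γ : SL(2, ℤ)) * (hRep R v y.2 * hRep R u y.1) := e
        rw [e, mul_inv_cancel_right]
        exact mapGL_mem_img.2 (by rw [gammaH_top]; exact γ.2))
      exact Prod.ext (congrArg Prod.snd h1) (congrArg Prod.fst h1)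
    · exact hr.mem (x.2, x.1)
    · have h1 := hr.inj (x.2, x.1) (y.2, y.1) e
      exact Prod.ext (congrArg Prod.snd h1) (congrArg Prod.fst h1)
    · obtain ⟨x, hx⟩ := hr.surj g hg
      exact ⟨(x.2, x.1), hx⟩
    · obtain ⟨B, hB, -⟩ := (isIntSys_sysT (R := R) v hv).reps.mem x.2
      obtain ⟨C, hC, -⟩ := (isIntSys_sysT (R := R) u hu).reps.mem x.1
      show (((sysT R Q v hv).mat x.2 * (sysT R Q u hu).mat x.1 : GLQ Q) :
        Matrix (Fin 2) (Fin 2) (ZMod Q)) = _
      rw [hA.unique (hB.mul hC), Units.val_mul, Matrix.map_mul,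
        (isIntSys_sysT v hv).mat_eq _ _ hB, (isIntSys_sysT u hu).mat_eq _ _ hC]
  obtain ⟨h1, k1⟩ := key ha hb hab.symm
  obtain ⟨h2, k2⟩ := key hb ha hab
  rw [mul_comm a b] at k2
  refine LinearMap.ext fun x => ?_
  show (sysT R Q a ha).hOp ρ ((sysT R Q b hb).hOp ρ x) = _
  rw [← CSys.hOp_comp ρ _ _ h1, k2.hOp_eq ρ k1, CSys.hOp_comp]
  rfl

variable (R Q) in
/-- The representatives `(1 c j; 0 l)` and `(l 0; 0 1)`. -/
def shiftRep (c l : ℕ) [Fact l.Prime] : Option (ZMod l) → GLR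
  | none => ModularForm.heckeDiagMatrix l
  | some j => ModularForm.heckeMatrix l (c * j.val)

theorem isReps_shiftRep {c l : ℕ} [Fact l.Prime] (hlR : ¬ l ∣ R) (hlc : ¬ l ∣ c) :
    IsReps (gammaH R (⊤ : Subgroup (ZMod R)ˣ)) (heckeSet R ⊤ l) (shiftRep c l) := by
  have hl : l.Prime := Fact.out
  have hr := isReps_hRep (M := R) (K := (⊤ : Subgroup (ZMod R)ˣ)) (n := l)
  have hcu : (c : ZMod l) ≠ 0 := fun h => hlc ((ZMod.natCast_eq_zero_iff _ _).1 h)
  let f : Option (ZMod l) → HIdx R l := fun o =>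
    ⟨o.map fun j => ⟨((c : ZMod l) * j).val, ZMod.val_lt _⟩, fun _ => hlR⟩
  have hf : Function.Surjective f := by
    rintro ⟨_ | i, hi⟩
    · exact ⟨none, rfl⟩
    · exact ⟨some ((c : ZMod l)⁻¹ * ((i : ℕ) : ZMod l)), Subtype.ext (congrArg some (Fin.ext (by
        show ((c : ZMod l) * ((c : ZMod l)⁻¹ * ((i : ℕ) : ZMod l))).val = (i : ℕ)
        rw [← mul_assoc, mul_inv_cancel₀ hcu, one_mul, ZMod.val_cast_of_lt i.isLt])))⟩
  have hf' : Function.Injective f := by
    rintro (_ | a) (_ | b) e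
    · rfl
    · exact nomatch (congrArg Subtype.val e)
    · exact nomatch (congrArg Subtype.val e)
    · have e' := congrArg Subtype.val e
      simp only [f, Option.map_some, Option.some.injEq, Fin.mk.injEq] at e'
      rw [mul_left_cancel₀ hcu (ZMod.val_injective _ e')]
  have hrel : ∀ o, shiftRep c l o * (hRep R l (f o))⁻¹ ∈
      img (gammaH R (⊤ : Subgroup (ZMod R)ˣ)) := by
    rintro (_ | j)
    · show ModularForm.heckeDiagMatrix l * (mapGL ℝ _ * ModularForm.heckeDiagMatrix l)⁻¹ ∈ _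
      rw [mul_inv_rev, mul_inv_cancel_left, ← map_inv, mapGL_mem_img, gammaH_top]
      exact inv_mem (gamma0Elt_mem _)
    · show ModularForm.heckeMatrix l (c * j.val) *
        (ModularForm.heckeMatrix l ((c : ZMod l) * j).val)⁻¹ ∈ _
      obtain ⟨t, ht⟩ : ∃ t : ℕ, c * j.val = ((c : ZMod l) * j).val + t * l := by
        refine ⟨c * j.val / l, ?_⟩
        rw [ZMod.val_mul, ZMod.val_natCast, Nat.mod_mul_mod, mul_comm (c * j.val / l) l,
          Nat.mod_add_div]
      refine (mul_inv_mem_img_iff (isIntMat_heckeMatrix _) (isIntMat_heckeMatrix _)).2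
        ⟨ModularGroup.T ^ (t : ℤ), ?_, ?_⟩
      · rw [gammaH_top, Gamma0_mem, ModularGroup.coe_T_zpow]
        simp
      · rw [ModularGroup.coe_T_zpow]
        ext a b
        fin_cases a <;> fin_cases b <;> simp [Matrix.mul_apply, Fin.sum_univ_two, ht]
  refine ⟨fun o => ?_, fun a b e => hf' (hr.inj _ _ ?_), fun g hg => ?_⟩
  · obtain ⟨γ, hγ, hγe⟩ := hrel o
    rw [show shiftRep c l o = mapGL ℝ γ * hRep R l (f o) by rw [hγe, inv_mul_cancel_right]]
    exact gammaH_mul_heckeSet (hr.mem _) hγ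
  · have := mul_mem (mul_mem (inv_mem (hrel a)) e) (hrel b)
    simpa [mul_assoc] using this
  · obtain ⟨i, hi⟩ := hr.surj g hg
    obtain ⟨o, rfl⟩ := hf i
    refine ⟨o, ?_⟩
    have := mul_mem hi (inv_mem (hrel o))
    simpa [mul_assoc] using this

variable (R Q) in
/-- The shifted system of `T_l`. -/
def sysShift (c l : ℕ) [Fact l.Prime] (hl : l.Coprime Q) (hlR : ¬ l ∣ R) (hlc : ¬ l ∣ c) :
    CSys (redR R Q) (Option (ZMod l)) :=
  ofReps (isReps_shiftRep hlR hlc) (Fact.out : l.Prime).pos hl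

theorem isIntSys_sysShift (c l : ℕ) [Fact l.Prime] (hl : l.Coprime Q) (hlR : ¬ l ∣ R)
    (hlc : ¬ l ∣ c) : IsIntSys (sysShift R Q c l hl hlR hlc) l := isIntSys_ofReps _ _ _

theorem coe_sysShift_mat (c l : ℕ) [Fact l.Prime] (hl : l.Coprime Q) (hlR : ¬ l ∣ R)
    (hlc : ¬ l ∣ c) (o : Option (ZMod l)) :
    (((sysShift R Q c l hl hlR hlc).mat o : GLQ Q) : Matrix (Fin 2) (Fin 2) (ZMod Q)) =
      o.elim !![(l : ZMod Q), 0; 0, 1] fun j => !![1, (c : ZMod Q) * (j.val : ZMod Q); 0, (l : ZMod Q)] := by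
  rcases o with _ | j
  · rw [(isIntSys_sysShift c l hl hlR hlc).mat_eq none _ isIntMat_heckeDiagMatrix]
    ext a b
    fin_cases a <;> fin_cases b <;> simp
  · rw [(isIntSys_sysShift c l hl hlR hlc).mat_eq (some j) _ (isIntMat_heckeMatrix _)]
    ext a b
    fin_cases a <;> fin_cases b <;> simp

/-- A class with a representative vanishing on the kernel of the reduction is multiplied by
`l + 1` for `l ≡ 1` modulo `Q`. -/
theorem tOp_cls_of_vanish {l : ℕ} [Fact l.Prime] (hl : l.Coprime Q) (hlR : ¬ l ∣ R)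
    (h1 : (l : ZMod Q) = 1) (ξ : cocycles (redR R Q) ρ)
    (hξ : ∀ γ, redR R Q γ = 1 → (ξ : Gamma0 R → M) γ = 0) :
    tOp R ρ l hl (cls _ ρ ξ) = (((l + 1 : ℕ) : k)) • cls _ ρ ξ := by
  have hlQ : ¬ l ∣ Q := (Fact.out : l.Prime).coprime_iff_not_dvd.1 hl
  rw [tOp_eq ρ hl (isIntSys_sysShift Q l hl hlR hlQ)]
  set S := sysShift R Q Q l hl hlR hlQ
  have hmat : ∀ o, S.mat o = 1 := fun o => Units.ext (by
    rw [coe_sysShift_mat, Units.val_one, Matrix.one_fin_two]
    rcases o with _ | j <;> simp [h1])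
  have hc : ∀ γ o, (ξ : Gamma0 R → M) (S.cocycle γ o) = (ξ : Gamma0 R → M) γ := by
    intro γ o
    have e : redR R Q (S.cocycle γ o) = redR R Q γ := by
      have := S.mat_spec γ o
      rwa [hmat, hmat, one_mul, mul_one, eq_comm] at this
    set u : Gamma0 R := γ⁻¹ * S.cocycle γ o with hu
    have hu1 : redR R Q u = 1 := by rw [hu, map_mul, map_inv, e, inv_mul_cancel]
    rw [show S.cocycle γ o = γ * u by rw [hu, mul_inv_cancel_left], ξ.2, hξ u hu1, map_zero,
      add_zero]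
  rw [CSys.hOp_eq_card ρ S ξ hmat hc, Fintype.card_option, ZMod.card]

end Fermat.Agent.RT.Lift59.Square

end
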