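import Fermat.Agent.RT.Lift59.Square.Cosets
import Fermat.Agent.GaloisReps.KummerHecke
import Fermat.Agent.NewformLocal.Toric.Homs

/-!
# Homomorphisms of level `q² R` as classes of level `R` with coefficients

Conjugation by `diag(1, q)` carries the stabiliser of the torus coset in `Γ₀(R)` onto `Γ₀(q² R)`;
a homomorphism there is a class with values in the functions on the cosets of the torus, with the
same system.
-/

set_option autoImplicit false
set_option linter.unusedSectionVars false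

noncomputable section

open scoped Classical MatrixGroups

namespace Fermat.Agent.RT.Lift59.Square

open CongruenceSubgroup Fermat.Agent.RT.InertiaTW Fermat.Agent.RT.GammaH
open Fermat.Agent.Periods (homT systemT)

/-- The torsion class as a homomorphism has the eigenvalues of the class. -/
theorem homT_torsionEquiv {N m : ℕ} [NeZero N] [NeZero m] {l : ℕ} (hl : l.Prime) (hlN : ¬ l ∣ N)
    (a : ℤ) (x : AlgebraicCurve.Pic0.torsion (AlgebraicClosure ℚ)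
      (ModularCurve.modularFunctionFieldBar N) m)
    (hx : ModularCurve.heckeOperatorBar N ⟨l, hl⟩ (x : ModularCurve.JZero N) =
      a • (x : ModularCurve.JZero N)) :
    homT hl hlN ℤ (JacTorsion.torsionEquiv N m x).1 = a • (JacTorsion.torsionEquiv N m x).1 := by
  have h := GaloisReps.atkinHom_torsionEquiv_hecke l hl x (a • x) hx.symm
  rw [GaloisReps.homOp, dif_neg hlN, map_zsmul, AddSubgroupClass.coe_zsmul, map_zsmul] at h
  replace h : a • GaloisReps.atkinHom N (ZMod m) (JacTorsion.torsionEquiv N m x).1 =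
      homT hl hlN ℤ (GaloisReps.atkinHom N (ZMod m) (JacTorsion.torsionEquiv N m x).1) := h
  rw [NewformLocal.Toric.homT_atkinHom hl hlN ℤ] at h
  have h' := congrArg (GaloisReps.atkinHom N (ZMod m)) h
  rw [map_zsmul, GaloisReps.atkinHom_atkinHom, GaloisReps.atkinHom_atkinHom] at h'
  exact h'.symm

variable {q : ℕ}

/-- `δ` is the conjugate of `γ` by `diag(1, q)`. -/
def ConjQ (q : ℕ) (γ δ : SL(2, ℤ)) : Prop :=
  !![1, 0; 0, (q : ℤ)] * (γ : Matrix (Fin 2) (Fin 2) ℤ) =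
    (δ : Matrix (Fin 2) (Fin 2) ℤ) * !![1, 0; 0, (q : ℤ)]

theorem conjQ_iff {γ δ : SL(2, ℤ)} : ConjQ q γ δ ↔
    γ 0 0 = δ 0 0 ∧ γ 0 1 = δ 0 1 * q ∧ q * γ 1 0 = δ 1 0 ∧ q * γ 1 1 = δ 1 1 * q := by
  rw [ConjQ]
  constructor
  · intro h
    refine ⟨?_, ?_, ?_, ?_⟩
    · simpa [Matrix.mul_apply, Fin.sum_univ_two] using congrFun (congrFun h 0) 0
    · simpa [Matrix.mul_apply, Fin.sum_univ_two] using congrFun (congrFun h 0) 1
    · simpa [Matrix.mul_apply, Fin.sum_univ_two] using congrFun (congrFun h 1) 0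
    · simpa [Matrix.mul_apply, Fin.sum_univ_two] using congrFun (congrFun h 1) 1
  · rintro ⟨h1, h2, h3, h4⟩
    ext i j
    fin_cases i <;> fin_cases j <;> simp [Matrix.mul_apply, Fin.sum_univ_two, h1, h2, h3, h4]

theorem ConjQ.unique [NeZero q] {γ δ δ' : SL(2, ℤ)} (h : ConjQ q γ δ) (h' : ConjQ q γ δ') :
    δ = δ' := by
  have hq : (q : ℤ) ≠ 0 := Nat.cast_ne_zero.2 (NeZero.ne q)
  obtain ⟨a, b, c, d⟩ := conjQ_iff.1 h
  obtain ⟨a', b', c', d'⟩ := conjQ_iff.1 h'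
  apply Matrix.SpecialLinearGroup.ext
  intro i j
  fin_cases i <;> fin_cases j
  · exact a.symm.trans a'
  · exact mul_right_cancel₀ hq (b.symm.trans b')
  · exact c.symm.trans c'
  · exact mul_right_cancel₀ hq (d.symm.trans d')

theorem ConjQ.mul {γ δ γ' δ' : SL(2, ℤ)} (h : ConjQ q γ δ) (h' : ConjQ q γ' δ') :
    ConjQ q (γ * γ') (δ * δ') := by
  unfold ConjQ at *
  rw [Matrix.SpecialLinearGroup.coe_mul, Matrix.SpecialLinearGroup.coe_mul, ← mul_assoc, h,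
    mul_assoc, h', mul_assoc]

variable {p n R N : ℕ} [Fact p.Prime] [Fact q.Prime] [NeZero q] [NeZero n] [NeZero (q * n)]
  [NeZero R] [Fact (q.Coprime n)]

omit [Fact p.Prime] [Fact (q.Coprime n)] [NeZero R] in
theorem stab_iff (γ : Gamma0 R) :
    redR R (q * n) γ • (CosetQ.mk 1 : CosetQ q n (torusQ q)) = CosetQ.mk 1 ↔
      (q : ℤ) ∣ (γ : SL(2, ℤ)) 0 1 ∧ (q : ℤ) ∣ (γ : SL(2, ℤ)) 1 0 := by
  rw [smul_mk_one, mem_torusQ]
  simp only [MonoidHom.comp_apply, redGL_redQ]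
  rw [← ZMod.intCast_zmod_eq_zero_iff_dvd, ← ZMod.intCast_zmod_eq_zero_iff_dvd, and_comm]
  rfl

omit [Fact p.Prime] [NeZero n] [NeZero (q * n)] [NeZero R] [Fact (q.Coprime n)] in
theorem exists_conj (hqR : ¬ q ∣ R) (hN : N = q * R * q) (γ : Gamma0 R)
    (h1 : (q : ℤ) ∣ (γ : SL(2, ℤ)) 0 1) (h2 : (q : ℤ) ∣ (γ : SL(2, ℤ)) 1 0) :
    ∃ δ : Gamma0 N, ConjQ q γ δ := by
  obtain ⟨b, hb⟩ := h1
  have hdet := Gamma0.det_eq (γ : SL(2, ℤ))
  let M : SL(2, ℤ) := ⟨!![(γ : SL(2, ℤ)) 0 0, b; (q : ℤ) * (γ : SL(2, ℤ)) 1 0, (γ : SL(2, ℤ)) 1 1],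
    by rw [Matrix.det_fin_two_of]; rw [hb] at hdet; linear_combination hdet⟩
  refine ⟨⟨M, ?_⟩, conjQ_iff.2 ⟨rfl, by simp [M, hb, mul_comm], rfl, by simp [M, mul_comm]⟩⟩
  rw [Gamma0_mem, ZMod.intCast_zmod_eq_zero_iff_dvd, hN]
  show ((q * R * q : ℕ) : ℤ) ∣ (q : ℤ) * (γ : SL(2, ℤ)) 1 0
  have hR : (R : ℤ) ∣ (γ : SL(2, ℤ)) 1 0 :=
    (ZMod.intCast_zmod_eq_zero_iff_dvd _ _).1 (Gamma0_mem.1 γ.2)
  have hcop : IsCoprime (R : ℤ) (q : ℤ) := Int.isCoprime_iff_nat_coprime.2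
    (by simpa using ((Fact.out : q.Prime).coprime_iff_not_dvd.2 hqR).symm)
  push_cast
  rw [mul_assoc]
  exact mul_dvd_mul_left _ (hcop.mul_dvd hR h2)

omit [Fact p.Prime] [NeZero n] [NeZero (q * n)] [NeZero R] [Fact (q.Coprime n)] in
theorem exists_preimage (hN : N = q * R * q) (δ : Gamma0 N) :
    ∃ γ : Gamma0 R, ConjQ q γ δ ∧ (q : ℤ) ∣ (γ : SL(2, ℤ)) 0 1 ∧ (q : ℤ) ∣ (γ : SL(2, ℤ)) 1 0 := by
  obtain ⟨c, hc⟩ := (ZMod.intCast_zmod_eq_zero_iff_dvd _ _).1 (Gamma0_mem.1 δ.2)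
  have hdet := Gamma0.det_eq (δ : SL(2, ℤ))
  have hN' : (N : ℤ) = q * R * q := by rw [hN]; push_cast; ring
  rw [hc, hN'] at hdet
  let M : SL(2, ℤ) := ⟨!![(δ : SL(2, ℤ)) 0 0, (δ : SL(2, ℤ)) 0 1 * q; (R : ℤ) * q * c,
    (δ : SL(2, ℤ)) 1 1], by rw [Matrix.det_fin_two_of]; linear_combination hdet⟩
  refine ⟨⟨M, ?_⟩, conjQ_iff.2 ⟨rfl, rfl, ?_, by simp [M, mul_comm]⟩, ⟨_, mul_comm _ _⟩,
    ⟨(R : ℤ) * c, by show (R : ℤ) * q * c = _; ring⟩⟩
  · rw [Gamma0_mem, ZMod.intCast_zmod_eq_zero_iff_dvd]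
    exact ⟨q * c, by show (R : ℤ) * q * c = _; ring⟩
  · show (q : ℤ) * ((R : ℤ) * q * c) = _
    rw [hc, hN']
    ring

/-- **The class of a homomorphism of level `q² R`.** -/
theorem exists_induced [NeZero N] (hR : R ∣ n) (hqR : ¬ q ∣ R) (hN : N = q * R * q)
    (φ : Additive (Gamma0 N) →+ ZMod p) :
    ∃ ξ : cocycles (redR R (q * n)) (funRep (ZMod p) (GLQ (q * n)) (CosetQ q n (torusQ q))),
      (φ ≠ 0 → cls (redR R (q * n)) (funRep (ZMod p) (GLQ (q * n)) (CosetQ q n (torusQ q))) ξ ≠ 0) ∧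
      (∀ (l : ℕ) [Fact l.Prime] (hlN : ¬ l ∣ N) (hlQ : l.Coprime (q * n)) (a : ℤ),
        homT (Fact.out : l.Prime) hlN ℤ φ = a • φ →
          tOp R (funRep (ZMod p) (GLQ (q * n)) (CosetQ q n (torusQ q))) l hlQ
              (cls (redR R (q * n)) (funRep (ZMod p) (GLQ (q * n)) (CosetQ q n (torusQ q))) ξ) =
            (a : ZMod p) •
              cls (redR R (q * n)) (funRep (ZMod p) (GLQ (q * n)) (CosetQ q n (torusQ q))) ξ) ∧
      ∀ (γ : Gamma0 R) (δ : SL(2, ℤ)) (x : CosetQ q n (torusQ q)) (ε : Gamma0 N),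
        redR R (q * n) γ = 1 → (hδ : δ ∈ Gamma0 R) →
        redR R (q * n) ⟨δ, hδ⟩ • (CosetQ.mk 1 : CosetQ q n (torusQ q)) = x →
        ConjQ q (δ⁻¹ * γ * δ) ε → (ξ : Gamma0 R → CosetQ q n (torusQ q) → ZMod p) γ x =
          φ (Additive.ofMul ε) := by
  set X := CosetQ q n (torusQ q)
  set x₀ : X := CosetQ.mk 1 with hx₀
  have htrans : ∀ x : X, ∃ γ : Gamma0 R, redR R (q * n) γ • x₀ = x := fun x => by
    obtain ⟨g, rfl⟩ := CosetQ.mk_surjective x
    obtain ⟨s, γ, -, -, h⟩ := exists_smul_mk_one (H := torusQ q) hR diag_mem_torusQ g _ rfl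
    exact ⟨γ, h⟩
  let ψ : Gamma0 R → ZMod p := fun γ =>
    if h : ∃ δ : Gamma0 N, ConjQ q γ δ then φ (Additive.ofMul h.choose) else 0
  have hψe : ∀ (γ : Gamma0 R) (δ : Gamma0 N), ConjQ q γ δ → ψ γ = φ (Additive.ofMul δ) := by
    intro γ δ h
    have hex : ∃ δ : Gamma0 N, ConjQ q γ δ := ⟨δ, h⟩
    simp only [ψ, dif_pos hex]
    exact congrArg (fun t => φ (Additive.ofMul t)) (Subtype.ext (hex.choose_spec.unique h))
  have hst : ∀ γ : Gamma0 R, redR R (q * n) γ • x₀ = x₀ → ∃ δ : Gamma0 N, ConjQ q γ δ := fun γ h => by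
    obtain ⟨h1, h2⟩ := (stab_iff γ).1 h
    exact exists_conj hqR hN γ h1 h2
  obtain ⟨ξ, hξ0, hξ1⟩ := exists_cocycle_of_eval (k := ZMod p) htrans ψ fun γ δ hγ hδ => by
    obtain ⟨γ', hγ'⟩ := hst γ hγ
    obtain ⟨δ', hδ'⟩ := hst δ hδ
    rw [hψe γ γ' hγ', hψe δ δ' hδ', hψe (γ * δ) (γ' * δ') (hγ'.mul hδ'), ofMul_mul, map_add]
  have hcob : ∀ (m : X → ZMod p) (γ : Gamma0 R), redR R (q * n) γ • x₀ = x₀ →
      (cobound (redR R (q * n)) (funRep (ZMod p) (GLQ (q * n)) X) m : Gamma0 R → X → ZMod p) γ x₀ = 0 :=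
    fun m γ hγ => by
      rw [cobound_apply, Pi.sub_apply, funRep_apply, inv_smul_eq_iff.2 hγ.symm, sub_self]
  refine ⟨ξ, fun hφ h0 => hφ ?_, fun l _ hlN hlQ a hφa => ?_, fun γ δ x ε hγ hδ hx hε => ?_⟩
  · obtain ⟨m, hm⟩ := (cls_eq_zero _ _).1 h0
    refine AddMonoidHom.ext fun d => ?_
    obtain ⟨δ, rfl⟩ := Additive.ofMul.surjective d
    obtain ⟨γ, hγδ, h1, h2⟩ := exists_preimage hN δ
    have hγ : redR R (q * n) γ • x₀ = x₀ := (stab_iff γ).2 ⟨h1, h2⟩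
    rw [AddMonoidHom.zero_apply, ← hψe γ δ hγδ, ← hξ0 γ hγ, hm γ]
    exact hcob m γ hγ
  · have hl : l.Prime := Fact.out
    have hlR : ¬ l ∣ R := fun h => hlN (hN ▸ (h.mul_left q).mul_right q)
    have hlq : ¬ l ∣ q := fun h => hlN (hN ▸ (h.mul_right R).mul_right q)
    rw [tOp_eq _ hlQ (isIntSys_sysShift q l hlQ hlR hlq), CSys.hOp_cls, ← map_smul, ← sub_eq_zero,
      ← map_sub]
    set S := sysShift R (q * n) q l hlQ hlR hlq with hS
    have hmat : ∀ o, S.mat o • x₀ = x₀ := fun o => by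
      rw [hx₀, smul_mk_one, mem_torusQ]
      show (ZMod.castHom (dvd_mul_right q n) (ZMod q))
          (((S.mat o : GLQ (q * n)) : Matrix (Fin 2) (Fin 2) (ZMod (q * n))) 1 0) = 0 ∧
        (ZMod.castHom (dvd_mul_right q n) (ZMod q))
          (((S.mat o : GLQ (q * n)) : Matrix (Fin 2) (Fin 2) (ZMod (q * n))) 0 1) = 0
      rw [hS, coe_sysShift_mat]
      rcases o with _ | j <;> simp
    refine eq_zero_of_eval htrans fun γ hγ => ?_
    rw [AddSubgroupClass.coe_sub, SetLike.val_smul, Pi.sub_apply, Pi.sub_apply, Pi.smul_apply,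
      Pi.smul_apply, smul_eq_mul, eval_cocOp S hmat, hξ0 γ hγ, sub_eq_zero]
    obtain ⟨δ, hγδ⟩ := hst γ hγ
    have hlev : ∀ o, ψ (S.cocycle γ o) =
        φ (Additive.ofMul ((systemT hl hlN).cocycle δ o)) := by
      intro o
      obtain ⟨c, hc⟩ := hst _ (stab_cocycle S hmat hγ o)
      rw [hψe _ _ hc]
      refine congrArg (fun t => φ (Additive.ofMul t)) ((systemT hl hlN).eq_of_spec
        (j := S.perm γ o) ?_).2.symm
      -- the integral matrices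
      let B : Option (ZMod l) → Matrix (Fin 2) (Fin 2) ℤ := fun o =>
        o.elim !![(l : ℤ), 0; 0, 1] fun j => !![1, ((q * j.val : ℕ) : ℤ); 0, (l : ℤ)]
      let A : Option (ZMod l) → Matrix (Fin 2) (Fin 2) ℤ := fun o =>
        o.elim !![(l : ℤ), 0; 0, 1] fun j => !![1, (j.val : ℤ); 0, (l : ℤ)]
      have hB : ∀ o, IsIntMat (S.rep o) (B o) := by
        rintro (_ | j)
        · exact isIntMat_heckeDiagMatrix
        · exact isIntMat_heckeMatrix _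
      have hA : ∀ o, IsIntMat ((systemT hl hlN).rep o) (A o) := by
        rintro (_ | j)
        · exact isIntMat_heckeDiagMatrix
        · exact isIntMat_heckeMatrix _
      have hAB : ∀ o, !![1, 0; 0, (q : ℤ)] * B o = A o * !![1, 0; 0, (q : ℤ)] := by
        rintro (_ | j) <;> ext a b <;> fin_cases a <;> fin_cases b <;>
          simp [A, B, Matrix.mul_apply, Fin.sum_univ_two, mul_comm]
      have e : B o * ((γ : SL(2, ℤ)) : Matrix (Fin 2) (Fin 2) ℤ) =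
          ((S.cocycle γ o : SL(2, ℤ)) : Matrix (Fin 2) (Fin 2) ℤ) * B (S.perm γ o) := by
        have e1 := (hB o).mul (isIntMat_mapGL (γ : SL(2, ℤ)))
        rw [S.spec γ o] at e1
        exact e1.unique ((isIntMat_mapGL _).mul (hB _))
      have e2 : A o * ((δ : SL(2, ℤ)) : Matrix (Fin 2) (Fin 2) ℤ) * !![1, 0; 0, (q : ℤ)] =
          ((c : SL(2, ℤ)) : Matrix (Fin 2) (Fin 2) ℤ) * A (S.perm γ o) * !![1, 0; 0, (q : ℤ)] := by
        rw [mul_assoc, ← (hγδ : _ = _), ← mul_assoc, ← hAB, mul_assoc, e, ← mul_assoc,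
          (hc : _ = _), mul_assoc, hAB, mul_assoc]
      have hD : (!![1, 0; 0, (q : ℤ)]).det ≠ 0 := by
        simp [Matrix.det_fin_two_of, NeZero.ne q]
      have e3 : A o * ((δ : SL(2, ℤ)) : Matrix (Fin 2) (Fin 2) ℤ) =
          ((c : SL(2, ℤ)) : Matrix (Fin 2) (Fin 2) ℤ) * A (S.perm γ o) := by
        have h3 := congrArg (fun M => M * (!![1, 0; 0, (q : ℤ)]).adjugate) e2
        simp only [mul_assoc, Matrix.mul_adjugate, Matrix.mul_smul, Matrix.mul_one] at h3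
        exact smul_right_injective _ hD h3
      refine ((hA o).mul (isIntMat_mapGL _)).ext ?_
      rw [e3]
      exact (isIntMat_mapGL _).mul (hA _)
    have hS' : ∀ o, (ξ : Gamma0 R → X → ZMod p) (S.cocycle γ o) x₀ = ψ (S.cocycle γ o) := fun o =>
      hξ0 _ (stab_cocycle S hmat hγ o)
    simp only [hS', hlev, hψe γ δ hγδ]
    have := DFunLike.congr_fun hφa (Additive.ofMul δ)
    rw [AddMonoidHom.smul_apply, zsmul_eq_mul] at this
    exact this
  · rw [hξ1 γ ⟨δ, hδ⟩ x hγ hx]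
    exact hψe _ _ hε

end Fermat.Agent.RT.Lift59.Square

end
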