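import Fermat.Agent.RT.Lift59.Square.LineKernel
import Mathlib.Algebra.MonoidAlgebra.Basic
import Mathlib.Data.Matrix.PEquiv
import Mathlib.RingTheory.Noetherian.Basic
import Mathlib.RingTheory.Finiteness.Basic

/-!
# The group ring acting on the nonzero linear forms

`lineRep` is the representation of `ℤ[GL₂(𝔽_q)]` on the functions on the nonzero linear forms.
Products of sufficiently many elements vanishing modulo `p` there are congruent modulo `p` to
elements vanishing exactly.
-/

set_option autoImplicit false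

noncomputable section

namespace Fermat.Agent.RT.Lift59.Square

open Matrix

variable (q : ℕ) [NeZero q]

/-- The nonzero linear forms. -/
abbrev LForm : Type := {l : Fin 2 → ZMod q // l ≠ 0}

variable {q}

/-- The permutation of the nonzero forms by an element of the group. -/
def formPerm (g : GL (Fin 2) (ZMod q)) (l : LForm q) : LForm q :=
  ⟨(l : Fin 2 → ZMod q) ᵥ* (g : Matrix (Fin 2) (Fin 2) (ZMod q)), fun h => l.2 (by
    have := congrArg (fun x => x ᵥ* ((g⁻¹ : GL (Fin 2) (ZMod q)) : Matrix (Fin 2) (Fin 2) (ZMod q))) h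
    simpa [vecMul_vecMul, ← Units.val_mul] using this)⟩

omit [NeZero q] in
theorem formPerm_mul (g h : GL (Fin 2) (ZMod q)) (l : LForm q) :
    formPerm (g * h) l = formPerm h (formPerm g l) :=
  Subtype.ext (by simp [formPerm, vecMul_vecMul])

omit [NeZero q] in
theorem formPerm_one (l : LForm q) : formPerm 1 l = l :=
  Subtype.ext (by simp [formPerm])

variable (q) in
/-- The permutation matrices. -/
def formMat : GL (Fin 2) (ZMod q) →* Matrix (LForm q) (LForm q) ℤ where
  toFun g := Matrix.of fun l w => if formPerm g l = w then 1 else 0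
  map_one' := by
    ext l w
    simp [formPerm_one, Matrix.one_apply]
  map_mul' g h := by
    ext l w
    rw [Matrix.mul_apply, Matrix.of_apply, Finset.sum_eq_single (formPerm g l)]
    · simp [formPerm_mul]
    · intro b _ hb
      simp [Ne.symm hb]
    · simp

variable (q) in
/-- The representation of the group ring. -/
def lineRep : MonoidAlgebra ℤ (GL (Fin 2) (ZMod q)) →ₐ[ℤ] Matrix (LForm q) (LForm q) ℤ :=
  MonoidAlgebra.lift ℤ (Matrix (LForm q) (LForm q) ℤ) (GL (Fin 2) (ZMod q)) (formMat q)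

theorem lineRep_apply (a : MonoidAlgebra ℤ (GL (Fin 2) (ZMod q))) (l w : LForm q) :
    lineRep q a l w = ∑ g ∈ Finset.univ.filter (fun g => formPerm g l = w), a.coeff g := by
  rw [lineRep, MonoidAlgebra.lift_apply,
    Finsupp.sum_fintype (h := fun g => zero_smul ℤ (formMat q g))]
  simp only [Matrix.sum_apply, Finset.sum_filter]
  refine Finset.sum_congr rfl fun g _ => ?_
  simp [formMat]

/-- Vanishing modulo `m` on the nonzero forms. -/
def LineKills (m : ℕ) (a : MonoidAlgebra ℤ (GL (Fin 2) (ZMod q))) : Prop :=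
  ∀ l w : LForm q, (m : ℤ) ∣ lineRep q a l w

theorem LineKills.killsLineFun [Fact q.Prime] {m : ℕ} {a : MonoidAlgebra ℤ (GL (Fin 2) (ZMod q))}
    (h : LineKills m a) : KillsLineFun m (fun g => a.coeff g) := by
  refine killsLineFun_of_fibres fun l hl w => ?_
  by_cases hw : w = 0
  · subst hw
    rw [Finset.sum_eq_zero fun g hg => ?_]
    · exact dvd_zero _
    · exact absurd (Finset.mem_filter.1 hg).2 (formPerm g ⟨l, hl⟩).2
  · have := h ⟨l, hl⟩ ⟨w, hw⟩
    rw [lineRep_apply] at this
    convert this using 2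
    ext g
    simp [formPerm, Subtype.ext_iff]

variable (q) in
/-- Products of many elements vanishing modulo `p` lift to elements vanishing exactly. -/
theorem exists_exact_lift (p : ℕ) [hp : Fact p.Prime] :
    ∃ N : ℕ, ∀ L : List (MonoidAlgebra ℤ (GL (Fin 2) (ZMod q))), L.length = N →
      (∀ x ∈ L, LineKills p x) →
        ∃ b, LineKills 0 b ∧ ∀ g, (p : ℤ) ∣ L.prod.coeff g - b.coeff g := by
  classical
  set R := LinearMap.range (lineRep q).toLinearMap with hR
  let Sat : Submodule ℤ (Matrix (LForm q) (LForm q) ℤ) :=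
    { carrier := {E | ∃ d : ℤ, d ≠ 0 ∧ d • E ∈ R}
      zero_mem' := ⟨1, one_ne_zero, by rw [smul_zero]; exact zero_mem _⟩
      add_mem' := by
        rintro E F ⟨d, hd, hE⟩ ⟨d', hd', hF⟩
        refine ⟨d * d', mul_ne_zero hd hd', ?_⟩
        rw [smul_add]
        exact add_mem (by rw [mul_comm, mul_smul]; exact R.smul_mem _ hE)
          (by rw [mul_smul]; exact R.smul_mem _ hF)
      smul_mem' := by
        rintro c E ⟨d, hd, hE⟩
        exact ⟨d, hd, by rw [smul_comm]; exact R.smul_mem _ hE⟩ }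
  have hSmul : ∀ E F, E ∈ Sat → F ∈ Sat → E * F ∈ Sat := by
    rintro E F ⟨d, hd, x, hx⟩ ⟨d', hd', y, hy⟩
    refine ⟨d * d', mul_ne_zero hd hd', x * y, ?_⟩
    rw [AlgHom.toLinearMap_apply] at hx hy
    rw [AlgHom.toLinearMap_apply, map_mul, hx, hy, smul_mul_assoc, mul_smul_comm, smul_smul]
  obtain ⟨T, hT⟩ : Sat.FG := IsNoetherian.noetherian Sat
  have hTmem : ∀ E ∈ T, ∃ d : ℤ, d ≠ 0 ∧ d • E ∈ R := fun E hE =>
    (show E ∈ Sat from hT ▸ Submodule.subset_span hE)
  choose! d hd hdR using hTmem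
  set D := ∏ E ∈ T, d E with hDdef
  have hD0 : D ≠ 0 := Finset.prod_ne_zero_iff.2 hd
  have hD : ∀ E ∈ Sat, D • E ∈ R := by
    intro E hE
    rw [← hT] at hE
    induction hE using Submodule.span_induction with
    | mem F hF =>
      obtain ⟨c, hc⟩ := Finset.dvd_prod_of_mem d hF
      rw [hDdef, hc, mul_comm, mul_smul]
      exact R.smul_mem _ (hdR F hF)
    | zero => rw [smul_zero]; exact zero_mem _
    | add F F' _ _ h h' => rw [smul_add]; exact add_mem h h'
    | smul c F _ h => rw [smul_comm]; exact R.smul_mem _ h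
  obtain ⟨e, D', hD', heq⟩ : ∃ (e : ℕ) (D' : ℤ), ¬ (p : ℤ) ∣ D' ∧ D = (p : ℤ) ^ e * D' := by
    obtain ⟨e, c, hc, hce⟩ := Nat.exists_eq_pow_mul_and_not_dvd (Int.natAbs_ne_zero.2 hD0) p
      hp.out.ne_one
    refine ⟨e, D.sign * (c : ℤ), fun h => hc ?_, ?_⟩
    · have h' : (p : ℤ).natAbs ∣ (D.sign * (c : ℤ)).natAbs := Int.natAbs_dvd_natAbs.2 h
      rwa [Int.natAbs_natCast, Int.natAbs_mul, Int.natAbs_sign_of_ne_zero hD0, one_mul,
        Int.natAbs_natCast] at h'
    · conv_lhs => rw [← Int.sign_mul_natAbs D, hce]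
      push_cast
      ring
  refine ⟨e + 1, fun L hL hmem => ?_⟩
  have hprod : ∀ L : List (MonoidAlgebra ℤ (GL (Fin 2) (ZMod q))), (∀ x ∈ L, LineKills p x) →
      ∃ E ∈ Sat, lineRep q L.prod = ((p : ℤ) ^ L.length) • E := by
    intro L
    induction L with
    | nil =>
      intro _
      exact ⟨1, ⟨1, one_ne_zero, 1, by simp⟩, by simp⟩
    | cons x L ih =>
      intro h
      obtain ⟨E, hE, hLE⟩ := ih fun y hy => h y (List.mem_cons_of_mem _ hy)
      choose F hF using h x List.mem_cons_self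
      have hx : lineRep q x = (p : ℤ) • Matrix.of F := by
        ext l w
        simp [hF l w]
      have hFS : Matrix.of F ∈ Sat := ⟨p, by exact_mod_cast hp.out.ne_zero, x, hx⟩
      refine ⟨Matrix.of F * E, hSmul _ _ hFS hE, ?_⟩
      rw [List.prod_cons, map_mul, hx, hLE, List.length_cons, smul_mul_assoc, mul_smul_comm,
        smul_smul, ← pow_succ']
  obtain ⟨E, hE, hLE⟩ := hprod L hmem
  obtain ⟨r, hr⟩ := hD E hE
  rw [AlgHom.toLinearMap_apply] at hr
  rw [hL] at hLE
  set π : MonoidAlgebra ℤ (GL (Fin 2) (ZMod q)) := L.prod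
  have hexact : lineRep q (D' • π - (p : ℤ) • r) = 0 := by
    rw [map_sub, map_zsmul, map_zsmul, hLE, hr, smul_smul, smul_smul, heq, sub_eq_zero]
    ring_nf
  have hcop : IsCoprime D' (p : ℤ) := (Int.prime_iff_natAbs_prime.2 (by simpa using hp.out)
    |>.coprime_iff_not_dvd.2 hD').symm
  obtain ⟨k, t, hkt⟩ := hcop
  refine ⟨k • (D' • π - (p : ℤ) • r), fun l w => ?_, fun g => ⟨t * π.coeff g + k * r.coeff g, ?_⟩⟩
  · rw [map_zsmul, hexact, smul_zero]
    exact dvd_zero _
  · simp only [MonoidAlgebra.coeff_smul, MonoidAlgebra.coeff_sub, Finsupp.coe_sub, Finsupp.coe_smul, Pi.sub_apply, Pi.smul_apply, smul_eq_mul]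
    linear_combination -(π.coeff g) * hkt

end Fermat.Agent.RT.Lift59.Square

end
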