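import Fermat.Agent.Carayol.Rigid
import Fermat.Agent.Carayol.Glue
import Fermat.Agent.RT.Lift59.Square.LineRep

/-!
# The integral study at `q` for combinations killing the functions attached to lines

Let `f` have divisor divisible by `m`. A combination of translates vanishing modulo `m` on the
functions attached to lines makes `f` an `m`-th power times a unit at every prime above `q`; one
vanishing exactly makes the roots coherent, so that rigidity gives an `m`-th root.
-/

set_option autoImplicit false

noncomputable section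

namespace Fermat.Agent.RT.Lift59.Square

open WeierstrassCurve IsLocalRing Matrix WithZero
open Fermat.Agent.Carayol
open Fermat.Agent.Carayol.TateLevel

variable {K Ω : Type} [Field K] [Field Ω] [Algebra K Ω] [DecidableEq Ω]
variable {L : TateLevel K Ω} {U : UnramBase K L.frame.q}

variable (L) in
/-- The product of translates with exponents `a`. -/
def combProd (a : GL (Fin 2) (ZMod L.frame.q) → ℤ) (f : Ωˣ) : Ωˣ :=
  ∏ g, L.transl f g ^ a g

/-- Divisibility at the places is preserved by translation. -/
theorem places_transl {m : ℕ} {f : Ωˣ} (h : Places K m f)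
    (g : GL (Fin 2) (ZMod L.frame.q)) : Places K m (L.transl f g) := fun v hv =>
  h (v.comap (L.act g).toRingEquiv.toRingHom) fun c hc => by
    show v (L.act g (algebraMap K Ω c)) = 1
    rw [AlgEquiv.commutes]
    exact hv c hc

/-- Divisibility at the places is preserved by combinations. -/
theorem places_combProd {m : ℕ} {f : Ωˣ} (h : Places K m f)
    (a : GL (Fin 2) (ZMod L.frame.q) → ℤ) : Places K m (combProd L a f) := fun v hv => by
  let o : Additive Ωˣ →+ ℤ := AddMonoidHom.mk' (fun z => log (v ((Additive.toMul z : Ωˣ) : Ω)))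
    fun y z => by
      rw [toMul_add, Units.val_mul, map_mul, log_mul (v.ne_zero_iff.2 (Units.ne_zero _))
        (v.ne_zero_iff.2 (Units.ne_zero _))]
  show (m : ℤ) ∣ o (Additive.ofMul (combProd L a f))
  rw [combProd, ofMul_prod, map_sum]
  refine Finset.dvd_sum fun g _ => ?_
  rw [ofMul_zpow, map_zsmul, smul_eq_mul]
  exact dvd_mul_of_dvd_right (places_transl h g v hv) _

/-- Combinations with exponents congruent modulo `m` differ by an `m`-th power. -/
theorem exists_combProd_congr {m : ℕ} {a b : GL (Fin 2) (ZMod L.frame.q) → ℤ}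
    (h : ∀ g, (m : ℤ) ∣ a g - b g) (f : Ωˣ) :
    ∃ r : Ωˣ, combProd L a f = combProd L b f * r ^ m := by
  choose c hc using h
  refine ⟨combProd L c f, ?_⟩
  rw [combProd, combProd, combProd, ← Finset.prod_pow, ← Finset.prod_mul_distrib]
  refine Finset.prod_congr rfl fun g _ => ?_
  rw [← zpow_natCast, ← _root_.zpow_mul, ← _root_.zpow_add, mul_comm (c g), ← hc g]
  ring_nf

/-- A combination vanishing modulo `m` on line functions makes `f` locally an `m`-th power times a
unit. -/
theorem exists_local_root {m : ℕ} (hm : m ≠ 0) {f : Ωˣ} (hpl : Places K m f)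
    {a : GL (Fin 2) (ZMod L.frame.q) → ℤ} (ha : KillsLineFun m a)
    (P : Ideal (L.modelRing U)) [hP : P.IsPrime] (hq : (L.frame.q : L.modelRing U) ∈ P) :
    ∃ h : Ωˣ, combProd L a f / h ^ m ∈ unitsAt P := by
  classical
  obtain ⟨x, hx, hPx⟩ := Ideal.exists_le_maximal P hP.ne_top
  have := hx.isPrime
  have hqx := hPx hq
  have := ufd_localRing x hqx
  set f' := combProd L a f with hf'
  have key : ∀ (π : localRing x) (hπ : Prime π), (m : ℤ) ∣ primeOrd hπ (f' : Ω) := by
    intro π hπ
    by_cases hπq : π ∣ (L.frame.q : localRing x)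
    swap
    · exact horizontal_of_places (places_combProd hpl a) x hx hqx π hπ hπq
    set o := primeOrdHom (F := Ω) hπ
    obtain ⟨v, hv, hS⟩ := exists_line_invariant (x := x) hπ hπq f
    have hz := ha (ZMod m) (fun z => by rw [nsmul_eq_mul, ZMod.natCast_self, zero_mul])
      (fun g => ((o (Additive.ofMul (L.transl f g)) : ℤ) : ZMod m)) v hv
      (fun s g hs => by rw [hS s g hs])
    rw [← ZMod.intCast_zmod_eq_zero_iff_dvd, ← hz, ← primeOrdHom_apply, hf', combProd, ofMul_prod,
      map_sum, Int.cast_sum]
    refine Finset.sum_congr rfl fun g _ => ?_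
    rw [ofMul_zpow, map_zsmul, smul_eq_mul, zsmul_eq_mul, Int.cast_mul]
  exact exists_div_pow_mem_unitsAt hm hPx key

/-- An exactly vanishing combination of units compatible with inertia is congruent to one. -/
theorem combProd_units {b : GL (Fin 2) (ZMod L.frame.q) → ℤ}
    (hb : KillsLineFun 0 b) (P : Ideal (L.modelRing U)) [P.IsPrime]
    (hq : (L.frame.q : L.modelRing U) ∈ P) (ν : GL (Fin 2) (ZMod L.frame.q) → Ωˣ)
    (hν : ∀ g, ν g ∈ unitsAt P)
    (hS : ∀ s g, IsInertia P s → ν (s * g) = L.transl (ν g) s) :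
    InMax (localRing P) (((∏ g, ν g ^ b g : Ωˣ) : Ω) - 1) := by
  obtain ⟨v, hv, hline⟩ := exists_line_inertia P hq
  set νu : GL (Fin 2) (ZMod L.frame.q) → unitsAt P := fun g => ⟨ν g, hν g⟩
  have hid := hb _ (fun _ => zero_smul ℕ _)
    (fun g => Additive.ofMul (resHom P (νu g))) v hv fun s g hs => by
      refine congrArg Additive.ofMul ((resHom_eq_iff P _ _).2 ?_)
      show InMax (localRing P) (((ν (s * g) : Ωˣ) : Ω) - ((ν g : Ωˣ) : Ω))
      rw [hS s g (hline s hs), coe_transl]
      exact ((hline s hs).inMax_sub P (hν g).1).2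
  have h1 : resHom P (∏ g, νu g ^ b g) = resHom P 1 := by
    rw [map_prod, map_one]
    simp only [map_zpow]
    exact congrArg Additive.toMul hid
  have h2 := (resHom_eq_iff P _ _).1 h1
  have e : ((∏ g, νu g ^ b g : unitsAt P) : Ωˣ) = ∏ g, ν g ^ b g := by
    rw [SubmonoidClass.coe_finsetProd]
    exact Finset.prod_congr rfl fun g _ => SubgroupClass.coe_zpow _ _
  rwa [e, OneMemClass.coe_one, Units.val_one] at h2

variable {S : SerBase U} (C : CuspEmb L S)

include C in
/-- **The integral study.** -/
theorem exists_pow_eq_combProd {m : ℕ} (hm : IsUnit (m : U.W)) {f : Ωˣ} (hpl : Places K m f)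
    {a b : GL (Fin 2) (ZMod L.frame.q) → ℤ} (ha : KillsLineFun m a) (hb : KillsLineFun 0 b) :
    ∃ r : Ωˣ, r ^ m = combProd L b (combProd L a f) := by
  classical
  have hm0 : m ≠ 0 := fun e => by simp [e] at hm
  set f₁ := combProd L a f with hf₁
  have hroot := fun (P : Ideal (L.modelRing U)) (h : P.IsPrime)
    (hq : (L.frame.q : L.modelRing U) ∈ P) =>
      haveI := h; exists_local_root (U := U) hm0 hpl ha P hq
  let h : Ideal (L.modelRing U) → Ωˣ := fun P =>
    if hP : P.IsPrime ∧ (L.frame.q : L.modelRing U) ∈ P then (hroot P hP.1 hP.2).choose else 1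
  have hh : ∀ (P : Ideal (L.modelRing U)) [P.IsPrime], (L.frame.q : L.modelRing U) ∈ P →
      f₁ / h P ^ m ∈ unitsAt P := by
    intro P _ hq
    simp only [h, dif_pos (⟨‹_›, hq⟩ : P.IsPrime ∧ (L.frame.q : L.modelRing U) ∈ P)]
    exact (hroot P ‹_› hq).choose_spec
  let η : Ideal (L.modelRing U) → GL (Fin 2) (ZMod L.frame.q) → Ωˣ := fun P g =>
    L.transl (h (pull P g)) g
  have hηS : ∀ (P : Ideal (L.modelRing U)) s g, IsInertia P s →
      η P (s * g) = L.transl (η P g) s := fun P s g hs => by
    show L.transl (h (pull P (s * g))) (s * g) = L.transl (L.transl (h (pull P g)) g) s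
    rw [transl_mul_apply, pull_mul, hs.pull_eq]
  let ν : Ideal (L.modelRing U) → GL (Fin 2) (ZMod L.frame.q) → Ωˣ := fun P g =>
    L.transl f₁ g / η P g ^ m
  have hν : ∀ (P : Ideal (L.modelRing U)) [P.IsPrime], (L.frame.q : L.modelRing U) ∈ P →
      ∀ g, ν P g ∈ unitsAt P := by
    intro P _ hq g
    have := transl_mem_unitsAt P (hh (pull P g) (natCast_mem_pull hq g))
    simpa [ν, η, transl, map_div, map_pow] using this
  let H : Ideal (L.modelRing U) → Ωˣ := fun P => ∏ g, η P g ^ b g
  set u := combProd L b f₁ with hu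
  have hcong : ∀ (P : Ideal (L.modelRing U)) [P.IsPrime], (L.frame.q : L.modelRing U) ∈ P →
      InMax (localRing P) (((u / H P ^ m : Ωˣ) : Ω) - 1) := by
    intro P _ hq
    convert combProd_units hb P hq (ν P) (hν P hq) (fun s g hs => by
      simp only [ν, hηS P s g hs, transl_mul_apply]
      simp only [transl, map_div, map_pow]) using 4
    simp only [hu, combProd, H, ν, ← Finset.prod_pow, ← Finset.prod_div_distrib, div_zpow]
    refine Finset.prod_congr rfl fun g _ => ?_
    rw [← zpow_natCast (η P g ^ b g) m, ← zpow_natCast (η P g) m, ← _root_.zpow_mul,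
      ← _root_.zpow_mul, mul_comm]
  have hcoh : ∀ (P P' : Ideal (L.modelRing U)) [P.IsPrime] [P'.IsPrime],
      (L.frame.q : L.modelRing U) ∈ P → P ≤ P' →
        InMax (localRing P) (((H P' / H P : Ωˣ) : Ω) - 1) := by
    intro P P' _ _ hq hle
    let c : GL (Fin 2) (ZMod L.frame.q) → Ωˣ := fun g => η P' g / η P g
    have hcu : ∀ g, c g ∈ unitsAt P := fun g => by
      refine mem_unitsAt_of_pow hm0 ?_
      rw [show c g ^ m = ν P g / ν P' g by
        simp only [c, ν, div_pow, div_div_div_cancel_left]]
      exact Subgroup.div_mem _ (hν P hq g) (unitsAt_le_of_le hle (hν P' (hle hq) g))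
    convert combProd_units hb P hq c hcu (fun s g hs => by
      simp only [c, hηS P s g hs, hηS P' s g fun a => hle (hs a)]
      simp only [transl, map_div]) using 4
    simp only [H, c, ← Finset.prod_div_distrib, div_zpow]
  obtain ⟨r, hr⟩ := C.exists_pow_eq hm (places_combProd (places_combProd hpl a) b) H hcong hcoh
  have hr0 : r ≠ 0 := fun h0 => by
    rw [h0, zero_pow hm0] at hr
    exact u.ne_zero hr.symm
  exact ⟨Units.mk0 r hr0, Units.ext (by simp [hr, hu, hf₁])⟩

end Fermat.Agent.RT.Lift59.Square

end
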