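import Fermat.Agent.Carayol.CombId

/-!
# Combinations killing the functions attached to a line

`KillsLineFun m a` says that the combination with coefficients `a` kills, in every group of
exponent dividing `m`, the functions on `GL₂(𝔽_q)` invariant on the left under the elements
congruent to one modulo a line. Such functions only depend on the image of a linear form, so
it is enough that the coefficients have sums divisible by `m` over the fibres.
-/

set_option autoImplicit false

noncomputable section

namespace Fermat.Agent.RT.Lift59.Square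

open Matrix

variable {q : ℕ} [NeZero q]

/-- The combination kills every function of exponent `m` invariant on the left under the elements
congruent to one modulo a line. -/
def KillsLineFun (m : ℕ) (a : GL (Fin 2) (ZMod q) → ℤ) : Prop :=
  ∀ (M : Type) [AddCommGroup M], (∀ x : M, m • x = 0) →
    ∀ Φ : GL (Fin 2) (ZMod q) → M, ∀ v : Fin 2 → ZMod q, v ≠ 0 →
      (∀ s g : GL (Fin 2) (ZMod q),
        (∀ w : Fin 2 → ZMod q, ∃ k : ZMod q,
          (s : Matrix (Fin 2) (Fin 2) (ZMod q)) *ᵥ w - w = k • v) → Φ (s * g) = Φ g) →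
      ∑ g, a g • Φ g = 0

omit [NeZero q] in
/-- The vectors killed by the linear form of a line lie on the line. -/
theorem exists_smul_of_perp [Fact q.Prime] {v w : Fin 2 → ZMod q} (hv : v ≠ 0)
    (h : ![-(v 1), v 0] ⬝ᵥ w = 0) : ∃ k : ZMod q, w = k • v := by
  simp [dotProduct, Fin.sum_univ_two] at h
  by_cases h0 : v 0 = 0
  · have h1 : v 1 ≠ 0 := fun h1 => hv (by funext i; fin_cases i <;> simp [h0, h1])
    rw [h0] at h; simp [h1] at h
    refine ⟨w 1 / v 1, ?_⟩
    funext i; fin_cases i <;> simp [h0, h1, h]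
  · refine ⟨w 0 / v 0, ?_⟩
    funext i; fin_cases i
    · simp [h0]
    · simp; field_simp; linear_combination h

/-- Coefficients with sums divisible by `m` over the fibres of `g ↦ l g` for every nonzero linear
form `l` kill the functions attached to lines. -/
theorem killsLineFun_of_fibres [Fact q.Prime] {m : ℕ} {a : GL (Fin 2) (ZMod q) → ℤ}
    (h : ∀ l : Fin 2 → ZMod q, l ≠ 0 → ∀ w : Fin 2 → ZMod q,
      (m : ℤ) ∣ ∑ g ∈ Finset.univ.filter
        (fun g : GL (Fin 2) (ZMod q) => l ᵥ* (g : Matrix (Fin 2) (Fin 2) (ZMod q)) = w), a g) :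
    KillsLineFun m a := by
  intro M _ hM Φ v hv hS
  classical
  set l : Fin 2 → ZMod q := ![-(v 1), v 0] with hl
  have hl0 : l ≠ 0 := fun e => hv (by
    funext i
    have e0 := congrFun e 0
    have e1 := congrFun e 1
    simp [hl] at e0 e1
    fin_cases i <;> simp [e0, e1])
  have hconst : ∀ g g' : GL (Fin 2) (ZMod q),
      l ᵥ* (g : Matrix (Fin 2) (Fin 2) (ZMod q)) = l ᵥ* (g' : Matrix (Fin 2) (Fin 2) (ZMod q)) →
      Φ g = Φ g' := by
    intro g g' e
    have hs : ∀ w, ∃ k : ZMod q,
        ((g * g'⁻¹ : GL (Fin 2) (ZMod q)) : Matrix (Fin 2) (Fin 2) (ZMod q)) *ᵥ w - w = k • v := by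
      intro w
      refine exists_smul_of_perp hv ?_
      have e' : l ᵥ* ((g * g'⁻¹ : GL (Fin 2) (ZMod q)) : Matrix (Fin 2) (Fin 2) (ZMod q)) = l := by
        rw [Units.val_mul, ← vecMul_vecMul, e, vecMul_vecMul, ← Units.val_mul, mul_inv_cancel,
          Units.val_one, vecMul_one]
      rw [← hl, dotProduct_sub, dotProduct_mulVec, e', sub_self]
    have := hS (g * g'⁻¹) g' hs
    rwa [inv_mul_cancel_right] at this
  rw [← Finset.sum_fiberwise Finset.univ
    (fun g : GL (Fin 2) (ZMod q) => l ᵥ* (g : Matrix (Fin 2) (Fin 2) (ZMod q)))]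
  refine Finset.sum_eq_zero fun w _ => ?_
  set T := Finset.univ.filter
    (fun g : GL (Fin 2) (ZMod q) => l ᵥ* (g : Matrix (Fin 2) (Fin 2) (ZMod q)) = w) with hT
  rcases T.eq_empty_or_nonempty with he | ⟨g₀, hg₀⟩
  · rw [he, Finset.sum_empty]
  · obtain ⟨c, hc⟩ := h l hl0 w
    rw [Finset.sum_congr rfl (g := fun g => a g • Φ g₀) fun g hg => by
      rw [hconst g g₀ (by
        rw [(Finset.mem_filter.1 hg).2, (Finset.mem_filter.1 hg₀).2])],
      ← Finset.sum_smul, hc, mul_comm, mul_smul, natCast_zsmul, hM, smul_zero]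

end Fermat.Agent.RT.Lift59.Square

end
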