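import Fermat.Agent.RT.Lift59.Square.Induce
import Fermat.Agent.RT.Lift59.Square.Descend
import Fermat.Agent.RT.InertiaTW.TwistGeom

/-!
# From a class fixed by inertia to a homomorphism of level `q R`

The induced class of the monodromy takes, on the kernel of the reduction, values killed by long
products of kernel combinations; devissage gives the system on the functions on lines.
-/

set_option autoImplicit false
set_option linter.unusedSectionVars false
set_option linter.style.haveILetI false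

noncomputable section

open scoped Classical MatrixGroups

namespace Fermat.Agent.RT.Lift59.Square

open CongruenceSubgroup AlgebraicCurve ModularCurve Fermat.Agent.RT.InertiaTW
open Fermat.Agent.Arith (QBar)
open Fermat.Agent.Carayol (diagElt)

variable {p q n R N : ℕ} [Fact p.Prime] [Fact q.Prime] [NeZero q] [NeZero n] [NeZero (q * n)]
  [NeZero R] [NeZero N] [Fact (q.Coprime n)]

/-- A list of kernel combinations at level `q n` has the action of one of combinations on lines. -/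
theorem exists_list_lineKills (hp2 : p ≠ 2) :
    ∀ L : List (MonoidAlgebra (ZMod p) (GLQ (q * n))),
      (∀ b ∈ L, b ∈ killY (q * n) (ZMod p) (CosetQ q n (pmBorel q))) →
      ∃ l : List (MonoidAlgebra ℤ (GL (Fin 2) (ZMod q))), l.length = L.length ∧
        (∀ x ∈ l, LineKills p x) ∧ ((transAlg q p l.prod).unop : Module.End (ZMod p) _) =
          (funRep (ZMod p) (GLQ (q * n)) (CosetQ q n (torusQ q))).asAlgebraHom L.prod
  | [], _ => ⟨[], rfl, by simp, by
      rw [List.prod_nil, List.prod_nil, map_one, map_one, MulOpposite.unop_one]; rfl⟩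
  | b :: L, h => by
    obtain ⟨l, hl, hk, he⟩ := exists_list_lineKills hp2 L fun x hx => h x (List.mem_cons_of_mem _ hx)
    obtain ⟨β, hβ, hβe⟩ := exists_lineKills hp2 (h b List.mem_cons_self)
    refine ⟨l ++ [β], by simp [hl], by simpa [or_imp, forall_and] using ⟨hk, hβ⟩, ?_⟩
    rw [List.prod_append, List.prod_singleton, map_mul, MulOpposite.unop_mul, List.prod_cons,
      map_mul, hβe, he]
    rfl

/-- The translation of cosets by transposed inverses. -/
theorem mk_sOf (g : GL (Fin 2) (ZMod q)) :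
    (CosetQ.mk (Matrix.SpecialLinearGroup.toGL (sOf g)) : CosetQ q n (torusQ q)) =
      CosetQ.mk (trGL g)⁻¹ := by
  have e : Matrix.SpecialLinearGroup.toGL (detOnePart g) =
      trGL (g * diagElt 1 (Matrix.GeneralLinearGroup.det g)⁻¹) := Units.ext rfl
  rw [sOf, map_inv, e, trGL_mul, mul_inv_rev, CosetQ.mk_eq_mk]
  have hd : trGL (diagElt 1 (Matrix.GeneralLinearGroup.det g)⁻¹) ∈ torusQ q := by
    rw [mem_torusQ]
    refine ⟨?_, ?_⟩
    · show (diagElt 1 (Matrix.GeneralLinearGroup.det g)⁻¹ : Matrix (Fin 2) (Fin 2) (ZMod q)) 0 1 = 0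
      simp [diagElt]
    · show (diagElt 1 (Matrix.GeneralLinearGroup.det g)⁻¹ : Matrix (Fin 2) (Fin 2) (ZMod q)) 1 0 = 0
      simp [diagElt]
  simpa [mul_assoc] using hd

/-- **Values on the kernel of the reduction are killed by long products.** -/
theorem mem_killed_of_classChar (hp2 : p ≠ 2) (hR : R ∣ n) (hN : N = q * R * q)
    (P : Pic0.torsion QBar (modularFunctionFieldBar N) p) {K : ℕ}
    (hrel : ∀ l : List (MonoidAlgebra ℤ (GL (Fin 2) (ZMod q))), l.length = K →
      (∀ x ∈ l, LineKills p x) → ∑ g, l.prod.coeff g •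
        (sOf g • QData.classChar (q := q) (n := n) hR (dvd_of_eq hN) P) = 0)
    (ξ : cocycles (redR R (q * n)) (funRep (ZMod p) (GLQ (q * n)) (CosetQ q n (torusQ q))))
    (hξ : ∀ (γ : Gamma0 R) (δ : SL(2, ℤ)) (x : CosetQ q n (torusQ q)) (ε : Gamma0 N),
        redR R (q * n) γ = 1 → (hδ : δ ∈ Gamma0 R) →
        redR R (q * n) ⟨δ, hδ⟩ • (CosetQ.mk 1 : CosetQ q n (torusQ q)) = x →
        ConjQ q (δ⁻¹ * γ * δ) ε → (ξ : Gamma0 R → CosetQ q n (torusQ q) → ZMod p) γ x =
          (JacTorsion.torsionEquiv N p P).1 (Additive.ofMul ε))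
    (γ : Gamma0 R) (hγ : redR R (q * n) γ = 1) :
    (ξ : Gamma0 R → CosetQ q n (torusQ q) → ZMod p) γ ∈
      killed (CosetQ q n (pmBorel q))
        (funRep (ZMod p) (GLQ (q * n)) (CosetQ q n (torusQ q))) K := by
  set Φ := QData.classChar (q := q) (n := n) hR (dvd_of_eq hN) P with hΦ
  have hγ' : (γ : SL(2, ℤ)) ∈ Gamma (q * n) := by
    rw [Gamma_mem']
    have h : redQ (q * n) γ = 1 := hγ
    exact Subtype.ext (congrArg Units.val h :)
  -- the values are the translates of the monodromy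
  have key : ∀ s : SL(2, ZMod q), (ξ : Gamma0 R → CosetQ q n (torusQ q) → ZMod p) γ
      (CosetQ.mk (Matrix.SpecialLinearGroup.toGL s)) = (s • Φ) (Additive.ofMul ⟨γ, hγ'⟩) := by
    intro s
    set l := liftSL (n := n) s⁻¹ with hl
    have hmem : l⁻¹ ∈ Gamma0 R := by
      refine inv_mem ?_
      rw [Gamma0_mem, ZMod.intCast_zmod_eq_zero_iff_dvd]
      exact (Int.natCast_dvd_natCast.mpr hR).trans
        (entry_mem_Gamma (liftSL_mem (n := n) s⁻¹)).2.2.1
    have hred : redR R (q * n) ⟨l⁻¹, hmem⟩ • (CosetQ.mk 1 : CosetQ q n (torusQ q)) =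
        CosetQ.mk (Matrix.SpecialLinearGroup.toGL s) := by
      rw [CosetQ.smul_mk, mul_one]
      show CosetQ.mk (redGL q n (redQ (q * n) l⁻¹)) = _
      rw [redGL_redQ, map_inv, hl, map_liftSL, inv_inv]
    rw [smul_apply_eq]
    set γ' : Gamma (q * n) := ⟨l * (γ : SL(2, ℤ)) * l⁻¹, (Gamma_normal _).conj_mem _ hγ' _⟩
    refine hξ γ l⁻¹ _ ⟨rescale q n γ', QData.rescale_mem hR (dvd_of_eq hN) γ'⟩ hγ hmem hred ?_
    rw [inv_inv, conjQ_iff, coe_rescale]
    refine ⟨rfl, ?_, ?_, ?_⟩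
    · show (γ' : SL(2, ℤ)) 0 1 = (γ' : SL(2, ℤ)) 0 1 / (q : ℤ) * (q : ℤ)
      exact (upper_div_mul γ').symm
    · show (q : ℤ) * (γ' : SL(2, ℤ)) 1 0 = (γ' : SL(2, ℤ)) 1 0 * (q : ℤ)
      exact mul_comm _ _
    · show (q : ℤ) * (γ' : SL(2, ℤ)) 1 1 = (γ' : SL(2, ℤ)) 1 1 * (q : ℤ)
      exact mul_comm _ _
  refine mem_killed_of_prod K _ fun L hL hmemL => ?_
  -- at the base point
  have base : ∀ L : List (MonoidAlgebra (ZMod p) (GLQ (q * n))), L.length = K →
      (∀ b ∈ L, b ∈ killY (q * n) (ZMod p) (CosetQ q n (pmBorel q))) →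
      (funRep (ZMod p) (GLQ (q * n)) (CosetQ q n (torusQ q))).asAlgebraHom L.prod
        ((ξ : Gamma0 R → CosetQ q n (torusQ q) → ZMod p) γ) (CosetQ.mk 1) = 0 := by
    intro L hL hmemL
    obtain ⟨l, hl, hk, he⟩ := exists_list_lineKills hp2 L hmemL
    rw [← he]
    refine (transAlg_apply (p := p) l.prod _ _).trans ?_
    have h := DFunLike.congr_fun (hrel l (hl.trans hL) hk) (Additive.ofMul ⟨γ, hγ'⟩)
    rw [AddMonoidHom.finsetSum_apply, AddMonoidHom.zero_apply] at h
    refine (Finset.sum_congr rfl fun g _ => ?_).trans h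
    rw [AddMonoidHom.smul_apply, zsmul_eq_mul, ← key, mk_sOf]
    refine congrArg (fun y => (l.prod.coeff g : ZMod p) *
      (ξ : Gamma0 R → CosetQ q n (torusQ q) → ZMod p) γ y) ?_
    exact congrArg CosetQ.mk (mul_one (trGL g)⁻¹)
  funext x
  obtain ⟨h, rfl⟩ := CosetQ.mk_surjective x
  rcases L with _ | ⟨b, L⟩
  · rw [List.prod_nil, map_one, Module.End.one_apply, Pi.zero_apply]
    -- no factor: the monodromy itself vanishes
    have h0 : Φ = 0 := by
      have e := hrel [] hL (by simp)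
      rw [List.prod_nil, Finset.sum_eq_single (1 : GL (Fin 2) (ZMod q))] at e
      · rw [show ((1 : MonoidAlgebra ℤ (GL (Fin 2) (ZMod q))).coeff 1) = 1 by simp, one_smul] at e
        exact (smul_eq_zero_iff_eq (sOf (1 : GL (Fin 2) (ZMod q)))).1 e
      · intro g _ hg
        rw [show ((1 : MonoidAlgebra ℤ (GL (Fin 2) (ZMod q))).coeff g) = 0 by
          simp [MonoidAlgebra.one_def, Ne.symm hg], zero_smul]
      · simp
    obtain ⟨s, -, -, hs, -⟩ := exists_smul_mk_one (H := torusQ q) (n := n) hR diag_mem_torusQ h _ rfl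
    have e : (CosetQ.mk (Matrix.SpecialLinearGroup.toGL s) : CosetQ q n (torusQ q)) = CosetQ.mk h := by
      rw [show Matrix.SpecialLinearGroup.toGL s = h * diagElt 1 (Matrix.GeneralLinearGroup.det h)⁻¹
        from Units.ext hs, CosetQ.mk_eq_mk]
      simpa using inv_mem (diag_mem_torusQ (Matrix.GeneralLinearGroup.det h)⁻¹)
    rw [← e, key, h0, smul_zero, AddMonoidHom.zero_apply]
  · obtain ⟨_, γh, -, -, hh⟩ :=
      exists_smul_mk_one (H := torusQ q) (n := n) hR diag_mem_torusQ h _ rfl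
    set g := redR R (q * n) γh
    have hb' : MonoidAlgebra.of (ZMod p) _ g⁻¹ * b ∈
        killY (q * n) (ZMod p) (CosetQ q n (pmBorel q)) := by
      have hb : (funRep (ZMod p) (GLQ (q * n)) (CosetQ q n (pmBorel q))).asAlgebraHom b = 0 :=
        hmemL b List.mem_cons_self
      show _ = 0
      rw [map_mul, hb, mul_zero]
    have h1 := base (MonoidAlgebra.of (ZMod p) _ g⁻¹ * b :: L) (by simpa using hL)
      (by
        intro c hc
        rcases List.mem_cons.1 hc with rfl | hc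
        · exact hb'
        · exact hmemL c (List.mem_cons_of_mem _ hc))
    rw [List.prod_cons, mul_assoc, map_mul, Module.End.mul_apply, Representation.asAlgebraHom_of,
      funRep_apply, inv_inv, hh] at h1
    exact h1

/-- **From a class fixed by inertia to a homomorphism of level `q R`.** -/
theorem exists_hom_of_fixed_class {p q R : ℕ} [Fact p.Prime] [NeZero R] (hp2 : p ≠ 2) (hq : q.Prime)
    (hqp : q ≠ p) (hqR : ¬ q ∣ R) [NeZero (q * R)]
    (hfree : ∀ x : SL(2, ℤ) ⧸ Gamma0 R, ModularGroup.S • x ≠ x ∧ Fermat.Agent.Gamma0.ST • x ≠ x)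
    {N : ℕ} [NeZero N] (hN : N = q * R * q) (a : ℕ → ℤ) (S : Finset ℕ)
    (hne : ∀ m : ℕ, m ≠ 0 → ∀ T : Finset ℕ,
      ∃ l, l.Prime ∧ l ∉ T ∧ (l : ZMod m) = 1 ∧ (a l : ZMod p) ≠ 2)
    {A : ValuationSubring QBar} (hA : A.LiesOverPrime q) {x : JZero N} (hx0 : x ≠ 0)
    (hpx : p • x = 0) (hfix : ∀ σ ∈ A.inertiaSubgroupIn ℚ, σ • x = x)
    (heig : ∀ l (hl : l.Prime), l ∉ S → ¬ l ∣ N * p → heckeOperatorBar N ⟨l, hl⟩ x = a l • x) :
    ∃ (φ : Additive (Gamma0 (q * R)) →+ ZMod p) (S' : Finset ℕ), φ ≠ 0 ∧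
      ∀ l (hl : l.Prime) (hlN : ¬ l ∣ q * R), l ∉ S' → Periods.homT hl hlN ℤ φ = a l • φ := by
  haveI : Fact q.Prime := ⟨hq⟩
  haveI : NeZero q := ⟨hq.ne_zero⟩
  obtain ⟨L, hL, hqL⟩ : ∃ L : ℕ, (L = 7 ∨ L = 9) ∧ q.Coprime L := by
    by_cases h7 : q = 7
    · exact ⟨9, Or.inr rfl, by subst h7; norm_num⟩
    · exact ⟨7, Or.inl rfl, (Nat.coprime_primes hq (by norm_num)).2 h7⟩
  set n := R * L with hn
  haveI : NeZero n := ⟨mul_ne_zero (NeZero.ne R) (by omega)⟩
  haveI : NeZero (q * n) := ⟨mul_ne_zero hq.ne_zero (NeZero.ne n)⟩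
  haveI : Fact (q.Coprime n) := ⟨Nat.Coprime.mul_right (hq.coprime_iff_not_dvd.2 hqR) hqL⟩
  have hR : R ∣ n := dvd_mul_right R L
  obtain ⟨D, hDA⟩ := exists_qData (q := q) (n := n) hA hL (dvd_mul_left L R)
  let P : Pic0.torsion QBar (modularFunctionFieldBar N) p :=
    ⟨x, Pic0.mem_torsion.mpr (by rw [natCast_zsmul]; exact hpx)⟩
  set φ := (JacTorsion.torsionEquiv N p P).1 with hφ
  have hφ0 : φ ≠ 0 := fun h => hx0 (by
    have h1 : JacTorsion.torsionEquiv N p P = 0 := Subtype.ext h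
    rw [AddEquiv.map_eq_zero_iff] at h1
    exact congrArg Subtype.val h1)
  obtain ⟨K, hK⟩ := exists_length_kill_classChar D (p := p) (R := R) (N := N) (Ne.symm hqp) hR
    (dvd_of_eq hN)
  set S' : Finset ℕ := S ∪ (N * p * (q * n)).primeFactors with hS'
  set a' : ℕ → ZMod p := fun l => (a l : ZMod p) with ha'
  have hS'out : ∀ l, l.Prime → l ∉ S' → l ∉ S ∧ ¬ l ∣ N * p * (q * n) := fun l hl h => by
    rw [hS', Finset.mem_union, not_or] at h
    exact ⟨h.1, fun hd => h.2 (Nat.mem_primeFactors.2 ⟨hl, hd, mul_ne_zero (mul_ne_zero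
      (NeZero.ne N) (Fact.out : p.Prime).ne_zero) (NeZero.ne (q * n))⟩)⟩
  have hne' : NotEis R (q * n) S' a' := by
    obtain ⟨l, hl, hlS, hl1, hla⟩ := hne (q * n * p)
      (mul_ne_zero (NeZero.ne (q * n)) (Fact.out : p.Prime).ne_zero) S'
    have hd := (hS'out l hl hlS).2
    refine ⟨⟨l, hl, fun h => hd ?_, fun h => hd (h.mul_left _), hlS⟩, ?_, ?_⟩
    · exact (h.trans hR).trans ((dvd_mul_left n q).mul_left _)
    · have := congrArg (ZMod.castHom (dvd_mul_right (q * n) p) (ZMod (q * n))) hl1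
      rwa [map_natCast, map_one] at this
    · have := congrArg (ZMod.castHom (dvd_mul_left p (q * n)) (ZMod p)) hl1
      rw [map_natCast, map_one] at this
      show (a l : ZMod p) ≠ ((l + 1 : ℕ) : ZMod p)
      rw [Nat.cast_add, this, Nat.cast_one, one_add_one_eq_two]
      exact hla
  set X := CosetQ q n (torusQ q)
  set Y := CosetQ q n (pmBorel q)
  set ρ := funRep (ZMod p) (GLQ (q * n)) X with hρ
  obtain ⟨ξ, hξ0, hξT, hξv⟩ := exists_induced (q := q) (n := n) (p := p) hR hqR hN φ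
  set v := cls (redR R (q * n)) ρ ξ with hv
  have hveig : ∀ i, sqOp R S' ρ i v = sqVal a' i • v := by
    rintro (l | c)
    · haveI : Fact l.1.Prime := ⟨l.2.1⟩
      obtain ⟨hlS, hld⟩ := hS'out l.1 l.2.1 l.2.2.2.2
      have hlN : ¬ l.1 ∣ N := fun h => hld ((h.mul_right p).mul_right _)
      refine hξT l.1 hlN l.coprime (a l.1) (homT_torsionEquiv l.2.1 hlN (a l.1) P ?_)
      exact heig l.1 l.2.1 hlS fun h => hld (h.mul_right _)
    · show centreOp ρ c v = (1 : ZMod p) • v
      rw [one_smul]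
      have hc : ρ (c : GLQ (q * n)) = 1 := LinearMap.ext fun F => funext fun y => by
        obtain ⟨g, rfl⟩ := CosetQ.mk_surjective y
        rw [hρ, funRep_apply, Module.End.one_apply, CosetQ.smul_mk]
        refine congrArg F ?_
        -- the centre reduces to scalars
        set z := redGL q n (c : GLQ (q * n))⁻¹ with hz
        have hcomm : ∀ t : SL(2, ℤ), redGL q n (redQ (q * n) t) * z = z * redGL q n (redQ (q * n) t) :=
          fun t => by rw [hz, ← map_mul, ← map_mul, Subgroup.mem_center_iff.1 (inv_mem c.2)]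
        have hT := hcomm ModularGroup.T
        have hS := hcomm ModularGroup.S
        rw [redGL_redQ] at hT hS
        have hT00 := congrFun (congrFun (congrArg (fun u : GL (Fin 2) (ZMod q) => (u : Matrix (Fin 2) (Fin 2) (ZMod q))) hT) 0) 0
        have hT01 := congrFun (congrFun (congrArg (fun u : GL (Fin 2) (ZMod q) => (u : Matrix (Fin 2) (Fin 2) (ZMod q))) hT) 0) 1
        have hS00 := congrFun (congrFun (congrArg (fun u : GL (Fin 2) (ZMod q) => (u : Matrix (Fin 2) (Fin 2) (ZMod q))) hS) 0) 0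
        have hS10 := congrFun (congrFun (congrArg (fun u : GL (Fin 2) (ZMod q) => (u : Matrix (Fin 2) (Fin 2) (ZMod q))) hS) 1) 0
        simp [Matrix.mul_apply, Fin.sum_univ_two, ModularGroup.coe_T, ModularGroup.coe_S] at hT00 hT01 hS00 hS10
        rw [CosetQ.mk_eq_mk]
        have hzg : z * g = g * z := by
          refine Units.ext (Matrix.ext fun i j => ?_)
          have h10 : (z : Matrix (Fin 2) (Fin 2) (ZMod q)) 1 0 = 0 := hT00
          have h01 : (z : Matrix (Fin 2) (Fin 2) (ZMod q)) 0 1 = 0 := by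
            linear_combination -hS00 - h10
          have h11 : (z : Matrix (Fin 2) (Fin 2) (ZMod q)) 1 1 =
              (z : Matrix (Fin 2) (Fin 2) (ZMod q)) 0 0 := by linear_combination hT01
          fin_cases i <;> fin_cases j <;>
            simp [Matrix.mul_apply, Fin.sum_univ_two, h10, h01, h11, mul_comm]
        rw [hzg, mul_inv_rev, mul_assoc, inv_mul_cancel, mul_one, inv_mem_iff, mem_torusQ]
        exact ⟨hT00, by linear_combination -hS00 - hT00⟩
      obtain ⟨η, hη⟩ := cls_surjective (redR R (q * n)) ρ v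
      rw [← hη, centreOp, hMap_cls]
      exact congrArg (cls _ ρ) (Subtype.ext (funext fun γ => by
        show ρ (c : GLQ (q * n)) ((η : Gamma0 R → X → ZMod p) γ) = _
        rw [hc]; rfl))
  have hY : ∀ y : Y, redQ (q * n) (-1) • y = y := neg_one_smul neg_one_mem_pmBorel
  have h2 : IsUnit (2 : ZMod p) := isUnit_iff_ne_zero.2 fun h => hp2
    ((Nat.prime_dvd_prime_iff_eq Fact.out Nat.prime_two).1
      ((ZMod.natCast_eq_zero_iff 2 p).1 (by exact_mod_cast h)))
  -- the class lives on the killed part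
  set U := killed Y ρ K
  have hU : ∀ g, ∀ u ∈ U, ρ g u ∈ U := killed_stable K
  have hf : ∀ g u, U.mkQ (ρ g u) = quotRep ρ U hU g (U.mkQ u) := fun g u => (quotRep_mk U hU g u).symm
  have hq0 : hMap (π := redR R (q * n)) U.mkQ hf v = 0 := by
    refine eq_zero_of_vanish (S := S') hne'
      (fun i => by rw [← hMap_sqOp (ρ := ρ) (σ := quotRep ρ U hU) U.mkQ hf i v, hveig i, map_smul])
      (hMap_cls (π := redR R (q * n)) U.mkQ hf ξ).symm fun γ hγ => ?_
    show U.mkQ ((ξ : Gamma0 R → X → ZMod p) γ) = 0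
    rw [Submodule.mkQ_apply, Submodule.Quotient.mk_eq_zero]
    refine mem_killed_of_classChar hp2 hR hN P (fun l hl hk => ?_) ξ hξv γ hγ
    exact hK l hl hk P fun σ hσ => hfix σ (hDA ▸ hσ)
  obtain ⟨y, hy⟩ := exists_hMap_eq (ρ := subRep ρ U hU) (i := U.subtype) (fun _ _ => rfl) _
    U.injective_subtype U.mkQ_surjective
    (fun w hw => ⟨⟨w, (Submodule.Quotient.mk_eq_zero _).1 hw⟩, rfl⟩) hq0
  have hocc : Occurs R S' (funRep (ZMod p) (GLQ (q * n)) Y) a' :=
    occurs_funY_of_killed hfree h2 hne' hY K (occurs_of_map (S := S') (a := a') U.subtype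
      (fun _ _ => rfl) (u := y) (by rw [hy]; exact hξ0 hφ0) (fun i => by rw [hy]; exact hveig i))
  obtain ⟨φ', hφ', heig'⟩ := exists_hom_of_occurs hR hqR hne' hocc
  refine ⟨φ', S', hφ', fun l hl hlN hlS => ?_⟩
  rw [heig' l hl hlN (fun h => (hS'out l hl hlS).2 (h.mul_left _)) hlS]
  exact Int.cast_smul_eq_zsmul (ZMod p) (a l) φ'

end Fermat.Agent.RT.Lift59.Square

end
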