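import Fermat.Agent.RT.Lift59.Square.Start
import Fermat.Agent.RT.Lift59.Square.Middle
import Fermat.Agent.RT.Lift59.Square.End
import Fermat.Agent.RT.Lift59.Curve.Level
import Fermat.Agent.RT.GammaH.CoresThree
import Fermat.Agent.RT.Two.Hecke.Cores2

/-!
# The exponent of a prime with square in the level drops

An auxiliary prime makes the level free of elliptic elements; the class fixed by inertia at `q`
gives a homomorphism of level `q R` with the eigenvalues of the model.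
-/

set_option autoImplicit false

noncomputable section

open WeierstrassCurve
open scoped MatrixGroups

namespace Fermat.Agent.RT.Lift59.Square

open Fermat.Agent.Arith CongruenceSubgroup

/-- A level with a prime `3 (mod 4)`, `2 (mod 3)` has no elliptic cosets. -/
theorem free_of_prime {R r : ℕ} (hr : r.Prime) (h4 : r % 4 = 3) (h3 : r % 3 = 2) (hrR : r ∣ R)
    (x : SL(2, ℤ) ⧸ Gamma0 R) : ModularGroup.S • x ≠ x ∧ Gamma0.ST • x ≠ x := by
  have : Fact r.Prime := ⟨hr⟩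
  have h := Two.Hecke.S_smul_ne (M := R) hrR h4 ⊤
  rw [GammaH.gammaH_top] at h
  exact ⟨h x, GammaH.Gamma0_ST_smul_ne hr h3 hrR x⟩

/-- **The exponent drops at `q² ∥ M`.** -/
theorem squareInput : SquareInput := by
  classical
  intro W p M q hs hseed hq hqp hqM
  have : Fact p.Prime := ⟨hs.hp.1⟩
  have hp : p.Prime := Fact.out
  have hp2 : p ≠ 2 := hs.hp.2
  obtain ⟨R₀, hR₀⟩ := hqM
  have hM : M = q * R₀ * q := by rw [hR₀]; ring
  have hqR : ¬ q ∣ R₀ := by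
    rintro ⟨c, rfl⟩
    exact hseed.cube q hq hqp ⟨c, by rw [hR₀]; ring⟩
  have hM0 : M ≠ 0 := hseed.pos.ne'
  have hR₀0 : R₀ ≠ 0 := by rintro rfl; simp at hR₀; omega
  obtain ⟨r, hr, hrT, h4, h3, hrp⟩ :=
    exists_aux hs (insert p (M.primeFactors ∪ W.Δ.natAbs.primeFactors))
  simp only [Finset.mem_insert, Finset.mem_union, not_or] at hrT
  obtain ⟨hrp', hrM', hrΔ⟩ := hrT
  have hrM : ¬ r ∣ M := fun h => hrM' (Nat.mem_primeFactors.mpr ⟨hr, h, hM0⟩)
  have hrgood : W.IsGoodPrimeFor r := fun h => hrΔ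
    (Nat.mem_primeFactors.mpr ⟨hr, Int.natCast_dvd.mp h, Int.natAbs_ne_zero.mpr hs.hΔ⟩)
  set R := R₀ * r with hR
  have : NeZero R := ⟨mul_ne_zero hR₀0 hr.ne_zero⟩
  have hqR' : ¬ q ∣ R := fun h => (hq.dvd_mul.mp h).elim hqR fun h' =>
    hrM (((Nat.prime_dvd_prime_iff_eq hq hr).mp h') ▸ hM ▸ dvd_mul_left q _)
  have : NeZero (q * R * q) := ⟨mul_ne_zero (mul_ne_zero hq.ne_zero (NeZero.ne R)) hq.ne_zero⟩
  have : NeZero (q * R) := ⟨mul_ne_zero hq.ne_zero (NeZero.ne R)⟩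
  obtain ⟨A, hA⟩ := Arith.exists_liesOverPrime hq
  obtain ⟨x, hx0, hpx, hfix, heig⟩ := exists_fixed_class hs hseed.res
    (show M ∣ q * R * q from ⟨r, by rw [hM, hR]; ring⟩) hq hqp hA
  have hne : ∀ m : ℕ, m ≠ 0 → ∀ T : Finset ℕ,
      ∃ l, l.Prime ∧ l ∉ T ∧ (l : ZMod m) = 1 ∧ (W.apOfModel l : ZMod p) ≠ 2 := by
    intro m hm T
    obtain ⟨l, hl, hlT, hdvd, hla⟩ := Curve.exists_wAbar_ne_of_dvd (W := W) (k := ZMod p) hp2 hs.hΔ
      hs.hirr (m * p) (mul_ne_zero hm hp.ne_zero) T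
    have h1 : ∀ d : ℕ, d ∣ m * p → (l : ZMod d) = 1 := fun d hd => by
      have h' := (ZMod.intCast_zmod_eq_zero_iff_dvd _ d).2
        ((Int.natCast_dvd_natCast.2 hd).trans hdvd)
      rwa [Int.cast_sub, Int.cast_one, sub_eq_zero, Int.cast_natCast] at h'
    refine ⟨l, hl, hlT, h1 m (dvd_mul_right m p), fun h => hla ?_⟩
    rw [h1 p (dvd_mul_left p m)]
    show ((W.apOfModel l : ℤ) : ZMod p) = 1 + 1
    rw [h]
    norm_num
  obtain ⟨φ, S', hφ, hφe⟩ := exists_hom_of_fixed_class (N := q * R * q) hp2 hq hqp hqR'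
    (free_of_prime hr h4 h3 (dvd_mul_left r R₀)) rfl (fun l => W.apOfModel l)
    W.Δ.natAbs.primeFactors hne hA hx0 hpx hfix fun l hl hlS hlN => heig l hl (fun h => hlS
      (Nat.mem_primeFactors.mpr ⟨hl, Int.natCast_dvd.mp h, Int.natAbs_ne_zero.mpr hs.hΔ⟩)) hlN
  rw [hM, Nat.mul_div_cancel _ hq.pos]
  exact residuallyModular_of_hom hs hseed hq hqp hM hqR hr hrM hrgood h4 h3 hrp hrp' φ hφ S' hφe

end Fermat.Agent.RT.Lift59.Square

end
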