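import Fermat.Agent.RT.Lift59.Square.Exact
import Fermat.Agent.Gamma0.Structure

/-!
# Cohomology with values in functions on a transitive set

A class with values in the functions on a set on which `Γ` is transitive is determined by the
homomorphism on the stabiliser of a point, and every such homomorphism occurs. Cohomology with
finite coefficients is finite.
-/

set_option autoImplicit false
set_option linter.unusedSectionVars false

noncomputable section

namespace Fermat.Agent.RT.Lift59.Square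

open scoped MatrixGroups

variable {Γ : Subgroup SL(2, ℤ)} {G : Type*} [Group G] {π : Γ →* G} {k : Type*} [CommRing k]
  {X : Type*} [MulAction G X] {x₀ : X}

/-- The value at `x₀` on the stabiliser is additive. -/
theorem eval_mul (ξ : cocycles π (funRep k G X)) {γ δ : Γ} (hγ : π γ • x₀ = x₀) :
    (ξ : Γ → X → k) (γ * δ) x₀ = (ξ : Γ → X → k) γ x₀ + (ξ : Γ → X → k) δ x₀ := by
  rw [ξ.2, Pi.add_apply, funRep_apply, inv_smul_eq_iff.2 hγ.symm]

/-- **A class is determined on the stabiliser of a point.** -/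
theorem eq_zero_of_eval (htrans : ∀ x : X, ∃ γ : Γ, π γ • x₀ = x)
    {ξ : cocycles π (funRep k G X)}
    (h : ∀ γ, π γ • x₀ = x₀ → (ξ : Γ → X → k) γ x₀ = 0) : cls π (funRep k G X) ξ = 0 := by
  choose s hs using htrans
  -- the value at `x` of the cocycle of any element carrying `x₀` to `x`
  have hm : ∀ (δ : Γ) (x : X), π δ • x₀ = x →
      (ξ : Γ → X → k) δ x = (ξ : Γ → X → k) (s x) x := by
    intro δ x hδ
    have hst : π ((s x)⁻¹ * δ) • x₀ = x₀ := by
      rw [map_mul, map_inv, mul_smul, hδ, inv_smul_eq_iff, hs]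
    conv_lhs => rw [show δ = s x * ((s x)⁻¹ * δ) by group]
    rw [ξ.2, Pi.add_apply, funRep_apply, inv_smul_eq_iff.2 (hs x).symm, h _ hst, add_zero]
  rw [cls_eq_zero]
  refine ⟨fun x => -(ξ : Γ → X → k) (s x) x, fun γ => funext fun x => ?_⟩
  show (ξ : Γ → X → k) γ x = funRep k G X (π γ) (fun x => -(ξ : Γ → X → k) (s x) x) x - _
  rw [funRep_apply]
  set y : X := (π γ)⁻¹ • x with hy
  have e1 : π (γ * s y) • x₀ = x := by rw [map_mul, mul_smul, hs, hy, smul_inv_smul]
  have e2 := hm _ x e1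
  rw [ξ.2, Pi.add_apply, funRep_apply, ← hy] at e2
  linear_combination e2

/-- **Every homomorphism on the stabiliser occurs.** -/
theorem exists_cocycle_of_eval (htrans : ∀ x : X, ∃ γ : Γ, π γ • x₀ = x) (ψ : Γ → k)
    (hψ : ∀ γ δ, π γ • x₀ = x₀ → π δ • x₀ = x₀ → ψ (γ * δ) = ψ γ + ψ δ) :
    ∃ ξ : cocycles π (funRep k G X),
      (∀ γ, π γ • x₀ = x₀ → (ξ : Γ → X → k) γ x₀ = ψ γ) ∧
      ∀ γ δ x, π γ = 1 → π δ • x₀ = x → (ξ : Γ → X → k) γ x = ψ (δ⁻¹ * γ * δ) := by
  choose s hs using htrans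
  have hst : ∀ (γ : Γ) (x : X), π ((s x)⁻¹ * γ * s ((π γ)⁻¹ • x)) • x₀ = x₀ := fun γ x => by
    rw [map_mul, map_mul, map_inv, mul_smul, mul_smul, hs, smul_inv_smul, inv_smul_eq_iff, hs]
  have h1 : ψ 1 = 0 := by
    have := hψ 1 1 (by simp) (by simp)
    simpa using this
  have hinv : ∀ γ, π γ • x₀ = x₀ → ψ γ⁻¹ = -ψ γ := fun γ hγ => by
    have h := hψ γ⁻¹ γ (by rw [map_inv, inv_smul_eq_iff, hγ]) hγ
    rw [inv_mul_cancel, h1] at h
    exact eq_neg_of_add_eq_zero_left h.symm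
  have hconj : ∀ a γ, π a • x₀ = x₀ → π γ • x₀ = x₀ → ψ (a⁻¹ * γ * a) = ψ γ := fun a γ ha hγ => by
    have ha' : π a⁻¹ • x₀ = x₀ := by rw [map_inv, inv_smul_eq_iff, ha]
    rw [hψ _ _ (by rw [map_mul, mul_smul, hγ, ha']) ha, hψ _ _ ha' hγ, hinv a ha]
    ring
  refine ⟨⟨fun γ x => ψ ((s x)⁻¹ * γ * s ((π γ)⁻¹ • x)), fun γ δ => funext fun x => ?_⟩,
    fun γ hγ => ?_, fun γ δ x hγ hδ => ?_⟩
  · show ψ _ = ψ _ + funRep k G X (π γ) (fun x => ψ _) x
    rw [funRep_apply, map_mul, mul_inv_rev, mul_smul, ← hψ _ _ (hst γ x) (hst δ _)]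
    exact congrArg ψ (by group)
  · show ψ ((s x₀)⁻¹ * γ * s ((π γ)⁻¹ • x₀)) = ψ γ
    rw [inv_smul_eq_iff.2 hγ.symm]
    exact hconj _ _ (hs x₀) hγ
  · show ψ ((s x)⁻¹ * γ * s ((π γ)⁻¹ • x)) = _
    rw [hγ, inv_one, one_smul]
    have ha : π ((s x)⁻¹ * δ) • x₀ = x₀ := by rw [map_mul, map_inv, mul_smul, hδ, inv_smul_eq_iff, hs]
    have hg : π ((s x)⁻¹ * γ * s x) • x₀ = x₀ := by
      rw [map_mul, map_mul, hγ, mul_one, map_inv, inv_mul_cancel, one_smul]
    rw [← hconj _ _ ha hg]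
    exact congrArg ψ (by group)

/-- Evaluation of an operator whose elements fix the point. -/
theorem eval_cocOp {ι : Type} [Fintype ι] (S : CSys π ι) (hmat : ∀ i, S.mat i • x₀ = x₀)
    (ξ : cocycles π (funRep k G X)) (γ : Γ) :
    (S.cocOp (funRep k G X) ξ : Γ → X → k) γ x₀ =
      ∑ i, (ξ : Γ → X → k) (S.cocycle γ i) x₀ := by
  rw [CSys.cocOp_apply, Finset.sum_apply]
  refine Finset.sum_congr rfl fun i _ => ?_
  rw [funRep_apply, inv_inv, hmat]

/-- The cocycles of a stabilising system stabilise. -/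
theorem stab_cocycle {ι : Type} [Fintype ι] (S : CSys π ι) (hmat : ∀ i, S.mat i • x₀ = x₀) {γ : Γ}
    (hγ : π γ • x₀ = x₀) (i : ι) : π (S.cocycle γ i) • x₀ = x₀ := by
  have h := congrArg (· • x₀) (S.mat_spec γ i)
  simp only [mul_smul, hγ, hmat] at h
  exact h.symm

/-- Classes with finite coefficients form a finite set. -/
instance finite_H1c [Γ.FiniteIndex] {M : Type*} [AddCommGroup M] [Module k M] [Finite M]
    (ρ : Representation k G M) : Finite (H1c π ρ) := by
  have : Group.FG SL(2, ℤ) := Group.fg_iff.2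
    ⟨{ModularGroup.S, ModularGroup.T}, SpecialLinearGroup.SL2Z_generators, Set.toFinite _⟩
  have h1 : Group.FG Γ := Subgroup.fg_of_index_ne_zero Γ
  obtain ⟨S, hS, hSf⟩ := Group.fg_iff.1 h1
  have : Finite S := hSf.to_subtype
  have : Finite (cocycles π ρ) := Finite.of_injective
    (fun ξ (s : S) => (ξ : Γ → M) s) fun ξ η h => by
      let H : Subgroup Γ :=
        { carrier := {γ | (ξ : Γ → M) γ = (η : Γ → M) γ}
          one_mem' := (cocycles_one ξ.2).trans (cocycles_one η.2).symm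
          mul_mem' := fun {a b} ha hb => by
            show (ξ : Γ → M) (a * b) = _
            rw [ξ.2, η.2, ha, hb]
          inv_mem' := fun {a} ha => by
            show (ξ : Γ → M) a⁻¹ = _
            rw [← neg_inj, ← cocycles_inv' ξ.2, ← cocycles_inv' η.2, ha] }
      have hle : Subgroup.closure S ≤ H :=
        (Subgroup.closure_le _).2 fun s hs => congrFun h ⟨s, hs⟩
      exact Subtype.ext (funext fun γ => hle (hS ▸ Subgroup.mem_top γ))
  exact Finite.of_surjective _ (cls_surjective π ρ)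

end Fermat.Agent.RT.Lift59.Square

end
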