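import Fermat.Agent.RT.Lift59.Square.Hecke
import Fermat.Agent.RT.Lift59.Square.Eigen
import Fermat.Agent.RT.Lift59.Square.Shapiro

/-!
# Systems of eigenvalues in cohomology with coefficients

The operators are `T_l` for `l ∤ R Q` outside a finite set and the action of the centre. A system
which is not Eisenstein has no class trivial on the kernel of the reduction.
-/

set_option autoImplicit false
set_option linter.unusedSectionVars false

noncomputable section

namespace Fermat.Agent.RT.Lift59.Square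

open CongruenceSubgroup
open scoped MatrixGroups

/-- The primes of the operators. -/
def SqPrime (R Q : ℕ) (S : Finset ℕ) : Type :=
  {l : ℕ // l.Prime ∧ ¬ l ∣ R ∧ ¬ l ∣ Q ∧ l ∉ S}

/-- The indices of the operators. -/
abbrev SqIdx (R Q : ℕ) (S : Finset ℕ) : Type := SqPrime R Q S ⊕ Subgroup.center (GLQ Q)

variable {R Q : ℕ} {S : Finset ℕ} {k : Type*} [Field k]
  {M : Type*} [AddCommGroup M] [Module k M] {N : Type*} [AddCommGroup N] [Module k N]
  {ρ : Representation k (GLQ Q) M} {σ : Representation k (GLQ Q) N}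

theorem SqPrime.coprime (l : SqPrime R Q S) : l.1.Coprime Q :=
  (Nat.Prime.coprime_iff_not_dvd l.2.1).2 l.2.2.2.1

variable (ρ) in
/-- The operator of a central element. -/
def centreOp (c : Subgroup.center (GLQ Q)) : Module.End k (H1c (redR R Q) ρ) :=
  hMap (ρ (c : GLQ Q)) fun g m => by
    rw [← Module.End.mul_apply, ← map_mul, ← Subgroup.mem_center_iff.1 c.2 g, map_mul,
      Module.End.mul_apply]

variable (R S ρ) in
/-- The operators. -/
def sqOp : SqIdx R Q S → Module.End k (H1c (redR R Q) ρ)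
  | Sum.inl l => haveI : Fact l.1.Prime := ⟨l.2.1⟩; tOp R ρ l.1 l.coprime
  | Sum.inr c => centreOp ρ c

/-- The system: `a` at the primes, trivial on the centre. -/
def sqVal (a : ℕ → k) : SqIdx R Q S → k
  | Sum.inl l => a l.1
  | Sum.inr _ => 1

theorem hMap_centreOp (f : M →ₗ[k] N) (hf : ∀ g m, f (ρ g m) = σ g (f m))
    (c : Subgroup.center (GLQ Q)) (x : H1c (redR R Q) ρ) :
    hMap f hf (centreOp ρ c x) = centreOp σ c (hMap f hf x) := by
  obtain ⟨ξ, rfl⟩ := cls_surjective _ ρ x
  simp only [centreOp, hMap_cls]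
  exact congrArg (cls _ σ) (Subtype.ext (funext fun γ => hf _ _))

theorem hMap_sqOp (f : M →ₗ[k] N) (hf : ∀ g m, f (ρ g m) = σ g (f m)) (i : SqIdx R Q S)
    (x : H1c (redR R Q) ρ) : hMap f hf (sqOp R S ρ i x) = sqOp R S σ i (hMap f hf x) := by
  rcases i with l | c
  · exact CSys.hMap_hOp _ f hf x
  · exact hMap_centreOp f hf c x

theorem sqOp_comm (i j : SqIdx R Q S) : sqOp R S ρ i * sqOp R S ρ j = sqOp R S ρ j * sqOp R S ρ i := by
  have hc : ∀ (i : SqIdx R Q S) (c : Subgroup.center (GLQ Q)),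
      sqOp R S ρ i * centreOp ρ c = centreOp ρ c * sqOp R S ρ i := fun i c =>
    LinearMap.ext fun x => (hMap_sqOp (ρ (c : GLQ Q)) (fun g m => by
      rw [← Module.End.mul_apply, ← map_mul, ← Subgroup.mem_center_iff.1 c.2 g, map_mul,
        Module.End.mul_apply]) i x).symm
  rcases j with m | c
  · rcases i with l | c
    · have : Fact l.1.Prime := ⟨l.2.1⟩
      have : Fact m.1.Prime := ⟨m.2.1⟩
      exact tOp_comm ρ l.coprime m.coprime
    · exact (hc (Sum.inl m) c).symm
  · exact hc i c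

variable (R S ρ) in
/-- The system occurs. -/
def Occurs (a : ℕ → k) : Prop := HasSystem (sqOp R S ρ) (sqVal (R := R) (Q := Q) (S := S) a)

/-- The system is not Eisenstein: a prime `1` modulo `Q` with another eigenvalue. -/
def NotEis (R Q : ℕ) (S : Finset ℕ) (a : ℕ → k) : Prop :=
  ∃ l : SqPrime R Q S, (l.1 : ZMod Q) = 1 ∧ a l.1 ≠ ((l.1 + 1 : ℕ) : k)

variable {a : ℕ → k}

/-- An eigen class trivial on the kernel of the reduction is zero. -/
theorem eq_zero_of_vanish (hne : NotEis R Q S a) {x : H1c (redR R Q) ρ}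
    (hx : ∀ i, sqOp R S ρ i x = sqVal a i • x) {ξ : cocycles (redR R Q) ρ}
    (hξx : cls _ ρ ξ = x) (hξ : ∀ γ, redR R Q γ = 1 → (ξ : Gamma0 R → M) γ = 0) : x = 0 := by
  obtain ⟨l, hl1, hla⟩ := hne
  have : Fact l.1.Prime := ⟨l.2.1⟩
  have h : tOp R ρ l.1 l.coprime x = a l.1 • x := hx (Sum.inl l)
  rw [← hξx, tOp_cls_of_vanish ρ l.coprime l.2.2.1 hl1 ξ hξ, ← sub_eq_zero, ← sub_smul] at h
  rw [← hξx]
  exact (smul_eq_zero.1 h).resolve_left fun he => hla (sub_eq_zero.1 he).symm

/-- Systems in the image occur in the source. -/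
theorem occurs_of_map [Finite M] [NeZero R] (f : M →ₗ[k] N) (hf : ∀ g m, f (ρ g m) = σ g (f m))
    {u : H1c (redR R Q) ρ} (hu : hMap f hf u ≠ 0)
    (heig : ∀ i, sqOp R S σ i (hMap f hf u) = sqVal a i • hMap f hf u) : Occurs R S ρ a :=
  hasSystem_of_map sqOp_comm (hMap f hf) (hMap_sqOp f hf) hu heig

/-- An eigen class with nonzero image gives the system in the target. -/
theorem occurs_map (f : M →ₗ[k] N) (hf : ∀ g m, f (ρ g m) = σ g (f m))
    {x : H1c (redR R Q) ρ} (hx : ∀ i, sqOp R S ρ i x = sqVal a i • x) (h : hMap f hf x ≠ 0) :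
    Occurs R S σ a :=
  ⟨_, h, fun i => by rw [← hMap_sqOp f hf, hx, map_smul]⟩

/-- **A class in families gives the system in a member.** -/
theorem occurs_pi {ι : Type*} {x : H1c (redR R Q) (piRep ι ρ)}
    (hx : ∀ i, sqOp R S (piRep ι ρ) i x = sqVal a i • x) (h0 : x ≠ 0) : Occurs R S ρ a := by
  obtain ⟨j, hj⟩ : ∃ j : ι, hMap (ρ := piRep ι ρ) (σ := ρ) (LinearMap.proj j : (ι → M) →ₗ[k] M)
      (fun _ _ => rfl) x ≠ 0 := by
    by_contra hcon
    push Not at hcon
    exact h0 (eq_zero_of_forall_proj hcon)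
  exact occurs_map _ _ hx hj

/-! ### Subrepresentations and quotients -/

/-- The representation on a stable submodule. -/
def subRep (ρ : Representation k (GLQ Q) M) (U : Submodule k M) (hU : ∀ g, ∀ u ∈ U, ρ g u ∈ U) :
    Representation k (GLQ Q) U where
  toFun g := (ρ g).restrict (hU g)
  map_one' := LinearMap.ext fun u => Subtype.ext (by simp)
  map_mul' g h := LinearMap.ext fun u => Subtype.ext (by simp)

@[simp] theorem coe_subRep (U : Submodule k M) (hU : ∀ g, ∀ u ∈ U, ρ g u ∈ U) (g : GLQ Q) (u : U) :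
    ((subRep ρ U hU g u : U) : M) = ρ g u := rfl

/-- The representation on a quotient. -/
def quotRep (ρ : Representation k (GLQ Q) M) (U : Submodule k M) (hU : ∀ g, ∀ u ∈ U, ρ g u ∈ U) :
    Representation k (GLQ Q) (M ⧸ U) where
  toFun g := U.mapQ U (ρ g) fun u hu => hU g u hu
  map_one' := Submodule.linearMap_qext _ (LinearMap.ext fun u => by simp)
  map_mul' g h := Submodule.linearMap_qext _ (LinearMap.ext fun u => by simp)

theorem quotRep_mk (U : Submodule k M) (hU : ∀ g, ∀ u ∈ U, ρ g u ∈ U) (g : GLQ Q) (m : M) :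
    quotRep ρ U hU g (Submodule.Quotient.mk m) = Submodule.Quotient.mk (ρ g m) := rfl

/-- Equivariant maps commute with the group algebra. -/
theorem map_algebraHom (f : M →ₗ[k] N) (hf : ∀ g m, f (ρ g m) = σ g (f m))
    (b : MonoidAlgebra k (GLQ Q)) (m : M) :
    f (ρ.asAlgebraHom b m) = σ.asAlgebraHom b (f m) := by
  induction b using MonoidAlgebra.induction_on with
  | of g => simp [hf]
  | add b c hb hc => simp [hb, hc]
  | smul r b hb => simp [hb]

end Fermat.Agent.RT.Lift59.Square

end
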