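import Fermat.Agent.RT.Lift59.Square.Integral

/-!
# Products of kernel elements kill units with divisible divisor

The group ring acts on units by translation. A product of sufficiently many elements vanishing
modulo `p` on the functions on the nonzero linear forms sends a unit with divisor divisible by `p`
to a `p`-th power.
-/

set_option autoImplicit false

noncomputable section

namespace Fermat.Agent.RT.Lift59.Square

open WeierstrassCurve IsLocalRing Matrix WithZero
open Fermat.Agent.Carayol
open Fermat.Agent.Carayol.TateLevel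

variable {K Ω : Type} [Field K] [Field Ω] [Algebra K Ω] [DecidableEq Ω]
variable {L : TateLevel K Ω} {U : UnramBase K L.frame.q}

variable (L) in
/-- Translation as an action on the units, additively. -/
def translEnd : GL (Fin 2) (ZMod L.frame.q) →* Module.End ℤ (Additive Ωˣ) where
  toFun g := (Units.map (L.act g).toRingEquiv.toRingHom.toMonoidHom).toAdditive.toIntLinearMap
  map_one' := LinearMap.ext fun z => congrArg Additive.ofMul (transl_one (L := L) z.toMul)
  map_mul' g g' := LinearMap.ext fun z =>
    congrArg Additive.ofMul (transl_mul_apply (L := L) z.toMul g g')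

variable (L) in
/-- The group ring acting on the units. -/
def combHom : MonoidAlgebra ℤ (GL (Fin 2) (ZMod L.frame.q)) →ₐ[ℤ] Module.End ℤ (Additive Ωˣ) :=
  MonoidAlgebra.lift ℤ (Module.End ℤ (Additive Ωˣ)) (GL (Fin 2) (ZMod L.frame.q)) (translEnd L)

theorem combHom_apply (a : MonoidAlgebra ℤ (GL (Fin 2) (ZMod L.frame.q))) (f : Ωˣ) :
    combHom L a (Additive.ofMul f) = Additive.ofMul (combProd L (fun g => a.coeff g) f) := by
  rw [combHom, MonoidAlgebra.lift_apply,
    Finsupp.sum_fintype (h := fun g => zero_smul ℤ (translEnd L g)), LinearMap.sum_apply, combProd,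
    ofMul_prod]
  exact Finset.sum_congr rfl fun g _ => by rw [LinearMap.smul_apply, ofMul_zpow]; rfl

/-- **Many kernel elements give a `p`-th power.** -/
theorem exists_length_combHom (L : TateLevel K Ω) {U : UnramBase K L.frame.q} {S : SerBase U}
    (C : CuspEmb L S) {p : ℕ} [Fact p.Prime] (hp : IsUnit (p : U.W)) :
    ∃ N : ℕ, ∀ l : List (MonoidAlgebra ℤ (GL (Fin 2) (ZMod L.frame.q))), l.length = N →
      (∀ x ∈ l, LineKills p x) → ∀ f : Ωˣ, Places K p f →
        ∃ r : Additive Ωˣ, combHom L l.prod (Additive.ofMul f) = p • r := by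
  obtain ⟨N, hN⟩ := exists_exact_lift L.frame.q p
  refine ⟨N + 1, fun l hl hmem f hpl => ?_⟩
  obtain ⟨l', a, rfl⟩ : ∃ l' a, l = l' ++ [a] := by
    rcases List.eq_nil_or_concat l with rfl | ⟨l', a, rfl⟩
    · simp at hl
    · exact ⟨l', a, List.concat_eq_append⟩
  obtain ⟨b, hb, hba⟩ := hN l' (by simpa using hl) fun x hx => hmem x (List.mem_append_left _ hx)
  obtain ⟨r, hr⟩ := exists_pow_eq_combProd C hp hpl (hmem a (by simp)).killsLineFun hb.killsLineFun
  obtain ⟨s, hs⟩ := exists_combProd_congr (L := L) hba (combProd L (fun g => a.coeff g) f)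
  refine ⟨Additive.ofMul (r * s), ?_⟩
  rw [List.prod_append, List.prod_singleton, map_mul, Module.End.mul_apply, combHom_apply,
    combHom_apply, hs, ← hr, ← ofMul_pow, mul_pow]

end Fermat.Agent.RT.Lift59.Square

end
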