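import Fermat.Agent.RT.Lift59.Square.Power
import Fermat.Agent.RT.InertiaTW.TwistKill

/-!
# The units of the field of level `q n` modulo `p`-th powers

Long products of kernel elements of the group ring kill the classes modulo `p`-th powers of the
units with divisor divisible by `p`, hence also the monodromy of their roots.
-/

set_option autoImplicit false
set_option linter.unusedSectionVars false

noncomputable section

open scoped Classical MatrixGroups

namespace Fermat.Agent.RT.Lift59.Square

open ModularCurve AlgebraicCurve Matrix Fermat.Agent.Arith Fermat.Agent.Carayol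
open Fermat.Agent.Carayol.Omega
open Fermat.Agent.RT.InertiaTW

attribute [local instance 2000] serAlg

variable {q n p : ℕ} [NeZero (q * n)] [Fact q.Prime] [NeZero n] [NeZero q]
  [Fact p.Prime] [NeZero p] [Fact (q.Coprime n)] (D : QData q n)

theorem uMk_combProd (a : GL (Fin 2) (ZMod q) → ℤ) (y : D.Omˣ) :
    D.uMk p (combProd D.level a y) = ∑ g, a g • D.uAct p g (D.uMk p y) := by
  show (QuotientAddGroup.mk' (D.powUnits p))
    (Additive.ofMul (∏ g : GL (Fin 2) (ZMod q), D.level.transl y g ^ a g)) = _
  rw [ofMul_prod, map_sum]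
  exact Finset.sum_congr rfl fun g _ => by rw [ofMul_zpow, map_zsmul]; rfl

/-- **Long products of kernel elements kill the units modulo `p`-th powers.** -/
theorem exists_length_kill (hpq : p ≠ q) :
    ∃ N : ℕ, ∀ l : List (MonoidAlgebra ℤ (GL (Fin 2) (ZMod q))), l.length = N →
      (∀ x ∈ l, LineKills p x) → ∀ y : D.Omˣ, Places D.base p y →
        ∑ g, l.prod.coeff g • D.uAct p g (D.uMk p y) = 0 := by
  have hcop : p.Coprime q := (Nat.coprime_primes Fact.out Fact.out).mpr hpq
  obtain ⟨N, hN⟩ := exists_length_combHom D.level (U := inertialBase D.hA Fact.out)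
    (D.E.cuspEmb D.hA Fact.out D.hcop D.L D.hL D.hLn fun d =>
      exists_aut_inertiaField D.hA Fact.out
        ((Fact.out : q.Prime).coprime_iff_not_dvd.1 D.hcop) D.E.isPrimitiveRoot d)
    (TateLevel.isUnit_natCast (L := D.level) (U := inertialBase D.hA Fact.out) hcop)
  refine ⟨N, fun l hl hmem y hy => ?_⟩
  obtain ⟨r, hr⟩ := hN l hl hmem y hy
  rw [combHom_apply] at hr
  rw [← uMk_combProd]
  show (QuotientAddGroup.mk' (D.powUnits p)) (Additive.ofMul (combProd D.level _ y)) = 0
  exact (QuotientAddGroup.eq_zero_iff _).mpr ⟨r, hr.symm⟩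

end Fermat.Agent.RT.Lift59.Square

end
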