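import Fermat.Agent.RT.Lift59.Mazur.Main

/-!
# The start of the descent at `q²`: auxiliary prime and eigen class fixed by inertia

Inertia at `q` is unipotent on the eigen classes of order `p` of a residually modular semistable
model, so it fixes one of them.
-/

set_option autoImplicit false

noncomputable section

open WeierstrassCurve ModularCurve AlgebraicCurve Polynomial

namespace Fermat.Agent.RT.Lift59.Square

open Fermat.Agent.Arith Fermat.Agent.EC.Rep Fermat.Agent.RT.AtP Fermat.Agent.RT.Lift59.MazurQ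

variable {W : WeierstrassCurve ℤ} {p : ℕ}

/-- The rigidifying prime. -/
theorem exists_aux (hs : Setting W p) (T : Finset ℕ) :
    ∃ r, r.Prime ∧ r ∉ T ∧ r % 4 = 3 ∧ r % 3 = 2 ∧ (r : ZMod p) ≠ 1 := by
  have : Fact p.Prime := ⟨hs.hp.1⟩
  have hp2 : p ≠ 2 := hs.hp.2
  have : Fact (2 < p) := ⟨lt_of_le_of_ne hs.hp.1.two_le (Ne.symm hp2)⟩
  obtain ⟨r, hr, hrT, h4, h3, hrp, -⟩ := exists_aux_prime hp2 hs.hΔ hs.hW hs.hirr T
  exact ⟨r, hr, hrT, h4, h3, by rw [hrp]; exact ZMod.neg_one_ne_one⟩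

section

variable [Fact p.Prime] (hΔ : W.Δ ≠ 0) (hW : W.IsSemistableModel) {q : ℕ} (hq : q.Prime)
  (hqp : q ≠ p) {A : ValuationSubring QBar} (hA : A.LiesOverPrime q) {σ : GQ}
  (hσ : σ ∈ A.inertiaSubgroupIn ℚ)

include hW hq hqp hA hσ

/-- Inertia at `q ≠ p` is unipotent on the matrices of a semistable model. -/
theorem matP_inertia_away : (AtP.matP W p hΔ σ).trace = 2 ∧ (AtP.matP W p hΔ σ).det = 1 := by
  have h : LinearMap.charpoly ((residualRep W p hΔ).ρ σ) = (X - 1) ^ 2 :=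
    isUnipotentOnInertiaAt_residualRep hΔ hq hqp (semistable_not_dvd hW q hq) A hA σ hσ
  have hm : (AtP.matP W p hΔ σ).charpoly = (X - 1) ^ 2 := by
    rw [AtP.matP_apply]
    exact (LinearMap.charpoly_toMatrix _ _).trans h
  have e : ((X : (ZMod p)[X]) - 1) ^ 2 = X ^ 2 - C 2 * X + C 1 := by
    rw [show (2 : ZMod p) = 1 + 1 by norm_num, map_add, map_one]; ring
  rw [Matrix.trace_eq_neg_charpoly_coeff, Matrix.det_eq_sign_charpoly_coeff, hm, e]
  simp [coeff_one]

end

/-- Elements with `(x - 1)² = 0` in characteristic `p` have order dividing `p`. -/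
theorem pow_char_eq_one {p : ℕ} [hp : Fact p.Prime] {R : Type*} [Ring R] [CharP R p] {x : R}
    (h : (x - 1) ^ 2 = 0) : x ^ p = 1 := by
  have h1 : (x - 1) ^ p = 0 := by
    rw [← Nat.add_sub_cancel' hp.out.two_le, pow_add, h, zero_mul]
  rwa [sub_pow_char_of_commute _ (Commute.one_right x), one_pow, sub_eq_zero] at h1

/-- A group of maps with `(f - 1)² = 0` fixes a nonzero vector. -/
theorem exists_fixed_of_sq {p : ℕ} [hp : Fact p.Prime] {G V : Type*} [Group G] [AddCommGroup V]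
    [Module (ZMod p) V] [Finite V] [Nontrivial V] (ψ : G →* Module.End (ZMod p) V)
    (h : ∀ g, (ψ g - 1) ^ 2 = 0) : ∃ v : V, v ≠ 0 ∧ ∀ g, ψ g v = v := by
  classical
  have : CharP (Module.End (ZMod p) V) p :=
    charP_of_injective_algebraMap (algebraMap (ZMod p) (Module.End (ZMod p) V)).injective p
  let P := ψ.toHomUnits.range
  let _ : MulAction P V :=
    { smul := fun g v => ((g : (Module.End (ZMod p) V)ˣ) : Module.End (ZMod p) V) v
      one_smul := fun _ => rfl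
      mul_smul := fun _ _ _ => rfl }
  have hP : IsPGroup p P := by
    rintro ⟨-, g, rfl⟩
    exact ⟨1, Subtype.ext (Units.ext (by simpa using pow_char_eq_one (h g)))⟩
  have hdvd : p ∣ Nat.card V := by
    obtain ⟨v, hv⟩ := exists_ne (0 : V)
    have hord : addOrderOf v = p := addOrderOf_eq_prime
      (by rw [← Nat.cast_smul_eq_nsmul (ZMod p), ZMod.natCast_self, zero_smul]) hv
    exact hord ▸ addOrderOf_dvd_natCard v
  have h0 : (0 : V) ∈ MulAction.fixedPoints P V := fun g =>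
    map_zero ((g : (Module.End (ZMod p) V)ˣ) : Module.End (ZMod p) V)
  obtain ⟨v, hv, hne⟩ := hP.exists_fixed_point_of_prime_dvd_card_of_fixed_point V hdvd h0
  exact ⟨v, fun h => hne h.symm, fun g => hv ⟨ψ.toHomUnits g, g, rfl⟩⟩

/-- An eigen class of order `p` fixed by inertia at `q`. -/
theorem exists_fixed_class (hs : Setting W p) [Fact p.Prime] {M N : ℕ} [NeZero N]
    (hM : W.IsResiduallyModularOfLevel p M) (hMN : M ∣ N) {q : ℕ} (hq : q.Prime) (hqp : q ≠ p)
    {A : ValuationSubring QBar} (hA : A.LiesOverPrime q) :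
    ∃ x : JZero N, x ≠ 0 ∧ p • x = 0 ∧ (∀ σ ∈ A.inertiaSubgroupIn ℚ, σ • x = x) ∧
      ∀ l (hl : l.Prime), W.IsGoodPrimeFor l → ¬ l ∣ N * p →
        heckeOperatorBar N ⟨l, hl⟩ x = W.apOfModel l • x := by
  classical
  have hp : p.Prime := Fact.out
  obtain ⟨f, 𝔪, hf, h𝔪, hp𝔪, hcong⟩ := hM
  obtain ⟨f', hf', hff'⟩ := Newforms.exists_eigenform_of_dvd hMN hf
  have := h𝔪.isPrime
  set G : ℕ → Prop := fun l => W.IsGoodPrimeFor l ∧ ¬ l ∣ N * p with hG
  set a : ℕ → ℕ := fun l => (W.apOfModel l : ZMod p).val with ha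
  have hacast : ∀ l, (a l : ZMod p) = (W.apOfModel l : ZMod p) := fun l =>
    ZMod.natCast_zmod_val _
  have hdvd : ∀ l, (p : ℤ) ∣ W.apOfModel l - (a l : ℤ) := fun l => by
    rw [← ZMod.intCast_zmod_eq_zero_iff_dvd]; push_cast; rw [hacast, sub_self]
  obtain ⟨x₀, hx₀, hpx₀, hx₀e⟩ := AtP.exists_eigenclass hf' 𝔪 hp𝔪 G a fun l hl hl' => by
    have hlN : ¬ l ∣ N := fun h => hl'.2 (h.trans (dvd_mul_right N p))
    obtain ⟨c, hc, hcm⟩ := hcong l hl hl'.1 (fun h => hlN (h.trans hMN))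
      (fun h => hl'.2 (h ▸ dvd_mul_left p N))
    exact ⟨c, hc.trans (hff' l hl (Or.inr hlN)).symm,
      AtP.sub_intCast_mem hp𝔪 (by exact_mod_cast hacast l) hcm⟩
  set ψ := eigRep N p G a with hψ
  have hquad := eigRep_quadratic (G := G) (a := a) (GaloisReps.congruenceProperty N p)
    (fun l _ h => h.2)
    (insert p ((N.primeFactors) ∪ W.Δ.natAbs.primeFactors)) (fun l hl hlT => by
      simp only [Finset.mem_insert, Finset.mem_union, not_or] at hlT
      exact ⟨fun h => hlT.2.2 (Nat.mem_primeFactors.mpr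
          ⟨hl, Int.natCast_dvd.mp h, Int.natAbs_ne_zero.mpr hs.hΔ⟩),
        fun h => (hl.dvd_mul.mp h).elim
          (fun h' => hlT.2.1 (Nat.mem_primeFactors.mpr ⟨hl, h', NeZero.ne N⟩))
          fun h' => hlT.1 ((Nat.prime_dvd_prime_iff_eq hl hp).mp h')⟩)
    (AtP.matP W p hs.hΔ) (AtP.matP_finiteLevel hs.hΔ)
    (fun l hl hl' B hB σ hσ => by
      obtain ⟨h1, h2⟩ := AtP.matP_frobenius hs.hΔ hl hl'.1
        (fun h => hl'.2 (h ▸ dvd_mul_left p N)) hB hσ
      exact ⟨by rw [h1, hacast], h2⟩)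
  have : Nontrivial (eigTors N p G a) :=
    ⟨⟨⟨x₀, hpx₀, hx₀e⟩, 0, fun h => hx₀ (congrArg Subtype.val h)⟩⟩
  obtain ⟨v, hv, hfix⟩ := exists_fixed_of_sq
    (ψ.comp (Subgroup.subtype ((A.inertiaSubgroupIn ℚ)))) fun g => LinearMap.ext fun v => by
      obtain ⟨htr, hdet⟩ := matP_inertia_away hs.hΔ hs.hW hq hqp hA g.2
      have h := hquad g.1 v
      rw [htr, hdet, one_smul] at h
      rw [pow_two, Module.End.mul_apply, LinearMap.zero_apply]
      simp only [LinearMap.sub_apply, Module.End.one_apply, map_sub, MonoidHom.comp_apply,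
        Subgroup.coe_subtype, hψ]
      linear_combination (norm := module) h
  refine ⟨v.1, fun h => hv (Subtype.ext h), v.2.1,
    fun σ hσ => congrArg Subtype.val (hfix ⟨σ, hσ⟩), fun l hl hgood hlN => ?_⟩
  rw [v.2.2 l hl ⟨hgood, hlN⟩]
  obtain ⟨n, hn⟩ := hdvd l
  rw [eq_add_of_sub_eq hn, add_zsmul, mul_comm, mul_zsmul, natCast_zsmul, v.2.1, zsmul_zero,
    zero_add, natCast_zsmul]

end Fermat.Agent.RT.Lift59.Square

end
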